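import Fermat.Agent.Deform.FrameExists
import Fermat.Prelude.Def_GaloisRep_Adic

/-!
# PROJECT T: a residually absolutely irreducible representation is determined by its trace
(the part needed for S31: `tr ρ(τ g) = tr ρ(g)` for all `g` implies `ρ(τ) = 1`).
-/

set_option autoImplicit false

namespace FAT31

open IsLocalRing Module FADeform
open scoped TensorProduct

local notation "GQ" => (AlgebraicClosure ℚ ≃ₐ[ℚ] AlgebraicClosure ℚ)

variable {T : Type} [CommRing T] [IsLocalRing T]

theorem mem_smul_top_of_entries (X : Matrix (Fin 2) (Fin 2) T)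
    (h : ∀ i j, X i j ∈ maximalIdeal T) :
    X ∈ maximalIdeal T • (⊤ : Submodule T (Matrix (Fin 2) (Fin 2) T)) := by
  rw [Matrix.matrix_eq_sum_single X]
  refine Submodule.sum_mem _ fun i _ => Submodule.sum_mem _ fun j _ => ?_
  have : Matrix.single i j (X i j) = X i j • Matrix.single i j (1 : T) := by
    rw [Matrix.smul_single, smul_eq_mul, mul_one]
  rw [this]
  exact Submodule.smul_mem_smul (h i j) Submodule.mem_top

/-- Carayol / Nakayama: the matrices of a residually absolutely irreducible representation span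
the matrix algebra. -/
theorem span_toMatrix_eq_top (ρ : GaloisRepAdic T) (habs : ρ.residual.IsAbsolutelyIrreducible)
    (B : Basis (Fin 2) T ρ.V) :
    Submodule.span T (Set.range fun g : GQ => LinearMap.toMatrix B B (ρ.ρ g)) = ⊤ := by
  classical
  let k := ResidueField T
  let b : Basis (Fin 2) k (k ⊗[T] ρ.V) := Algebra.TensorProduct.basis k B
  have h1 := burnside_two (ρ.residual.baseChange (AlgebraicClosure k)).finrank_eq
    (ρ.residual.baseChange (AlgebraicClosure k)).ρ habs
  have h2 : Submodule.span k (Set.range fun g => LinearMap.toMatrix b b (ρ.residual.ρ g)) = ⊤ :=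
    span_toMatrix_eq_top_of_baseChange (K := AlgebraicClosure k) b (fun g => ρ.residual.ρ g) h1
  have h3 : ∀ g : GQ, LinearMap.toMatrix b b (ρ.residual.ρ g) =
      (LinearMap.toMatrix B B (ρ.ρ g)).map (residue T) := by
    intro g
    exact LinearMap.toMatrix_baseChange k (ρ.ρ g) B B
  set S := Submodule.span T (Set.range fun g : GQ => LinearMap.toMatrix B B (ρ.ρ g)) with hS
  rw [eq_top_iff]
  refine Submodule.le_of_le_smul_of_le_jacobson_bot (I := maximalIdeal T)
    (Module.Finite.fg_top) (by rw [IsLocalRing.jacobson_eq_maximalIdeal ⊥ bot_ne_top]) ?_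
  intro X _
  have hX : X.map (residue T) ∈
      Submodule.span k (Set.range fun g => LinearMap.toMatrix b b (ρ.residual.ρ g)) := by
    rw [h2]; trivial
  rw [Finsupp.mem_span_range_iff_exists_finsupp] at hX
  obtain ⟨c, hc⟩ := hX
  obtain ⟨x, rfl⟩ := Finsupp.mapRange_surjective (residue T) (map_zero _) residue_surjective c
  rw [Finsupp.sum_mapRange_index (by simp)] at hc
  set X0 : Matrix (Fin 2) (Fin 2) T := x.sum fun g c => c • LinearMap.toMatrix B B (ρ.ρ g) with hX0
  have hX0S : X0 ∈ S := by
    rw [hX0]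
    exact Submodule.sum_mem _ fun g _ => S.smul_mem _ (Submodule.subset_span ⟨g, rfl⟩)
  have hX0r : X0.map (residue T) = X.map (residue T) := by
    rw [← hc, hX0]
    change (residue T).mapMatrix (x.sum fun g c => c • LinearMap.toMatrix B B (ρ.ρ g)) = _
    rw [map_finsuppSum]
    refine Finsupp.sum_congr fun g _ => ?_
    rw [h3 g]
    ext i j
    simp
  have hdiff : X - X0 ∈ maximalIdeal T • (⊤ : Submodule T (Matrix (Fin 2) (Fin 2) T)) := by
    apply mem_smul_top_of_entries
    intro i j
    have := congrFun (congrFun hX0r i) j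
    simp only [Matrix.map_apply] at this
    rw [Matrix.sub_apply, ← residue_eq_zero_iff, map_sub, this, sub_self]
  have : X = X0 + (X - X0) := by abel
  rw [this]
  exact Submodule.add_mem_sup hX0S hdiff

theorem eq_one_of_trace (ρ : GaloisRepAdic T) (habs : ρ.residual.IsAbsolutelyIrreducible)
    (τ : GQ)
    (h : ∀ g : GQ, LinearMap.trace T ρ.V (ρ.ρ (τ * g)) = LinearMap.trace T ρ.V (ρ.ρ g)) :
    ρ.ρ τ = 1 := by
  classical
  let B : Basis (Fin 2) T ρ.V := finBasisOfFinrankEq T ρ.V ρ.finrank_eq
  have hspan := span_toMatrix_eq_top ρ habs B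
  set Y := LinearMap.toMatrix B B (ρ.ρ τ) - 1 with hY
  have h1 : ∀ Z ∈ Submodule.span T (Set.range fun g : GQ => LinearMap.toMatrix B B (ρ.ρ g)),
      Matrix.trace (Y * Z) = 0 := by
    intro Z hZ
    induction hZ using Submodule.span_induction with
    | mem Z hZ =>
      obtain ⟨g, rfl⟩ := hZ
      have h2 := h g
      rw [LinearMap.trace_eq_matrix_trace T B, LinearMap.trace_eq_matrix_trace T B, map_mul,
        Module.End.mul_eq_comp, LinearMap.toMatrix_comp B B B] at h2
      simp only
      rw [hY, sub_mul, one_mul, Matrix.trace_sub, h2, sub_self]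
    | zero => simp
    | add Z Z' _ _ hZ hZ' => rw [mul_add, Matrix.trace_add, hZ, hZ', add_zero]
    | smul c Z _ hZ => rw [Matrix.mul_smul, Matrix.trace_smul, hZ, smul_zero]
  have hY0 : Y = 0 := by
    ext i j
    have h2 := h1 (Matrix.single j i 1) (by rw [hspan]; trivial)
    rw [Matrix.trace_mul_comm, Matrix.trace_single_mul] at h2
    simpa using h2
  have h3 : LinearMap.toMatrix B B (ρ.ρ τ) = LinearMap.toMatrix B B 1 := by
    rw [LinearMap.toMatrix_one]
    exact sub_eq_zero.mp hY0
  exact (LinearMap.toMatrix B B).injective h3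

end FAT31
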