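/-
PROJECT T: roots of unity of arbitrary order `m` at Frobenius and inertia (`ℓ ∤ m`).
-/
import Fermat.Agent.Gal.Cyc

set_option autoImplicit false

open FA24 FAG

namespace FAT31

theorem pow_eq_pow_iff_of_primitive {F : Type*} [Field F] {x : F} {m : ℕ}
    (hx : IsPrimitiveRoot x m) (hm : m ≠ 0) {a b : ℕ} : x ^ a = x ^ b ↔ a ≡ b [MOD m] := by
  have hx0 : x ≠ 0 := by
    rintro rfl
    have := hx.pow_eq_one
    rw [zero_pow hm] at this
    exact zero_ne_one this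
  have h2 : orderOf (Units.mk0 x hx0) = m := by
    rw [← orderOf_units, Units.val_mk0, ← hx.eq_orderOf]
  rw [← h2, ← pow_eq_pow_iff_modEq, Units.ext_iff]
  simp

theorem exists_primitive_root_nat (m : ℕ) [NeZero m] : ∃ ζ : Kb, IsPrimitiveRoot ζ m := by
  have : NeZero (m : Kb) := ⟨Nat.cast_ne_zero.mpr (NeZero.ne m)⟩
  exact HasEnoughRootsOfUnity.exists_primitiveRoot Kb m

section Red

variable {m : ℕ} [NeZero m] {ℓ : ℕ} [Fact ℓ.Prime] (hℓm : ¬ ℓ ∣ m) (A : ValuationSubring Kb)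
  (hA : A.LiesOverPrime ℓ)

theorem root_mem_nat {ζ : Kb} (hζ : ζ ^ m = 1) : ζ ∈ A := by
  rw [← ValuationSubring.valuation_le_one_iff]
  by_contra h
  rw [not_le] at h
  have := one_lt_pow₀ h (NeZero.ne m)
  rw [← map_pow, hζ, map_one] at this
  exact lt_irrefl _ this

include hℓm hA in
theorem residue_root_primitive {ζ : Kb} (hζ : IsPrimitiveRoot ζ m) :
    IsPrimitiveRoot (IsLocalRing.residue A ⟨ζ, root_mem_nat A hζ.pow_eq_one⟩) m := by
  have : CharP (IsLocalRing.ResidueField A) ℓ :=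
    FA18.charP_of_liesOver A hA (IsLocalRing.residue A) IsLocalRing.residue_surjective
  have : NeZero (m : IsLocalRing.ResidueField A) :=
    ⟨fun h => hℓm ((CharP.cast_eq_zero_iff (IsLocalRing.ResidueField A) ℓ m).1 h)⟩
  have h2 : Polynomial.aeval ζ (Polynomial.cyclotomic m ℤ) = 0 := by
    have := hζ.isRoot_cyclotomic (NeZero.pos m)
    rw [Polynomial.IsRoot.def, ← Polynomial.map_cyclotomic_int, Polynomial.eval_map] at this
    exact this
  have h3 : Polynomial.aeval (⟨ζ, root_mem_nat A hζ.pow_eq_one⟩ : A)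
      (Polynomial.cyclotomic m ℤ) = 0 := by
    apply Subtype.ext
    have := Polynomial.aeval_algHom_apply (Algebra.ofId A Kb |>.restrictScalars ℤ)
      (⟨ζ, root_mem_nat A hζ.pow_eq_one⟩ : A) (Polynomial.cyclotomic m ℤ)
    exact this.symm.trans h2
  have h4 := congrArg (IsLocalRing.residue A) h3
  rw [map_zero, Polynomial.aeval_def, Polynomial.hom_eval₂, Polynomial.eval₂_eq_eval_map,
    Polynomial.map_cyclotomic] at h4
  exact Polynomial.isRoot_cyclotomic_iff.1 h4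

include hℓm hA in
/-- (Z1) a Frobenius element raises the `m`-th roots of unity to the `ℓ`-th power. -/
theorem apply_root_of_isFrobeniusAt {σ : Kb ≃ₐ[ℚ] Kb} (hσ : A.IsFrobeniusAt σ ℓ) {ζ : Kb}
    (hζ : IsPrimitiveRoot ζ m) : σ ζ = ζ ^ ℓ := by
  have : CharP (IsLocalRing.ResidueField A) ℓ :=
    FA18.charP_of_liesOver A hA (IsLocalRing.residue A) IsLocalRing.residue_surjective
  set ζA : A := ⟨ζ, root_mem_nat A hζ.pow_eq_one⟩ with hζA
  obtain ⟨hm, h1⟩ := hσ_of_isFrobeniusAt (π := IsLocalRing.residue A)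
    IsLocalRing.residue_surjective hσ ζA
  obtain ⟨j, -, hj⟩ := hζ.eq_pow_of_pow_eq_one (ξ := σ ζ) (by rw [← map_pow, hζ.pow_eq_one, map_one])
  have h2 : (⟨(σ : Kb →+* Kb) (ζA : Kb), hm⟩ : A) = ζA ^ j := Subtype.ext hj.symm
  rw [h2, map_pow, frobenius_def,
    pow_eq_pow_iff_of_primitive (residue_root_primitive hℓm A hA hζ) (NeZero.ne m)] at h1
  rw [← hj]
  exact (pow_eq_pow_iff_of_primitive hζ (NeZero.ne m)).2 h1

include hℓm hA in
/-- (Z2) inertia fixes the `m`-th roots of unity. -/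
theorem apply_root_of_mem_inertia {σ : Kb ≃ₐ[ℚ] Kb} (hσ : σ ∈ A.inertiaSubgroupIn ℚ) {ζ : Kb}
    (hζ : IsPrimitiveRoot ζ m) : σ ζ = ζ := by
  set ζA : A := ⟨ζ, root_mem_nat A hζ.pow_eq_one⟩ with hζA
  obtain ⟨hm, h1⟩ := hσ_of_mem_inertia (π := IsLocalRing.residue A)
    IsLocalRing.residue_surjective hσ ζA
  obtain ⟨j, -, hj⟩ := hζ.eq_pow_of_pow_eq_one (ξ := σ ζ) (by rw [← map_pow, hζ.pow_eq_one, map_one])
  have h2 : (⟨(σ : Kb →+* Kb) (ζA : Kb), hm⟩ : A) = ζA ^ j := Subtype.ext hj.symm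
  rw [h2, map_pow, RingHom.id_apply] at h1
  have h3 : (IsLocalRing.residue A ζA) ^ j = (IsLocalRing.residue A ζA) ^ 1 := by rw [h1, pow_one]
  rw [pow_eq_pow_iff_of_primitive (residue_root_primitive hℓm A hA hζ) (NeZero.ne m)] at h3
  rw [← hj, (pow_eq_pow_iff_of_primitive hζ (NeZero.ne m)).2 h3, pow_one]

end Red

/-- iterating (Z1). -/
theorem pow_apply_root {σ : Kb ≃ₐ[ℚ] Kb} {ζ : Kb} {ℓ : ℕ} (h : σ ζ = ζ ^ ℓ) (b : ℕ) :
    (σ ^ b) ζ = ζ ^ (ℓ ^ b) := by
  induction b with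
  | zero => simp
  | succ n ih =>
    rw [pow_succ', AlgEquiv.mul_apply, ih, map_pow, h, ← pow_mul, pow_succ']

end FAT31
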