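import Mathlib

/-!
# PROJECT T: the Dickson recursion `s_b = x^b + y^b` in terms of `x + y`, `x y`
-/

set_option autoImplicit false

namespace FAT31

/-- `dick t d b = x ^ b + y ^ b` when `x + y = t`, `x y = d`. -/
def dick {R : Type*} [Ring R] (t d : R) : ℕ → R
  | 0 => 2
  | 1 => t
  | (b + 2) => t * dick t d (b + 1) - d * dick t d b

theorem dick_zero {R : Type*} [Ring R] (t d : R) : dick t d 0 = 2 := rfl

theorem dick_one {R : Type*} [Ring R] (t d : R) : dick t d 1 = t := rfl

theorem dick_succ_succ {R : Type*} [Ring R] (t d : R) (b : ℕ) :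
    dick t d (b + 2) = t * dick t d (b + 1) - d * dick t d b := rfl

theorem map_dick {R S : Type*} [Ring R] [Ring S] (f : R →+* S) (t d : R) (b : ℕ) :
    f (dick t d b) = dick (f t) (f d) b := by
  induction b using Nat.twoStepInduction with
  | zero => rw [dick_zero, dick_zero, map_ofNat]
  | one => rw [dick_one, dick_one]
  | more n h0 h1 => rw [dick_succ_succ, dick_succ_succ, map_sub, map_mul, map_mul, h0, h1]

/-- power sums of two commuting elements. -/
theorem pow_add_pow_eq_dick {E : Type*} [Ring E] {s t : E} {c : E} (hst : s * t = c)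
    (hts : t * s = c) (b : ℕ) : s ^ b + t ^ b = dick (s + t) c b := by
  induction b using Nat.twoStepInduction with
  | zero => rw [pow_zero, pow_zero, dick_zero, one_add_one_eq_two]
  | one => rw [pow_one, pow_one, dick_one]
  | more n h0 h1 =>
    have h2 : s ^ (n + 2) + t ^ (n + 2) =
        (s + t) * (s ^ (n + 1) + t ^ (n + 1)) - ((s * t) * t ^ n + (t * s) * s ^ n) := by
      rw [pow_succ' s (n + 1), pow_succ' t (n + 1), pow_succ' t n, pow_succ' s n]
      noncomm_ring
    rw [h2, h1, hst, hts, ← mul_add, add_comm (t ^ n), h0, dick_succ_succ]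

/-- the Eichler--Shimura relation gives `F ^ b + ℓ ^ b F ^ (-b)`. -/
theorem pow_add_eq_dick_of_ES {E : Type*} [Ring E] {F F' T : E} (l : ℕ) (h1 : F * F' = 1)
    (h2 : F' * F = 1) (h : F * F + (l : E) = T * F) (b : ℕ) :
    F ^ b + (l : E) ^ b * F' ^ b = dick T (l : E) b := by
  have hT : T = F + (l : E) * F' := by
    have h3 : T = (T * F) * F' := by rw [mul_assoc, h1, mul_one]
    rw [h3, ← h, add_mul, mul_assoc, h1, mul_one]
  have hc : Commute (l : E) F' := Nat.cast_commute l F'
  have h4 : F * ((l : E) * F') = (l : E) := by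
    rw [← mul_assoc, ← (Nat.cast_commute l F).eq, mul_assoc, h1, mul_one]
  have h5 : ((l : E) * F') * F = (l : E) := by rw [mul_assoc, h2, mul_one]
  rw [hT, ← pow_add_pow_eq_dick h4 h5 b, hc.mul_pow]

/-- traces of powers of an endomorphism of a free module of rank two. -/
theorem trace_pow_eq_dick {R V : Type*} [CommRing R] [Nontrivial R] [AddCommGroup V] [Module R V]
    [Module.Free R V] [Module.Finite R V] (hV : Module.finrank R V = 2) (A : Module.End R V)
    {a d : R}
    (h : LinearMap.charpoly A = Polynomial.X ^ 2 - Polynomial.C a * Polynomial.X + Polynomial.C d)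
    (b : ℕ) : LinearMap.trace R V (A ^ b) = dick a d b := by
  have hCH : A ^ 2 - a • A + d • 1 = 0 := by
    have h1 := LinearMap.aeval_self_charpoly A
    rw [h, map_add, map_sub, map_mul, map_pow, Polynomial.aeval_X, Polynomial.aeval_C,
      Polynomial.aeval_C, Algebra.algebraMap_eq_smul_one, Algebra.algebraMap_eq_smul_one,
      smul_mul_assoc, one_mul] at h1
    exact h1
  have htr : LinearMap.trace R V A = a := by
    let B := Module.finBasisOfFinrankEq R V hV
    rw [LinearMap.trace_eq_matrix_trace R B A, Matrix.trace_eq_neg_charpoly_coeff,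
      LinearMap.charpoly_toMatrix, h]
    simp [Polynomial.coeff_C]
  induction b using Nat.twoStepInduction with
  | zero => rw [pow_zero, LinearMap.trace_one, hV, dick_zero]; norm_num
  | one => rw [pow_one, dick_one, htr]
  | more n h0 h1 =>
    have h2 : A ^ (n + 2) = a • A ^ (n + 1) - d • A ^ n := by
      have h3 : A ^ 2 = a • A - d • 1 := by
        rw [← sub_eq_zero, ← hCH]; abel
      rw [pow_add, h3, mul_sub, mul_smul_comm, mul_smul_comm, mul_one, ← pow_succ]
    rw [h2, map_sub, map_smul, map_smul, h0, h1, dick_succ_succ, smul_eq_mul, smul_eq_mul]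

end FAT31
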