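import Fermat.Agent.Gal.K4Of
import Fermat.Prelude.Def_CuspForm_HeckeAlgebra

/-!
# PROJECT T, [T-HECKE] + [AR]: the Hecke algebra acting on cusp forms and on the lattice
`Λ = Hpar(Γ₀(N), ℤ)`; Artin--Rees.
-/

set_option autoImplicit false

open UpperHalfPlane hiding I
open CongruenceSubgroup Matrix.SpecialLinearGroup ModularFormClass Module
open scoped MatrixGroups ModularForm
open ModularCurve ModularCurve.Period FAG

namespace FAT31

variable {N : ℕ} [NeZero N]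

/-- `s` on the lattice and `t` on cusp forms correspond under the period map. -/
def HRel {r : ℕ} (γ : Fin r → Gamma0 N) (b : Basis (Fin r) ℤ (LamZ N)) (s : Module.End ℤ (LamZ N))
    (t : Module.End ℂ (CuspForm (Gamma0 N) 2)) : Prop :=
  ∀ (f : CuspForm (Gamma0 N) 2) (x : Additive (Gamma0 N)),
    periodMap N (t f) x =
      ∑ i, (((s (b i) : (LamZ N)) : Additive (Gamma0 N) →+ ℤ) x : ℂ) *
        periodMap N f (Additive.ofMul (γ i))

section

variable {r : ℕ} {γ : Fin r → Gamma0 N} {b : Basis (Fin r) ℤ (LamZ N)}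

theorem HRel.uniq {s : Module.End ℤ (LamZ N)} {t t' : Module.End ℂ (CuspForm (Gamma0 N) 2)}
    (h : HRel γ b s t) (h' : HRel γ b s t') : t = t' := by
  refine LinearMap.ext fun f => ?_
  by_contra hne
  have h1 : t f - t' f ≠ 0 := sub_ne_zero.2 hne
  apply periodMap_ne_zero h1
  have h2 : periodMap N (t f - t' f) = periodMap N (t f) - periodMap N (t' f) :=
    (FAES.pml N).map_sub _ _
  rw [h2, sub_eq_zero]
  refine AddMonoidHom.ext fun x => ?_
  rw [h f x, h' f x]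

theorem HRel.zero : HRel γ b 0 0 := by
  intro f x
  have h2 : periodMap N (0 : CuspForm (Gamma0 N) 2) = 0 := (FAES.pml N).map_zero
  simp [h2]

theorem HRel.add {s s' : Module.End ℤ (LamZ N)} {t t' : Module.End ℂ (CuspForm (Gamma0 N) 2)}
    (h : HRel γ b s t) (h' : HRel γ b s' t') : HRel γ b (s + s') (t + t') := by
  intro f x
  have h2 : periodMap N (t f + t' f) = periodMap N (t f) + periodMap N (t' f) :=
    (FAES.pml N).map_add _ _
  rw [LinearMap.add_apply, h2, AddMonoidHom.add_apply, h f x, h' f x, ← Finset.sum_add_distrib]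
  refine Finset.sum_congr rfl fun i _ => ?_
  rw [LinearMap.add_apply, Submodule.coe_add, AddMonoidHom.add_apply, Int.cast_add, add_mul]

theorem HRel.neg {s : Module.End ℤ (LamZ N)} {t : Module.End ℂ (CuspForm (Gamma0 N) 2)}
    (h : HRel γ b s t) : HRel γ b (-s) (-t) := by
  intro f x
  have h2 : periodMap N (-(t f)) = -periodMap N (t f) := (FAES.pml N).map_neg _
  rw [LinearMap.neg_apply, h2, AddMonoidHom.neg_apply, h f x, ← Finset.sum_neg_distrib]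
  refine Finset.sum_congr rfl fun i _ => ?_
  rw [LinearMap.neg_apply, Submodule.coe_neg, AddMonoidHom.neg_apply, Int.cast_neg, neg_mul]

theorem HRel.one
    (hb2 : ∀ ψ : Additive (Gamma0 N) →+ ℂ,
      (∀ x ∈ {γ : Gamma0 N | ((γ : SL(2, ℤ)) : Matrix (Fin 2) (Fin 2) ℤ).trace ^ 2 = 4},
        ψ (Additive.ofMul x) = 0) →
      ∀ x, ψ x = ∑ i, (((b i : (LamZ N)) : Additive (Gamma0 N) →+ ℤ) x : ℂ) *
        ψ (Additive.ofMul (γ i))) : HRel γ b 1 1 := by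
  intro f x
  exact hb2 (periodMap N f) (FAES.periodMap_mem_parabolicHoms f) x

theorem HRel.mul
    (hb1 : ∀ (χ : (LamZ N)) i, b.repr χ i = (χ : Additive (Gamma0 N) →+ ℤ) (Additive.ofMul (γ i)))
    {s s' : Module.End ℤ (LamZ N)} {t t' : Module.End ℂ (CuspForm (Gamma0 N) 2)}
    (h : HRel γ b s t) (h' : HRel γ b s' t') : HRel γ b (s * s') (t * t') := by
  intro f x
  rw [Module.End.mul_apply, h (t' f) x]
  simp only [h' f, Finset.mul_sum]
  rw [Finset.sum_comm]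
  refine Finset.sum_congr rfl fun j _ => ?_
  rw [Module.End.mul_apply]
  conv_rhs => rw [← b.sum_repr (s' (b j))]
  rw [map_sum, Submodule.coe_sum, AddMonoidHom.finsetSum_apply, Int.cast_sum, Finset.sum_mul]
  refine Finset.sum_congr rfl fun i _ => ?_
  rw [map_smul, hb1, Submodule.coe_smul, AddMonoidHom.smul_apply, smul_eq_mul, Int.cast_mul]
  ring

theorem HRel.hecke
    (hb2 : ∀ ψ : Additive (Gamma0 N) →+ ℂ,
      (∀ x ∈ {γ : Gamma0 N | ((γ : SL(2, ℤ)) : Matrix (Fin 2) (Fin 2) ℤ).trace ^ 2 = 4},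
        ψ (Additive.ofMul x) = 0) →
      ∀ x, ψ x = ∑ i, (((b i : (LamZ N)) : Additive (Gamma0 N) →+ ℤ) x : ℂ) *
        ψ (Additive.ofMul (γ i))) {ℓ : ℕ} (hℓ : ℓ.Prime) (hℓN : ¬ ℓ ∣ N) :
    HRel γ b (heckePar N hℓ hℓN ℤ ℤ) (CuspForm.heckeTLin 2 hℓ hℓN) := by
  intro f x
  obtain ⟨x, rfl⟩ := Additive.ofMul.surjective x
  have h1 := periodMap_heckeTLin hℓ hℓN f (dR ℓ) (fun F τ => by
    rw [Fintype.sum_option, add_comm, Finset.sum_range]
    rfl) x ((hsys N hℓ hℓN).perm x) ((hsys N hℓ hℓN).kap x) (fun i => (hsys N hℓ hℓN).spec x i)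
  rw [h1, Finset.sum_congr rfl fun m _ =>
    hb2 (periodMap N f) (FAES.periodMap_mem_parabolicHoms f) (Additive.ofMul _)]
  rw [Finset.sum_comm]
  refine Finset.sum_congr rfl fun i _ => ?_
  rw [coe_heckePar, HSys.heckeAdd_apply, Int.cast_sum, Finset.sum_mul]

end

/-- the ring of compatible pairs. -/
def relRing (S : Set ℕ) {r : ℕ} (γ : Fin r → Gamma0 N) (b : Basis (Fin r) ℤ (LamZ N))
    (hb1 : ∀ (χ : (LamZ N)) i, b.repr χ i = (χ : Additive (Gamma0 N) →+ ℤ) (Additive.ofMul (γ i)))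
    (hb2 : ∀ ψ : Additive (Gamma0 N) →+ ℂ,
      (∀ x ∈ {γ : Gamma0 N | ((γ : SL(2, ℤ)) : Matrix (Fin 2) (Fin 2) ℤ).trace ^ 2 = 4},
        ψ (Additive.ofMul x) = 0) →
      ∀ x, ψ x = ∑ i, (((b i : (LamZ N)) : Additive (Gamma0 N) →+ ℤ) x : ℂ) *
        ψ (Additive.ofMul (γ i))) :
    Subring (Module.End ℤ (LamZ N) × CuspForm.heckeAlgebra N 2 S) where
  carrier := {x | HRel γ b x.1 x.2.1}
  mul_mem' := fun h h' => HRel.mul hb1 h h'
  one_mem' := HRel.one hb2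
  add_mem' := fun h h' => HRel.add h h'
  zero_mem' := HRel.zero
  neg_mem' := fun h => HRel.neg h

/-- abstract Artin--Rees for a subgroup of the endomorphisms of a lattice. -/
theorem AR_abs {M R : Type*} [AddCommGroup M] [AddCommGroup R] {r : ℕ} (b : Basis (Fin r) ℤ M)
    (φ : R →+ Module.End ℤ M) (p : ℕ) :
    ∃ c : ℕ, ∀ (n : ℕ) (x : R), (∀ χ : M, ∃ χ' : M, φ x χ = (p ^ (n + c)) • χ') →
      ∃ x' : R, φ x = (p ^ n) • φ x' := by
  classical
  have : Module.Finite ℤ M := Module.Finite.of_basis b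
  have : Module.Free ℤ M := Module.Free.of_basis b
  have : Module.Finite ℤ (Module.End ℤ M) := Module.Finite.linearMap ℤ ℤ M M
  let Q : Submodule ℤ (Module.End ℤ M) := LinearMap.range φ.toIntLinearMap
  obtain ⟨c, hc⟩ := Ideal.exists_pow_inf_eq_pow_smul (Ideal.span {(p : ℤ)}) Q
  refine ⟨c, fun n x hx => ?_⟩
  choose χ' hχ' using hx
  have h1 : φ x = ((p : ℤ) ^ (n + c)) • b.constr ℤ (fun i => χ' (b i)) := by
    refine b.ext fun i => ?_
    rw [LinearMap.smul_apply, Basis.constr_basis, hχ']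
    norm_cast
  have h2 : φ x ∈ Ideal.span {(p : ℤ)} ^ (n + c) • (⊤ : Submodule ℤ (Module.End ℤ M)) ⊓ Q := by
    refine ⟨?_, ⟨x, rfl⟩⟩
    rw [h1]
    exact Submodule.smul_mem_smul (Ideal.pow_mem_pow (Ideal.mem_span_singleton_self _) _) trivial
  rw [hc (n + c) (Nat.le_add_left c n), Nat.add_sub_cancel, Ideal.span_singleton_pow,
    Submodule.ideal_span_singleton_smul, Submodule.mem_smul_pointwise_iff_exists] at h2
  obtain ⟨y, ⟨-, ⟨x', rfl⟩⟩, hy⟩ := h2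
  refine ⟨x', ?_⟩
  rw [← hy]
  change ((p : ℤ) ^ n) • φ x' = _
  norm_cast

/-- **[T-HECKE] + [AR]**. -/
theorem hecke_AR (N : ℕ) [NeZero N] (S : Set ℕ) (p : ℕ) :
    ∃ (R : Type) (_ : Ring R) (φ : R →+* Module.End ℤ (LamZ N))
      (ψ : R →+* CuspForm.heckeAlgebra N 2 S),
      (∀ (ℓ : ℕ) (hℓ : ℓ.Prime) (hℓN : ¬ ℓ ∣ N) (hℓS : ℓ ∉ S), ∃ x : R,
        φ x = heckePar N hℓ hℓN ℤ ℤ ∧ ψ x = CuspForm.heckeAlgebra.T hℓ hℓN hℓS) ∧
      ∃ c : ℕ, ∀ (n : ℕ) (x : R), (∀ χ : (LamZ N), ∃ χ' : (LamZ N), φ x χ = (p ^ (n + c)) • χ') →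
        ∃ t' : CuspForm.heckeAlgebra N 2 S, ψ x = (p ^ n) • t' := by
  classical
  have := FAH3.fg_Gamma0 N
  obtain ⟨r, γ, b, hb1, hb2⟩ := exists_basis_dual
    {γ : Gamma0 N | ((γ : SL(2, ℤ)) : Matrix (Fin 2) (Fin 2) ℤ).trace ^ 2 = 4}
    (parabolicHoms ℤ (Gamma0 N) ℤ) (fun χ => Iff.rfl)
  let R := relRing S γ b hb1 hb2
  let φ : R →+* Module.End ℤ (LamZ N) := (RingHom.fst _ _).comp R.subtype
  let ψ : R →+* CuspForm.heckeAlgebra N 2 S := (RingHom.snd _ _).comp R.subtype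
  obtain ⟨c, hc⟩ := AR_abs b (φ : R →+ Module.End ℤ (LamZ N)) p
  refine ⟨R, inferInstance, φ, ψ, fun ℓ hℓ hℓN hℓS =>
    ⟨⟨(heckePar N hℓ hℓN ℤ ℤ, CuspForm.heckeAlgebra.T hℓ hℓN hℓS), HRel.hecke hb2 hℓ hℓN⟩,
      rfl, rfl⟩, c, fun n x hx => ?_⟩
  obtain ⟨x', hx'⟩ := hc n x hx
  refine ⟨ψ x', ?_⟩
  have h3 : HRel γ b (φ x) (ψ x).1 := x.2
  have h4 : HRel γ b (φ ((p ^ n : ℕ) • x')) (ψ ((p ^ n : ℕ) • x')).1 := ((p ^ n : ℕ) • x').2
  have h5 : φ ((p ^ n : ℕ) • x') = φ x := by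
    rw [map_nsmul]
    exact hx'.symm
  rw [h5] at h4
  apply Subtype.ext
  rw [h3.uniq h4, map_nsmul]

end FAT31
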