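/-
PROJECT T, S31 by the finite-level route: the trace congruence
`tr ρ(τ g) ≡ tr ρ(g) mod 𝔪 ^ n` for `τ` in an inertia group at `q ∤ N p`.
-/
import Fermat.Agent.Gal.K4
import Fermat.Agent.Gal.Engine
import Fermat.Agent.Tate.S31Dick
import Fermat.Agent.Tate.S31Cyc
import Fermat.Agent.Tate.S31Hecke
import Fermat.Agent.Tate.S31Car
import Fermat.Prelude.Def_CuspForm_HeckeGaloisRepDatum

set_option autoImplicit false

open FA24 FAG Module IsLocalRing Polynomial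

namespace FAT31

/-- the trace of an endomorphism with image in `I V` lies in `I`. -/
theorem trace_mem_of_forall_mem {T V : Type*} [CommRing T] [AddCommGroup V] [Module T V]
    [Module.Free T V] [Module.Finite T V] (I : Ideal T) (f : Module.End T V)
    (h : ∀ v, f v ∈ I • (⊤ : Submodule T V)) : LinearMap.trace T V f ∈ I := by
  classical
  let B := Module.Free.chooseBasis T V
  rw [LinearMap.trace_eq_matrix_trace T B, Matrix.trace]
  refine Ideal.sum_mem _ fun i _ => ?_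
  rw [Matrix.diag_apply, LinearMap.toMatrix_apply]
  have key : ∀ w ∈ I • (⊤ : Submodule T V), B.repr w i ∈ I := by
    intro w hw
    induction hw using Submodule.smul_induction_on' with
    | smul a ha v _ =>
      rw [map_smul, Finsupp.smul_apply, smul_eq_mul]
      exact I.mul_mem_right _ ha
    | add x _ y _ hx hy =>
      rw [map_add, Finsupp.add_apply]
      exact I.add_mem hx hy
  exact key _ (h _)

/-- intertwining of the Dickson polynomials. -/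
theorem dick_intertwine {M M' E E' : Type*} [AddCommGroup M] [AddCommGroup M'] [Ring E] [Ring E']
    [Module E M] [Module E' M'] (Ψ : M →+ M') {t : E} {t' : E'}
    (h : ∀ x, Ψ (t • x) = t' • Ψ x) (l : ℕ) (b : ℕ) (x : M) :
    Ψ (dick t (l : E) b • x) = dick t' (l : E') b • Ψ x := by
  induction b using Nat.twoStepInduction generalizing x with
  | zero =>
    rw [dick_zero, dick_zero, two_smul, two_smul, map_add]
  | one => rw [dick_one, dick_one, h]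
  | more n h0 h1 =>
    rw [dick_succ_succ, dick_succ_succ, sub_smul, sub_smul, mul_smul, mul_smul, mul_smul, mul_smul,
      map_sub, h, h1, Nat.cast_smul_eq_nsmul, Nat.cast_smul_eq_nsmul, map_nsmul, h0]

/-- a common field of definition for the image of a lattice. -/
theorem exists_field_fix {M X : Type*} [AddCommGroup M] [AddCommGroup X] {r : ℕ}
    (b : Basis (Fin r) ℤ M) (Ψ : M →+ X) (act : GQ → X →+ X)
    (hsm : ∀ x : X, ∃ L : IntermediateField ℚ Kb, FiniteDimensional ℚ L ∧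
      ∀ σ : GQ, (∀ y ∈ L, σ y = y) → act σ x = x) :
    ∃ L : IntermediateField ℚ Kb, FiniteDimensional ℚ L ∧
      ∀ σ : GQ, (∀ y ∈ L, σ y = y) → ∀ χ, act σ (Ψ χ) = Ψ χ := by
  choose L hL h using fun i => hsm (Ψ (b i))
  refine ⟨⨆ i, L i, IntermediateField.finiteDimensional_iSup_of_finite, fun σ hσ χ => ?_⟩
  rw [← b.sum_repr χ, map_sum, map_sum]
  refine Finset.sum_congr rfl fun i _ => ?_
  rw [map_zsmul, map_zsmul, h i σ fun y hy => hσ y ((le_iSup L i) hy)]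

section Core

variable {m N : ℕ} [NeZero N] [NeZero m] {S : Finset ℕ} {T : Type} [CommRing T] [IsLocalRing T]

/-- the data attached to `g` by Chebotarev. -/
theorem frob_data (hmS : ∀ ℓ : ℕ, ℓ.Prime → ℓ ∣ m → ℓ ∈ S)
    (hNS : ∀ q : ℕ, q.Prime → q ∣ N → q ∈ S)
    (π : CuspForm.heckeAlgebra N 2 (↑S : Set ℕ) →+* T) (ρ : GaloisRepAdic T)
    (hfrob : ∀ (ℓ : ℕ) (hℓ : ℓ.Prime) (hℓN : ¬ ℓ ∣ N) (hℓS : ℓ ∉ (↑S : Set ℕ)),
      ∀ A : ValuationSubring (AlgebraicClosure ℚ), A.LiesOverPrime ℓ →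
        ∀ σ : AlgebraicClosure ℚ ≃ₐ[ℚ] AlgebraicClosure ℚ, A.IsFrobeniusAt σ ℓ →
          LinearMap.charpoly (ρ.ρ σ) =
            X ^ 2 - C (π (CuspForm.heckeAlgebra.T hℓ hℓN hℓS)) * X + C ((ℓ : T)))
    {R : Type} [Ring R] (φ : R →+* Module.End ℤ (LamZ N))
    (ψ : R →+* CuspForm.heckeAlgebra N 2 (↑S : Set ℕ))
    (hgen : ∀ (ℓ : ℕ) (hℓ : ℓ.Prime) (hℓN : ¬ ℓ ∣ N) (hℓS : ℓ ∉ (↑S : Set ℕ)), ∃ x : R,
        φ x = heckePar N hℓ hℓN ℤ ℤ ∧ ψ x = CuspForm.heckeAlgebra.T hℓ hℓN hℓS)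
    (Ψ : LamZ N →+ KK m N)
    (hΨ : ∀ (i : GoodP N) χ, Ψ (heckePar N i.2.1 i.2.2 ℤ ℤ χ) = KK.T m N i.1 (Ψ χ))
    (I : Ideal T) (L : IntermediateField ℚ Kb) [FiniteDimensional ℚ L] [IsGalois ℚ L]
    (hL1 : ∀ σ : GQ, (∀ x ∈ L, σ x = x) → ∀ v : ρ.V, ρ.ρ σ v - v ∈ I • (⊤ : Submodule T ρ.V))
    (hL2 : ∀ σ : GQ, (∀ x ∈ L, σ x = x) → ∀ χ, KK.act m N σ (Ψ χ) = Ψ χ)
    {ζ : Kb} (hζ : IsPrimitiveRoot ζ m) (hζL : ζ ∈ L) (g : GQ) :
    ∃ (y : R) (e : ℕ), LinearMap.trace T ρ.V (ρ.ρ g) - π (ψ y) ∈ I ∧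
      (∀ χ, Ψ (φ y χ) = KK.act m N g (Ψ χ) + e • KK.act m N g⁻¹ (Ψ χ)) ∧ g ζ = ζ ^ e := by
  obtain ⟨ℓ, A, σ, b, hℓ, hℓS, hA, hσ, hg⟩ := CHEB L g S
  have hℓS' : ℓ ∉ (↑S : Set ℕ) := fun h => hℓS (Finset.mem_coe.1 h)
  have hℓN : ¬ ℓ ∣ N := fun h => hℓS (hNS ℓ hℓ h)
  have hℓm : ¬ ℓ ∣ m := fun h => hℓS (hmS ℓ hℓ h)
  have : Fact ℓ.Prime := ⟨hℓ⟩
  obtain ⟨x, hxφ, hxψ⟩ := hgen ℓ hℓ hℓN hℓS'
  set r : GQ →* (L ≃ₐ[ℚ] L) := AlgEquiv.restrictNormalHom (F := ℚ) (K₁ := Kb) L with hr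
  have hr1 : ∀ σ : GQ, r σ = 1 → ∀ x ∈ L, σ x = x := by
    intro σ h
    rw [← map_one r, hr, restrictNormalHom_eq_iff] at h
    exact h
  have hrg : r g = r (σ ^ b) := (restrictNormalHom_eq_iff L g (σ ^ b)).2 hg
  have hB : ∀ a a' : GQ, r a = r a' → ∀ χ, KK.act m N a (Ψ χ) = KK.act m N a' (Ψ χ) := by
    intro a a' h χ
    have h1 : r (a'⁻¹ * a) = 1 := by rw [map_mul, map_inv, h, inv_mul_cancel]
    have h2 := hL2 _ (hr1 _ h1) χ
    have h3 : KK.act m N a (Ψ χ) = KK.act m N a' (KK.act m N (a'⁻¹ * a) (Ψ χ)) := by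
      rw [← Module.End.mul_apply, ← map_mul, mul_inv_cancel_left]
    rw [h3, h2]
  refine ⟨dick x (ℓ : R) b, ℓ ^ b, ?_, fun χ => ?_, ?_⟩
  · -- the trace
    have h1 : LinearMap.trace T ρ.V (ρ.ρ (σ ^ b)) = π (ψ (dick x (ℓ : R) b)) := by
      rw [map_pow, trace_pow_eq_dick ρ.finrank_eq (ρ.ρ σ) (hfrob ℓ hℓ hℓN hℓS' A hA σ hσ) b,
        map_dick, map_dick, hxψ, map_natCast, map_natCast]
    rw [← h1, ← map_sub]
    apply trace_mem_of_forall_mem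
    intro v
    have h2 : r (g * (σ ^ b)⁻¹) = 1 := by rw [map_mul, map_inv, hrg, mul_inv_cancel]
    have h3 := hL1 _ (hr1 _ h2) (ρ.ρ (σ ^ b) v)
    rw [← Module.End.mul_apply, ← map_mul, inv_mul_cancel_right] at h3
    exact h3
  · -- the Eichler--Shimura relation
    have h1 : Ψ (φ (dick x (ℓ : R) b) χ) =
        dick (KK.T m N ℓ) ((ℓ : ℕ) : Module.End (ZMod m) (KK m N)) b (Ψ χ) := by
      rw [map_dick, hxφ, map_natCast]
      exact dick_intertwine (E := Module.End ℤ (LamZ N)) (E' := Module.End (ZMod m) (KK m N)) Ψ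
        (fun χ => hΨ ⟨ℓ, hℓ, hℓN⟩ χ) ℓ b χ
    have hES := KK.ES m N hℓ hℓN hℓm A hA σ hσ
    rw [Nat.cast_smul_eq_nsmul, nsmul_one] at hES
    have h2 := pow_add_eq_dick_of_ES (F := KK.act m N σ) (F' := KK.act m N σ⁻¹) ℓ
      (by rw [← map_mul, mul_inv_cancel, map_one]) (by rw [← map_mul, inv_mul_cancel, map_one])
      hES b
    rw [h1, ← h2, LinearMap.add_apply, ← map_pow, ← map_pow, ← Nat.cast_pow, ← nsmul_eq_mul,
      LinearMap.smul_apply, inv_pow, hB (σ ^ b) g hrg.symm,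
      hB (σ ^ b)⁻¹ g⁻¹ (by rw [map_inv, map_inv, hrg])]
  · rw [hg ζ hζL]
    exact pow_apply_root (apply_root_of_isFrobeniusAt hℓm A hA hσ hζ) b

end Core

section Main

variable {p N : ℕ} [NeZero N] {S : Finset ℕ} {T : Type} [CommRing T] [IsLocalRing T]

/-- the trace congruence. -/
theorem trace_congr (hp : p.Prime) (hpT : (p : T) ∈ maximalIdeal T) (hpS : p ∈ S)
    (hNS : ∀ q : ℕ, q.Prime → q ∣ N → q ∈ S)
    (π : CuspForm.heckeAlgebra N 2 (↑S : Set ℕ) →+* T) (ρ : GaloisRepAdic T)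
    (hfrob : ∀ (ℓ : ℕ) (hℓ : ℓ.Prime) (hℓN : ¬ ℓ ∣ N) (hℓS : ℓ ∉ (↑S : Set ℕ)),
      ∀ A : ValuationSubring (AlgebraicClosure ℚ), A.LiesOverPrime ℓ →
        ∀ σ : AlgebraicClosure ℚ ≃ₐ[ℚ] AlgebraicClosure ℚ, A.IsFrobeniusAt σ ℓ →
          LinearMap.charpoly (ρ.ρ σ) =
            X ^ 2 - C (π (CuspForm.heckeAlgebra.T hℓ hℓN hℓS)) * X + C ((ℓ : T)))
    {q : ℕ} (hq : q.Prime) (hqS : q ∉ S) (P : ValuationSubring Kb) (hP : P.LiesOverPrime q)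
    (τ : GQ) (hτ : τ ∈ P.inertiaSubgroupIn ℚ) (g : GQ) (n : ℕ) :
    LinearMap.trace T ρ.V (ρ.ρ (τ * g)) - LinearMap.trace T ρ.V (ρ.ρ g) ∈ maximalIdeal T ^ n := by
  classical
  obtain ⟨R, _, φ, ψ, hgen, c, hAR⟩ := hecke_AR N (↑S : Set ℕ) p
  set m : ℕ := p ^ (n + c) with hm
  have : NeZero m := ⟨pow_ne_zero _ hp.ne_zero⟩
  have : Fact q.Prime := ⟨hq⟩
  have hmS : ∀ ℓ : ℕ, ℓ.Prime → ℓ ∣ m → ℓ ∈ S := by
    intro ℓ hℓ h
    rw [(Nat.prime_dvd_prime_iff_eq hℓ hp).1 (hℓ.dvd_of_dvd_pow h)]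
    exact hpS
  have hqN : ¬ q ∣ N := fun h => hqS (hNS q hq h)
  have hqm : ¬ q ∣ m := fun h => hqS (hmS q hq h)
  obtain ⟨Ψ, hker, hΨ, -⟩ := exists_PsiM m N
  -- the fields
  obtain ⟨L1, hL1fin, hL1⟩ := ρ.isAdicContinuous n
  have := FAH3.fg_Gamma0 N
  obtain ⟨r, γ, b, -, -⟩ := exists_basis_dual
    {γ : CongruenceSubgroup.Gamma0 N |
      ((γ : Matrix.SpecialLinearGroup (Fin 2) ℤ) : Matrix (Fin 2) (Fin 2) ℤ).trace ^ 2 = 4}
    (ModularCurve.Period.parabolicHoms ℤ (CongruenceSubgroup.Gamma0 N) ℤ) (fun χ => Iff.rfl)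
  obtain ⟨L2, hL2fin, hL2⟩ := exists_field_fix b Ψ
    (fun σ => (KK.act m N σ : KK m N →ₗ[ZMod m] KK m N).toAddMonoidHom) (KK.act_smooth m N)
  obtain ⟨ζ, hζ⟩ := exists_primitive_root_nat m
  have halg : Algebra.IsAlgebraic ℚ Kb := AlgebraicClosure.isAlgebraic ℚ
  have hcl : IsAlgClosure ℚ Kb := ⟨inferInstance, inferInstance⟩
  have hnorm : Normal ℚ Kb := IsAlgClosure.normal ℚ Kb
  have hζfin : FiniteDimensional ℚ (IntermediateField.adjoin ℚ {ζ}) :=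
    IntermediateField.adjoin.finiteDimensional (Algebra.IsAlgebraic.isAlgebraic ζ).isIntegral
  have hL12fin : FiniteDimensional ℚ (L1 ⊔ L2 : IntermediateField ℚ Kb) :=
    IntermediateField.finiteDimensional_sup L1 L2
  have hL3fin : FiniteDimensional ℚ
      (L1 ⊔ L2 ⊔ IntermediateField.adjoin ℚ {ζ} : IntermediateField ℚ Kb) :=
    IntermediateField.finiteDimensional_sup (L1 ⊔ L2) (IntermediateField.adjoin ℚ {ζ})
  set L : IntermediateField ℚ Kb := IntermediateField.normalClosure ℚ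
    (L1 ⊔ L2 ⊔ IntermediateField.adjoin ℚ {ζ} : IntermediateField ℚ Kb) Kb with hL
  have hLfin : FiniteDimensional ℚ L := normalClosure.is_finiteDimensional _ _ _
  have hLn : Normal ℚ L := normalClosure.normal _ _ _
  have hLg : IsGalois ℚ L := ⟨⟩
  have hle : (L1 ⊔ L2 ⊔ IntermediateField.adjoin ℚ {ζ} : IntermediateField ℚ Kb) ≤ L :=
    IntermediateField.le_normalClosure _
  have hL1le : L1 ≤ L := le_trans (le_trans le_sup_left le_sup_left) hle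
  have hL2le : L2 ≤ L := le_trans (le_trans le_sup_right le_sup_left) hle
  have hζL : ζ ∈ L := hle ((le_sup_right : IntermediateField.adjoin ℚ {ζ} ≤
    L1 ⊔ L2 ⊔ IntermediateField.adjoin ℚ {ζ}) (IntermediateField.mem_adjoin_simple_self ℚ ζ))
  have key := frob_data hmS hNS π ρ hfrob φ ψ hgen Ψ hΨ (maximalIdeal T ^ n) L
    (fun σ hσ v => hL1 σ (fun x hx => hσ x (hL1le hx)) v)
    (fun σ hσ χ => hL2 σ (fun x hx => hσ x (hL2le hx)) χ) hζ hζL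
  obtain ⟨y, e, hy1, hy2, hy3⟩ := key g
  obtain ⟨y', e', hy1', hy2', hy3'⟩ := key (τ * g)
  -- the exponents
  have he : e' ≡ e [MOD m] := by
    rw [← pow_eq_pow_iff_of_primitive hζ (NeZero.ne m), ← hy3', AlgEquiv.mul_apply, hy3, map_pow,
      apply_root_of_mem_inertia hqm P hP hτ hζ]
  have he' : ∀ x : KK m N, e' • x = e • x := by
    intro x
    rw [← Nat.cast_smul_eq_nsmul (ZMod m), ← Nat.cast_smul_eq_nsmul (ZMod m) e,
      (ZMod.natCast_eq_natCast_iff e' e m).2 he]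
  have hτ1 : KK.act m N τ = 1 := KK.unram m N hq hqN hqm P hP τ hτ
  have hτ2 : KK.act m N τ⁻¹ = 1 := KK.unram m N hq hqN hqm P hP τ⁻¹ (inv_mem hτ)
  have hzero : ∀ χ, Ψ (φ (y' - y) χ) = 0 := by
    intro χ
    rw [map_sub, LinearMap.sub_apply, map_sub, hy2, hy2', mul_inv_rev, map_mul, map_mul, hτ1, hτ2,
      one_mul, mul_one, he', sub_self]
  obtain ⟨t', ht'⟩ := hAR n (y' - y) fun χ => hker _ (hzero χ)
  have h1 : π (ψ y') - π (ψ y) ∈ maximalIdeal T ^ n := by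
    rw [← map_sub, ← map_sub, ht', map_nsmul, nsmul_eq_mul, Nat.cast_pow]
    exact Ideal.mul_mem_right _ _ (Ideal.pow_mem_pow hpT n)
  have h2 : LinearMap.trace T ρ.V (ρ.ρ (τ * g)) - LinearMap.trace T ρ.V (ρ.ρ g) =
      (LinearMap.trace T ρ.V (ρ.ρ (τ * g)) - π (ψ y')) -
        (LinearMap.trace T ρ.V (ρ.ρ g) - π (ψ y)) + (π (ψ y') - π (ψ y)) := by ring
  rw [h2]
  exact Ideal.add_mem _ (Ideal.sub_mem _ hy1' hy1) h1

/-- **S31**, abstract form. -/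
theorem unramified_of_frob [IsHausdorff (maximalIdeal T) T]
    (hp : p.Prime) (hpT : (p : T) ∈ maximalIdeal T) (hpS : p ∈ S)
    (hNS : ∀ q : ℕ, q.Prime → q ∣ N → q ∈ S)
    (π : CuspForm.heckeAlgebra N 2 (↑S : Set ℕ) →+* T) (ρ : GaloisRepAdic T)
    (hfrob : ∀ (ℓ : ℕ) (hℓ : ℓ.Prime) (hℓN : ¬ ℓ ∣ N) (hℓS : ℓ ∉ (↑S : Set ℕ)),
      ∀ A : ValuationSubring (AlgebraicClosure ℚ), A.LiesOverPrime ℓ →
        ∀ σ : AlgebraicClosure ℚ ≃ₐ[ℚ] AlgebraicClosure ℚ, A.IsFrobeniusAt σ ℓ →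
          LinearMap.charpoly (ρ.ρ σ) =
            X ^ 2 - C (π (CuspForm.heckeAlgebra.T hℓ hℓN hℓS)) * X + C ((ℓ : T)))
    (habs : ρ.residual.IsAbsolutelyIrreducible)
    {q : ℕ} (hq : q.Prime) (hqS : q ∉ S) : ρ.IsUnramifiedAt q := by
  intro P hP τ hτ
  refine eq_one_of_trace ρ habs τ fun g => ?_
  rw [← sub_eq_zero]
  refine IsHausdorff.haus (I := maximalIdeal T) inferInstance _ fun n => ?_
  rw [SModEq.zero, smul_eq_mul, Ideal.mul_top]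
  exact trace_congr hp hpT hpS hNS π ρ hfrob hq hqS P hP τ hτ g n

end Main

end FAT31
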