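/-
PROJECT T: `p`-adic limits in a complete DVR `O`, and the `p`-adic cyclotomic character with
values in `O`.
-/
import Fermat.Agent.Gal.Cyc
import Fermat.Agent.Gal.Defs

set_option autoImplicit false

open FA24 FAG

namespace FAT

section Lim

variable {p : ℕ} {O : Type*} [CommRing O] [IsDomain O] [IsDiscreteValuationRing O]

theorem span_pow_le (hpO : (p : O) ∈ IsLocalRing.maximalIdeal O) (n : ℕ) :
    Ideal.span {(p : O) ^ n} ≤ IsLocalRing.maximalIdeal O ^ n := by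
  rw [Ideal.span_singleton_le_iff_mem]
  exact Ideal.pow_mem_pow hpO n

theorem exists_pow_le_span [CharZero O] (hp : p ≠ 0) (n : ℕ) :
    ∃ j, IsLocalRing.maximalIdeal O ^ j ≤ Ideal.span {(p : O) ^ n} := by
  obtain ⟨ϖ, hϖ⟩ := IsDiscreteValuationRing.exists_irreducible O
  have h0 : Ideal.span {(p : O) ^ n} ≠ ⊥ := by
    rw [Ne, Ideal.span_singleton_eq_bot]
    exact pow_ne_zero n (Nat.cast_ne_zero.2 hp)
  obtain ⟨j, hj⟩ := IsDiscreteValuationRing.ideal_eq_span_pow_irreducible h0 hϖ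
  refine ⟨j, ?_⟩
  rw [hj, hϖ.maximalIdeal_eq, Ideal.span_singleton_pow]

theorem sub_mem_of_le {c : ℕ → O} (h : ∀ n, c (n + 1) - c n ∈ Ideal.span {(p : O) ^ n})
    {m n : ℕ} (hmn : m ≤ n) : c n - c m ∈ Ideal.span {(p : O) ^ m} := by
  induction n, hmn using Nat.le_induction with
  | base => simp
  | succ n hmn ih =>
    have h1 : c (n + 1) - c n ∈ Ideal.span {(p : O) ^ m} := by
      refine Ideal.span_singleton_le_span_singleton.2 (pow_dvd_pow _ hmn) (h n)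
    have h2 : c (n + 1) - c m = (c (n + 1) - c n) + (c n - c m) := by ring
    rw [h2]
    exact Ideal.add_mem _ h1 ih

theorem exists_limP [CharZero O] [IsAdicComplete (IsLocalRing.maximalIdeal O) O] (hp : p ≠ 0)
    (hpO : (p : O) ∈ IsLocalRing.maximalIdeal O) (c : ℕ → O)
    (h : ∀ n, c (n + 1) - c n ∈ Ideal.span {(p : O) ^ n}) :
    ∃ x : O, ∀ n, x - c n ∈ Ideal.span {(p : O) ^ n} := by
  obtain ⟨L, hL⟩ := IsPrecomplete.prec' (I := IsLocalRing.maximalIdeal O) (M := O) c (by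
    intro m n hmn
    rw [SModEq.sub_mem, smul_eq_mul, Ideal.mul_top]
    have := span_pow_le hpO m (sub_mem_of_le h hmn)
    rw [← neg_sub]
    exact neg_mem this)
  refine ⟨L, fun n => ?_⟩
  obtain ⟨j, hj⟩ := exists_pow_le_span (O := O) hp n
  have h1 := hL (max j n)
  rw [SModEq.sub_mem, smul_eq_mul, Ideal.mul_top] at h1
  have h2 : c (max j n) - L ∈ Ideal.span {(p : O) ^ n} :=
    hj (Ideal.pow_le_pow_right (le_max_left j n) h1)
  have h3 := sub_mem_of_le h (le_max_right j n)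
  have h4 : L - c n = (c (max j n) - c n) - (c (max j n) - L) := by ring
  rw [h4]
  exact Ideal.sub_mem _ h3 h2

theorem eq_of_forall_sub_mem [IsAdicComplete (IsLocalRing.maximalIdeal O) O]
    (hpO : (p : O) ∈ IsLocalRing.maximalIdeal O) {x y : O}
    (h : ∀ n, x - y ∈ Ideal.span {(p : O) ^ n}) : x = y := by
  rw [← sub_eq_zero]
  refine IsHausdorff.haus' (I := IsLocalRing.maximalIdeal O) (x - y) fun n => ?_
  rw [SModEq.sub_mem, smul_eq_mul, Ideal.mul_top, sub_zero]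
  exact span_pow_le hpO n (h n)

theorem natCast_sub_mem {a b n : ℕ} (h : a ≡ b [MOD p ^ n]) :
    (a : O) - (b : O) ∈ Ideal.span {(p : O) ^ n} := by
  rw [Ideal.mem_span_singleton]
  have h1 : ((p ^ n : ℕ) : ℤ) ∣ (a : ℤ) - (b : ℤ) := (Nat.modEq_iff_dvd.1 h.symm)
  have h2 := (Int.castRingHom O).map_dvd h1
  simpa using h2

end Lim

section Roots

/-- exponents of an element of exact order `m` in a field are determined mod `m` -/
theorem modEq_of_pow_eq {F : Type*} [Field F] {x : F} {m : ℕ} (hx : IsPrimitiveRoot x m)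
    (hm : m ≠ 0) {a b : ℕ} (h : x ^ a = x ^ b) : a ≡ b [MOD m] := by
  have hx0 : x ≠ 0 := hx.ne_zero hm
  have h1 : (Units.mk0 x hx0) ^ a = (Units.mk0 x hx0) ^ b := Units.ext (by simpa using h)
  have h2 : orderOf (Units.mk0 x hx0) = m := by
    rw [← orderOf_units, Units.val_mk0, ← hx.eq_orderOf]
  rwa [pow_eq_pow_iff_modEq, h2] at h1

theorem exists_primitive_root_pow (p : ℕ) [Fact p.Prime] (n : ℕ) :
    ∃ ζ : Kb, IsPrimitiveRoot ζ (p ^ n) := by
  have hp : p.Prime := Fact.out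
  have : NeZero (p ^ n) := ⟨pow_ne_zero n hp.ne_zero⟩
  have : NeZero ((p ^ n : ℕ) : Kb) := ⟨Nat.cast_ne_zero.mpr (pow_ne_zero n hp.ne_zero)⟩
  exact HasEnoughRootsOfUnity.exists_primitiveRoot Kb (p ^ n)

theorem exists_exponent {m : ℕ} (hm : m ≠ 0) (g : GQ) {ζ : Kb} (hζ : IsPrimitiveRoot ζ m) :
    ∃ j : ℕ, g ζ = ζ ^ j := by
  have : NeZero m := ⟨hm⟩
  obtain ⟨i, -, hi⟩ := hζ.eq_pow_of_pow_eq_one (ξ := g ζ) (by rw [← map_pow, hζ.pow_eq_one, map_one])
  exact ⟨i, hi.symm⟩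

/-- the exponent does not depend on the root of unity -/
theorem apply_root_eq_pow {m : ℕ} (hm : m ≠ 0) (g : GQ) {ζ ξ : Kb} (hζ : IsPrimitiveRoot ζ m)
    (hξ : ξ ^ m = 1) {j : ℕ} (h : g ζ = ζ ^ j) : g ξ = ξ ^ j := by
  have : NeZero m := ⟨hm⟩
  obtain ⟨i, -, rfl⟩ := hζ.eq_pow_of_pow_eq_one hξ
  rw [map_pow, h, ← pow_mul, ← pow_mul, mul_comm]

end Roots

section Cyc

variable {p : ℕ} [Fact p.Prime] {O : Type*} [CommRing O] [IsDomain O] [IsDiscreteValuationRing O]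
  [IsAdicComplete (IsLocalRing.maximalIdeal O) O] [CharZero O]
  (hpO : (p : O) ∈ IsLocalRing.maximalIdeal O)

include hpO in
theorem exists_cyc (g : GQ) : ∃ x : O, ∀ (n : ℕ) (ζ : Kb), IsPrimitiveRoot ζ (p ^ n) →
    ∀ j : ℕ, g ζ = ζ ^ j → x - (j : O) ∈ Ideal.span {(p : O) ^ n} := by
  have hp : p.Prime := Fact.out
  have hpn : ∀ n, p ^ n ≠ 0 := fun n => pow_ne_zero n hp.ne_zero
  choose z hz using exists_primitive_root_pow p
  choose e he using fun n => exists_exponent (hpn n) g (hz n)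
  have hstep : ∀ n, ((e (n + 1) : ℕ) : O) - (e n : O) ∈ Ideal.span {(p : O) ^ n} := by
    intro n
    apply natCast_sub_mem
    have h1 : g (z n) = z n ^ e (n + 1) :=
      apply_root_eq_pow (hpn (n + 1)) g (hz (n + 1))
        (by rw [pow_succ, pow_mul, (hz n).pow_eq_one, one_pow]) (he (n + 1))
    rw [he n] at h1
    exact (modEq_of_pow_eq (hz n) (hpn n) h1).symm
  obtain ⟨x, hx⟩ := exists_limP hp.ne_zero hpO (fun n => (e n : O)) hstep
  refine ⟨x, fun n ζ hζ j hj => ?_⟩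
  have h1 : g ζ = ζ ^ e n := apply_root_eq_pow (hpn n) g (hz n) hζ.pow_eq_one (he n)
  rw [hj] at h1
  have h2 := natCast_sub_mem (O := O) (modEq_of_pow_eq hζ (hpn n) h1).symm
  have h3 : x - (j : O) = (x - (e n : O)) + ((e n : O) - (j : O)) := by ring
  rw [h3]
  exact Ideal.add_mem _ (hx n) h2

/-- the `p`-adic cyclotomic character (as a function) -/
noncomputable def cycFun (g : GQ) : O := (exists_cyc hpO g).choose

theorem cycFun_spec (g : GQ) (n : ℕ) {ζ : Kb} (hζ : IsPrimitiveRoot ζ (p ^ n)) {j : ℕ}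
    (h : g ζ = ζ ^ j) : cycFun hpO g - (j : O) ∈ Ideal.span {(p : O) ^ n} :=
  (exists_cyc hpO g).choose_spec n ζ hζ j h

/-- characterisation -/
theorem cycFun_eq (g : GQ) (x : O) (h : ∀ n : ℕ, ∃ (ζ : Kb) (j : ℕ), IsPrimitiveRoot ζ (p ^ n) ∧
    g ζ = ζ ^ j ∧ x - (j : O) ∈ Ideal.span {(p : O) ^ n}) : cycFun hpO g = x := by
  refine eq_of_forall_sub_mem hpO fun n => ?_
  obtain ⟨ζ, j, hζ, hj, hx⟩ := h n
  have h1 := cycFun_spec hpO g n hζ hj
  have h2 : cycFun hpO g - x = (cycFun hpO g - (j : O)) - (x - (j : O)) := by ring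
  rw [h2]
  exact Ideal.sub_mem _ h1 hx

/-- the `p`-adic cyclotomic character with values in `O` -/
noncomputable def cycO : GQ →* O where
  toFun := cycFun hpO
  map_one' := by
    refine cycFun_eq hpO 1 1 fun n => ?_
    obtain ⟨ζ, hζ⟩ := exists_primitive_root_pow p n
    exact ⟨ζ, 1, hζ, by simp, by simp⟩
  map_mul' g h := by
    have hp : p.Prime := Fact.out
    refine cycFun_eq hpO (g * h) _ fun n => ?_
    obtain ⟨ζ, hζ⟩ := exists_primitive_root_pow p n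
    obtain ⟨a, ha⟩ := exists_exponent (pow_ne_zero n hp.ne_zero) g hζ
    obtain ⟨b, hb⟩ := exists_exponent (pow_ne_zero n hp.ne_zero) h hζ
    refine ⟨ζ, a * b, hζ, ?_, ?_⟩
    · rw [AlgEquiv.mul_apply, hb, map_pow, ha, ← pow_mul]
    · have h1 := cycFun_spec hpO g n hζ ha
      have h2 := cycFun_spec hpO h n hζ hb
      have h3 : cycFun hpO g * cycFun hpO h - ((a * b : ℕ) : O) =
          cycFun hpO g * (cycFun hpO h - (b : O)) + (b : O) * (cycFun hpO g - (a : O)) := by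
        push_cast
        ring
      rw [h3]
      exact Ideal.add_mem _ (Ideal.mul_mem_left _ _ h2) (Ideal.mul_mem_left _ _ h1)

theorem cycO_spec (g : GQ) (n : ℕ) {ζ : Kb} (hζ : IsPrimitiveRoot ζ (p ^ n)) {j : ℕ}
    (h : g ζ = ζ ^ j) : cycO hpO g - (j : O) ∈ Ideal.span {(p : O) ^ n} :=
  cycFun_spec hpO g n hζ h

theorem cycO_eq (g : GQ) (x : O) (h : ∀ n : ℕ, ∃ (ζ : Kb) (j : ℕ), IsPrimitiveRoot ζ (p ^ n) ∧
    g ζ = ζ ^ j ∧ x - (j : O) ∈ Ideal.span {(p : O) ^ n}) : cycO hpO g = x :=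
  cycFun_eq hpO g x h

theorem cycO_sub_one_mem (g : GQ) (n : ℕ) {ζ : Kb} (hζ : IsPrimitiveRoot ζ (p ^ n))
    (h : g ζ = ζ) : cycO hpO g - 1 ∈ Ideal.span {(p : O) ^ n} := by
  have := cycO_spec hpO g n hζ (j := 1) (by rw [h, pow_one])
  simpa using this

end Cyc

section Red

variable {p : ℕ} [Fact p.Prime] {ℓ : ℕ} [Fact ℓ.Prime] (hℓp : ℓ ≠ p)
  (A : ValuationSubring Kb) (hA : A.LiesOverPrime ℓ)

theorem root_mem' {m : ℕ} (hm : m ≠ 0) {ζ : Kb} (hζ : ζ ^ m = 1) : ζ ∈ A := by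
  rw [← ValuationSubring.valuation_le_one_iff]
  by_contra h
  rw [not_le] at h
  have := one_lt_pow₀ h hm
  rw [← map_pow, hζ, map_one] at this
  exact lt_irrefl _ this

include hℓp hA in
/-- reduction is injective on `p`-power roots of unity -/
theorem residue_isPrimitiveRoot (n : ℕ) {ζ : Kb} (hζ : IsPrimitiveRoot ζ (p ^ n)) :
    IsPrimitiveRoot (IsLocalRing.residue A
      ⟨ζ, root_mem' A (pow_ne_zero n (Fact.out : p.Prime).ne_zero) hζ.pow_eq_one⟩) (p ^ n) := by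
  have hp : p.Prime := Fact.out
  set ζA : A := ⟨ζ, root_mem' A (pow_ne_zero n hp.ne_zero) hζ.pow_eq_one⟩ with hζA
  have h1 : (IsLocalRing.residue A ζA) ^ (p ^ n) = 1 := by
    rw [← map_pow]
    have : ζA ^ (p ^ n) = 1 := Subtype.ext hζ.pow_eq_one
    rw [this, map_one]
  rcases n with _ | n
  · rw [pow_zero] at h1 ⊢
    rw [pow_one] at h1
    rw [h1]
    exact IsPrimitiveRoot.one
  · have h2 : IsPrimitiveRoot (ζ ^ (p ^ n)) p := by
      have := hζ.pow_of_dvd (pow_ne_zero n hp.ne_zero) (pow_dvd_pow p (Nat.le_succ n))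
      rwa [pow_succ, Nat.mul_div_cancel_left _ (pow_pos hp.pos n)] at this
    have h3 := FAG.residue_root_ne_one hℓp A hA h2
    have h4 : ¬ (IsLocalRing.residue A ζA) ^ (p ^ n) = 1 := by
      intro h
      apply h3
      rw [← h, ← map_pow]
      rfl
    rw [← orderOf_eq_prime_pow h4 h1]
    exact IsPrimitiveRoot.orderOf _

variable {O : Type*} [CommRing O] [IsDomain O] [IsDiscreteValuationRing O]
  [IsAdicComplete (IsLocalRing.maximalIdeal O) O] [CharZero O]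
  (hpO : (p : O) ∈ IsLocalRing.maximalIdeal O)

include hℓp hA in
theorem cycO_frobenius {σ : GQ} (hσ : A.IsFrobeniusAt σ ℓ) : cycO hpO σ = (ℓ : O) := by
  have hp : p.Prime := Fact.out
  have : CharP (IsLocalRing.ResidueField A) ℓ :=
    FA18.charP_of_liesOver A hA (IsLocalRing.residue A) IsLocalRing.residue_surjective
  refine cycO_eq hpO σ _ fun n => ?_
  obtain ⟨ζ, hζ⟩ := exists_primitive_root_pow p n
  obtain ⟨j, hj⟩ := exists_exponent (pow_ne_zero n hp.ne_zero) σ hζ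
  refine ⟨ζ, j, hζ, hj, ?_⟩
  set ζA : A := ⟨ζ, root_mem' A (pow_ne_zero n hp.ne_zero) hζ.pow_eq_one⟩ with hζA
  obtain ⟨hm, h1⟩ := hσ_of_isFrobeniusAt (π := IsLocalRing.residue A)
    IsLocalRing.residue_surjective hσ ζA
  have h2 : (⟨(σ : Kb →+* Kb) (ζA : Kb), hm⟩ : A) = ζA ^ j := Subtype.ext hj
  rw [h2, map_pow, frobenius_def] at h1
  exact natCast_sub_mem (modEq_of_pow_eq (residue_isPrimitiveRoot hℓp A hA n hζ)
    (pow_ne_zero n hp.ne_zero) h1).symm

include hℓp hA in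
theorem cycO_inertia {σ : GQ} (hσ : σ ∈ A.inertiaSubgroupIn ℚ) : cycO hpO σ = 1 := by
  have hp : p.Prime := Fact.out
  refine cycO_eq hpO σ _ fun n => ?_
  obtain ⟨ζ, hζ⟩ := exists_primitive_root_pow p n
  obtain ⟨j, hj⟩ := exists_exponent (pow_ne_zero n hp.ne_zero) σ hζ
  refine ⟨ζ, j, hζ, hj, ?_⟩
  set ζA : A := ⟨ζ, root_mem' A (pow_ne_zero n hp.ne_zero) hζ.pow_eq_one⟩ with hζA
  obtain ⟨hm, h1⟩ := hσ_of_mem_inertia (π := IsLocalRing.residue A)
    IsLocalRing.residue_surjective hσ ζA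
  have h2 : (⟨(σ : Kb →+* Kb) (ζA : Kb), hm⟩ : A) = ζA ^ j := Subtype.ext hj
  rw [h2, map_pow, RingHom.id_apply] at h1
  have h3 := natCast_sub_mem (O := O) (modEq_of_pow_eq (b := 1)
    (residue_isPrimitiveRoot hℓp A hA n hζ) (pow_ne_zero n hp.ne_zero) (by rw [h1, pow_one])).symm
  simpa using h3

end Red

section Conj

/-- a complex conjugation in `G_ℚ`: an involution inverting all roots of unity. -/
theorem exists_complexConj : ∃ c : GQ, c * c = 1 ∧
    ∀ (m : ℕ) (ζ : Kb), m ≠ 0 → ζ ^ m = 1 → c ζ = ζ⁻¹ := by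
  have halg : Algebra.IsAlgebraic ℚ Kb := AlgebraicClosure.isAlgebraic ℚ
  have hcl : IsAlgClosure ℚ Kb := ⟨inferInstance, inferInstance⟩
  have hnorm : Normal ℚ Kb := IsAlgClosure.normal ℚ Kb
  let _ : Algebra Kb ℂ := FA24.iota.toAlgebra
  have : IsScalarTower ℚ Kb ℂ := IsScalarTower.of_algebraMap_eq fun x => by
    rw [eq_ratCast, eq_ratCast, map_ratCast]
  let cj : ℂ ≃ₐ[ℚ] ℂ := Complex.conjAe.restrictScalars ℚ
  have hcj : ∀ z : ℂ, cj z = (starRingEnd ℂ) z := fun z => rfl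
  have hinj : Function.Injective (algebraMap Kb ℂ) := (algebraMap Kb ℂ).injective
  refine ⟨cj.restrictNormal Kb, ?_, ?_⟩
  · refine AlgEquiv.ext fun x => hinj ?_
    rw [AlgEquiv.mul_apply, AlgEquiv.restrictNormal_commutes, AlgEquiv.restrictNormal_commutes,
      hcj, hcj, Complex.conj_conj, AlgEquiv.one_apply]
  · intro m ζ hm hζ
    apply hinj
    rw [AlgEquiv.restrictNormal_commutes, hcj, map_inv₀]
    refine (Complex.inv_eq_conj (Complex.norm_eq_one_of_pow_eq_one (n := m) ?_ hm)).symm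
    rw [← map_pow, hζ, map_one]

variable {p : ℕ} [Fact p.Prime] {O : Type*} [CommRing O] [IsDomain O] [IsDiscreteValuationRing O]
  [IsAdicComplete (IsLocalRing.maximalIdeal O) O] [CharZero O]
  (hpO : (p : O) ∈ IsLocalRing.maximalIdeal O)

theorem exists_conj : ∃ c : GQ, c * c = 1 ∧ cycO hpO c = -1 := by
  have hp : p.Prime := Fact.out
  obtain ⟨c, hc, h⟩ := exists_complexConj
  refine ⟨c, hc, cycO_eq hpO c _ fun n => ?_⟩
  obtain ⟨ζ, hζ⟩ := exists_primitive_root_pow p n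
  have hpn : 0 < p ^ n := pow_pos hp.pos n
  refine ⟨ζ, p ^ n - 1, hζ, ?_, ?_⟩
  · rw [h (p ^ n) ζ hpn.ne' hζ.pow_eq_one]
    refine inv_eq_of_mul_eq_one_right ?_
    rw [← pow_succ', Nat.sub_add_cancel hpn, hζ.pow_eq_one]
  · rw [Nat.cast_sub hpn, Ideal.mem_span_singleton]
    refine ⟨-1, ?_⟩
    push_cast
    ring

end Conj

end FAT
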