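/-
PROJECT T: the abstract engine over a commutative ring `O` (pointwise form).
-/
import Fermat.Agent.Gal.Engine

set_option autoImplicit false

open FA24 FAG IntermediateField

namespace FAT

/-- the Dickson recursion: `s ^ b + t ^ b` in terms of `a = s + t`, `c = s t`. -/
def dick {O : Type*} [CommRing O] (a c : O) : ℕ → O
  | 0 => 2
  | 1 => a
  | (n + 2) => a * dick a c (n + 1) - c * dick a c n

theorem pow_add_pow_dick {k E : Type*} [CommRing k] [Ring E] [Algebra k E] {s t : E} {a c : k}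
    (hst : s * t = c • 1) (hts : t * s = c • 1) (hadd : s + t = a • 1) (b : ℕ) :
    s ^ b + t ^ b = dick a c b • 1 := by
  induction b using Nat.twoStepInduction with
  | zero => rw [pow_zero, pow_zero, dick, two_smul]
  | one => rw [pow_one, pow_one, hadd, dick]
  | more n h0 h1 =>
    have h2 : s ^ (n + 2) + t ^ (n + 2) =
        (s + t) * (s ^ (n + 1) + t ^ (n + 1)) - (s * t) * t ^ n - (t * s) * s ^ n := by
      rw [pow_succ' s (n + 1), pow_succ' t (n + 1), pow_succ' t n, pow_succ' s n]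
      noncomm_ring
    rw [h2, hadd, h1, hst, hts, sub_sub, ← mul_add, add_comm (t ^ n), h0, dick]
    simp only [smul_mul_assoc, one_mul, sub_smul, mul_smul]

/-- restriction of an action to a stable submodule -/
def restrO {O : Type*} [CommRing O] {G : Type*} [Group G] {Y : Type*} [AddCommGroup Y] [Module O Y]
    (ρ : G →* Module.End O Y) (U : Submodule O Y)
    (hU : ∀ g, ∀ x ∈ U, ρ g x ∈ U) : G →* Module.End O U where
  toFun g := (ρ g).restrict (hU g)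
  map_one' := by
    ext x
    simp
  map_mul' g g' := by
    ext x
    simp

theorem restrO_apply {O : Type*} [CommRing O] {G : Type*} [Group G] {Y : Type*} [AddCommGroup Y]
    [Module O Y] (ρ : G →* Module.End O Y) (U : Submodule O Y)
    (hU : ∀ g, ∀ x ∈ U, ρ g x ∈ U) (g : G) (x : U) :
    ((restrO ρ U hU g x : U) : Y) = ρ g x := rfl

section EngineO

variable {O : Type*} [CommRing O] (Z : Set ℕ) (hZ : Z.Finite)
  {Y : Type*} [AddCommGroup Y] [Module O Y]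
  (act : GQ →* Module.End O Y) (T : ℕ → Module.End O Y) (w : Y)
  (hsmooth : ∃ L : IntermediateField ℚ Kb, FiniteDimensional ℚ L ∧
    ∀ σ : GQ, (∀ y ∈ L, σ y = y) → act σ w = w)
  (hcomm : ∀ ℓ σ, T ℓ * act σ = act σ * T ℓ)
  (hES : ∀ ℓ : ℕ, ℓ.Prime → ℓ ∉ Z → ∀ A : ValuationSubring Kb, A.LiesOverPrime ℓ →
    ∀ σ : GQ, A.IsFrobeniusAt σ ℓ → act σ * act σ + (ℓ : O) • 1 = T ℓ * act σ)
  (a : ℕ → O) (heig : ∀ ℓ : ℕ, ℓ.Prime → ℓ ∉ Z → T ℓ w = a ℓ • w)

/-- the span of the orbit -/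
def orbSpan : Submodule O Y := Submodule.span O (Set.range fun σ : GQ => act σ w)

theorem mem_orbSpan (h : GQ) : act h w ∈ orbSpan act w := Submodule.subset_span ⟨h, rfl⟩

theorem self_mem_orbSpan : w ∈ orbSpan act w := by
  have := mem_orbSpan act w 1
  rwa [map_one, Module.End.one_apply] at this

theorem orbSpan_stable (g : GQ) (x : Y) (hx : x ∈ orbSpan act w) : act g x ∈ orbSpan act w := by
  induction hx using Submodule.span_induction with
  | mem y hy =>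
    obtain ⟨σ, rfl⟩ := hy
    have : act g (act σ w) = act (g * σ) w := by rw [map_mul, Module.End.mul_apply]
    show act g (act σ w) ∈ _
    rw [this]
    exact mem_orbSpan act w _
  | zero => rw [map_zero]; exact Submodule.zero_mem _
  | add y z _ _ hy hz => rw [map_add]; exact Submodule.add_mem _ hy hz
  | smul c y _ hy => rw [map_smul]; exact Submodule.smul_mem _ c hy

include hsmooth in
/-- (E0) the action on the orbit factors through a finite Galois extension. -/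
theorem exists_level (L' : IntermediateField ℚ Kb) [FiniteDimensional ℚ L'] :
    ∃ L0 : IntermediateField ℚ Kb, FiniteDimensional ℚ L0 ∧ IsGalois ℚ L0 ∧ L' ≤ L0 ∧
      ∀ g g' : GQ, (∀ x ∈ L0, g x = g' x) → ∀ x ∈ orbSpan act w, act g x = act g' x := by
  obtain ⟨L1, hL1fin, hL1⟩ := hsmooth
  have halg : Algebra.IsAlgebraic ℚ Kb := AlgebraicClosure.isAlgebraic ℚ
  have hcl : IsAlgClosure ℚ Kb := ⟨inferInstance, inferInstance⟩
  have hnorm : Normal ℚ Kb := IsAlgClosure.normal ℚ Kb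
  have hL2fin : FiniteDimensional ℚ (L1 ⊔ L' : IntermediateField ℚ Kb) :=
    IntermediateField.finiteDimensional_sup L1 L'
  set L0 : IntermediateField ℚ Kb := IntermediateField.normalClosure ℚ
    (L1 ⊔ L' : IntermediateField ℚ Kb) Kb with hL0
  have hL0fin : FiniteDimensional ℚ L0 := normalClosure.is_finiteDimensional _ _ _
  have hL0n : Normal ℚ L0 := normalClosure.normal _ _ _
  have hL0g : IsGalois ℚ L0 := ⟨⟩
  have hle : (L1 ⊔ L' : IntermediateField ℚ Kb) ≤ L0 := IntermediateField.le_normalClosure _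
  have hL1le : L1 ≤ L0 := le_trans le_sup_left hle
  refine ⟨L0, hL0fin, hL0g, le_trans le_sup_right hle, ?_⟩
  set r : GQ →* (L0 ≃ₐ[ℚ] L0) := AlgEquiv.restrictNormalHom (F := ℚ) (K₁ := Kb) L0 with hr
  have hr1 : ∀ σ : GQ, r σ = 1 ↔ ∀ x ∈ L0, σ x = x := by
    intro σ
    rw [← map_one r, hr, restrictNormalHom_eq_iff]
    rfl
  have hfix : ∀ σ : GQ, r σ = 1 → act σ w = w := fun σ h =>
    hL1 σ fun y hy => (hr1 σ).1 h y (hL1le hy)
  have hB : ∀ σ τ : GQ, r σ = r τ → act σ w = act τ w := by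
    intro σ τ h
    have h1 : r (τ⁻¹ * σ) = 1 := by rw [map_mul, map_inv, h, inv_mul_cancel]
    have h2 := hfix _ h1
    have h3 : act σ w = act τ (act (τ⁻¹ * σ) w) := by
      rw [← Module.End.mul_apply, ← map_mul, mul_inv_cancel_left]
    rw [h3, h2]
  intro g g' hgg' x hx
  have hrg : r g = r g' := (restrictNormalHom_eq_iff L0 g g').2 hgg'
  induction hx using Submodule.span_induction with
  | mem y hy =>
    obtain ⟨τ, rfl⟩ := hy
    show act g (act τ w) = act g' (act τ w)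
    rw [← Module.End.mul_apply, ← map_mul, ← Module.End.mul_apply, ← map_mul]
    exact hB _ _ (by rw [map_mul, map_mul, hrg])
  | zero => rw [map_zero, map_zero]
  | add y z _ _ hy hz => rw [map_add, map_add, hy, hz]
  | smul c y _ hy => rw [map_smul, map_smul, hy]

include hcomm heig in
theorem T_orbSpan (ℓ : ℕ) (hℓ : ℓ.Prime) (hℓZ : ℓ ∉ Z) (x : Y) (hx : x ∈ orbSpan act w) :
    T ℓ x = a ℓ • x := by
  induction hx using Submodule.span_induction with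
  | mem y hy =>
    obtain ⟨σ, rfl⟩ := hy
    show T ℓ (act σ w) = a ℓ • act σ w
    rw [← Module.End.mul_apply, hcomm, Module.End.mul_apply, heig ℓ hℓ hℓZ, map_smul]
  | zero => rw [map_zero, smul_zero]
  | add y z _ _ hy hz => rw [map_add, hy, hz, smul_add]
  | smul c y _ hy => rw [map_smul, hy, smul_comm]

include hcomm hES heig in
/-- (E2) the relation for powers of Frobenius elements. -/
theorem frob_pow_rel (ℓ : ℕ) (hℓ : ℓ.Prime) (hℓZ : ℓ ∉ Z) (A : ValuationSubring Kb)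
    (hA : A.LiesOverPrime ℓ) (σ : GQ) (hσ : A.IsFrobeniusAt σ ℓ) (b : ℕ) (x : Y)
    (hx : x ∈ orbSpan act w) :
    act (σ ^ b) x + (ℓ : O) ^ b • act (σ⁻¹ ^ b) x = dick (a ℓ) (ℓ : O) b • x := by
  set ρ := restrO act (orbSpan act w) (orbSpan_stable act w) with hρ
  have h1 : ρ σ + (ℓ : O) • ρ σ⁻¹ = a ℓ • 1 := by
    refine LinearMap.ext fun x => Subtype.ext ?_
    have h1 := congrArg (fun e : Module.End O Y => e (act σ⁻¹ x)) (hES ℓ hℓ hℓZ A hA σ hσ)
    have h2 : act σ (act σ⁻¹ (x : Y)) = x := by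
      rw [← Module.End.mul_apply, ← map_mul, mul_inv_cancel, map_one, Module.End.one_apply]
    simp only [LinearMap.add_apply, Module.End.mul_apply, LinearMap.smul_apply,
      Module.End.one_apply, h2] at h1
    rw [T_orbSpan Z act T w hcomm a heig ℓ hℓ hℓZ _ x.2] at h1
    exact h1
  have hst : ρ σ * ((ℓ : O) • ρ σ⁻¹) = (ℓ : O) • 1 := by
    rw [mul_smul_comm, ← map_mul, mul_inv_cancel, map_one]
  have hts : ((ℓ : O) • ρ σ⁻¹) * ρ σ = (ℓ : O) • 1 := by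
    rw [smul_mul_assoc, ← map_mul, inv_mul_cancel, map_one]
  have h2 := pow_add_pow_dick hst hts h1 b
  rw [smul_pow, ← map_pow, ← map_pow] at h2
  have h3 := congrArg (fun e : Module.End O (orbSpan act w) => ((e ⟨x, hx⟩ : orbSpan act w) : Y)) h2
  exact h3

include hZ hsmooth hcomm hES heig in
/-- (E4) the relation for all elements, by Chebotarev. -/
theorem exists_frob_rel (L' : IntermediateField ℚ Kb) [FiniteDimensional ℚ L'] (g : GQ) :
    ∃ (ℓ : ℕ) (A : ValuationSubring Kb) (σ : GQ) (b : ℕ), ℓ.Prime ∧ ℓ ∉ Z ∧ A.LiesOverPrime ℓ ∧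
      A.IsFrobeniusAt σ ℓ ∧ (∀ x ∈ L', g x = (σ ^ b) x) ∧
      ∀ x ∈ orbSpan act w, act g x + (ℓ : O) ^ b • act g⁻¹ x = dick (a ℓ) (ℓ : O) b • x := by
  obtain ⟨L0, hL0fin, hL0g, hle, hL0⟩ := exists_level act w hsmooth L'
  obtain ⟨ℓ, A, σ, b, hℓ, hℓZ, hA, hσ, hg⟩ := exists_frobenius_pow L0 g Z hZ
  refine ⟨ℓ, A, σ, b, hℓ, hℓZ, hA, hσ, fun x hx => hg x (hle hx), fun x hx => ?_⟩
  have hg' : ∀ x ∈ L0, g⁻¹ x = (σ⁻¹ ^ b) x := by
    have hn : Normal ℚ L0 := inferInstance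
    have h1 := (restrictNormalHom_eq_iff L0 g (σ ^ b)).2 hg
    refine (restrictNormalHom_eq_iff L0 g⁻¹ (σ⁻¹ ^ b)).1 ?_
    rw [map_inv, h1, inv_pow, map_inv]
  rw [hL0 g (σ ^ b) hg x hx, hL0 g⁻¹ (σ⁻¹ ^ b) hg' x hx]
  exact frob_pow_rel Z act T w hcomm hES a heig ℓ hℓ hℓZ A hA σ hσ b x hx

end EngineO

section Two

variable {O : Type*} [CommRing O] (Z : Set ℕ) (hZ : Z.Finite) (a : ℕ → O)
  {Y : Type*} [AddCommGroup Y] [Module O Y]
  (act : GQ →* Module.End O Y) (T : ℕ → Module.End O Y) (w : Y)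
  (hsmooth : ∃ L : IntermediateField ℚ Kb, FiniteDimensional ℚ L ∧
    ∀ σ : GQ, (∀ y ∈ L, σ y = y) → act σ w = w)
  (hcomm : ∀ ℓ σ, T ℓ * act σ = act σ * T ℓ)
  (hES : ∀ ℓ : ℕ, ℓ.Prime → ℓ ∉ Z → ∀ A : ValuationSubring Kb, A.LiesOverPrime ℓ →
    ∀ σ : GQ, A.IsFrobeniusAt σ ℓ → act σ * act σ + (ℓ : O) • 1 = T ℓ * act σ)
  (heig : ∀ ℓ : ℕ, ℓ.Prime → ℓ ∉ Z → T ℓ w = a ℓ • w)
  {Y' : Type*} [AddCommGroup Y'] [Module O Y']
  (act' : GQ →* Module.End O Y') (T' : ℕ → Module.End O Y') (w' : Y')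
  (hsmooth' : ∃ L : IntermediateField ℚ Kb, FiniteDimensional ℚ L ∧
    ∀ σ : GQ, (∀ y ∈ L, σ y = y) → act' σ w' = w')
  (hcomm' : ∀ ℓ σ, T' ℓ * act' σ = act' σ * T' ℓ)
  (hES' : ∀ ℓ : ℕ, ℓ.Prime → ℓ ∉ Z → ∀ A : ValuationSubring Kb, A.LiesOverPrime ℓ →
    ∀ σ : GQ, A.IsFrobeniusAt σ ℓ → act' σ * act' σ + (ℓ : O) • 1 = T' ℓ * act' σ)
  (heig' : ∀ ℓ : ℕ, ℓ.Prime → ℓ ∉ Z → T' ℓ w' = a ℓ • w')

include hZ hsmooth hcomm hES heig hsmooth' hcomm' hES' heig' in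
/-- the relation for all elements, simultaneously in two modules. -/
theorem exists_frob_rel₂ (L' : IntermediateField ℚ Kb) [FiniteDimensional ℚ L'] (g : GQ) :
    ∃ (ℓ : ℕ) (A : ValuationSubring Kb) (σ : GQ) (b : ℕ), ℓ.Prime ∧ ℓ ∉ Z ∧ A.LiesOverPrime ℓ ∧
      A.IsFrobeniusAt σ ℓ ∧ (∀ x ∈ L', g x = (σ ^ b) x) ∧
      (∀ x ∈ orbSpan act w, act g x + (ℓ : O) ^ b • act g⁻¹ x = dick (a ℓ) (ℓ : O) b • x) ∧
      (∀ x ∈ orbSpan act' w', act' g x + (ℓ : O) ^ b • act' g⁻¹ x =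
        dick (a ℓ) (ℓ : O) b • x) := by
  obtain ⟨L0, hL0fin, hL0g, hle, hL0⟩ := exists_level act w hsmooth L'
  obtain ⟨L1, hL1fin, hL1g, hle1, hL1⟩ := exists_level act' w' hsmooth' L0
  obtain ⟨ℓ, A, σ, b, hℓ, hℓZ, hA, hσ, hg⟩ := exists_frobenius_pow L1 g Z hZ
  have hg' : ∀ x ∈ L1, g⁻¹ x = (σ⁻¹ ^ b) x := by
    have hn : Normal ℚ L1 := inferInstance
    have h1 := (restrictNormalHom_eq_iff L1 g (σ ^ b)).2 hg
    refine (restrictNormalHom_eq_iff L1 g⁻¹ (σ⁻¹ ^ b)).1 ?_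
    rw [map_inv, h1, inv_pow, map_inv]
  refine ⟨ℓ, A, σ, b, hℓ, hℓZ, hA, hσ, fun x hx => hg x (hle1 (hle hx)), fun x hx => ?_,
    fun x hx => ?_⟩
  · rw [hL0 g (σ ^ b) (fun y hy => hg y (hle1 hy)) x hx,
      hL0 g⁻¹ (σ⁻¹ ^ b) (fun y hy => hg' y (hle1 hy)) x hx]
    exact frob_pow_rel Z act T w hcomm hES a heig ℓ hℓ hℓZ A hA σ hσ b x hx
  · rw [hL1 g (σ ^ b) hg x hx, hL1 g⁻¹ (σ⁻¹ ^ b) hg' x hx]
    exact frob_pow_rel Z act' T' w' hcomm' hES' a heig' ℓ hℓ hℓZ A hA σ hσ b x hx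

end Two

end FAT
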