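/-
PROJECT T: the modules `O ⊗[ℤ] KK m N` and the vector attached to an eigenvector in `O ⊗ Λ`.
-/
import Fermat.Agent.Gal.K4
import Fermat.Agent.Gal.KK

set_option autoImplicit false

open FA24 FAG IntermediateField
open scoped TensorProduct

namespace FAT

section BC

variable (O : Type*) [CommRing O] {X : Type*} [AddCommGroup X] {R : Type*} [CommRing R] [Module R X]

/-- base change to `O` (over `ℤ`) of an endomorphism -/
noncomputable def bc (f : Module.End R X) : Module.End O (O ⊗[ℤ] X) :=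
  (f.toAddMonoidHom.toIntLinearMap).baseChange O

theorem bc_tmul (f : Module.End R X) (c : O) (x : X) : bc O f (c ⊗ₜ x) = c ⊗ₜ f x := rfl

theorem bc_one : bc O (1 : Module.End R X) = 1 :=
  TensorProduct.AlgebraTensorModule.ext fun _ _ => rfl

theorem bc_mul (f g : Module.End R X) : bc O (f * g) = bc O f * bc O g :=
  TensorProduct.AlgebraTensorModule.ext fun _ _ => rfl

theorem bc_add (f g : Module.End R X) : bc O (f + g) = bc O f + bc O g :=
  TensorProduct.AlgebraTensorModule.ext fun c x => by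
    rw [LinearMap.add_apply, bc_tmul, bc_tmul, bc_tmul, LinearMap.add_apply, TensorProduct.tmul_add]

theorem bc_natCast_smul_one (ℓ : ℕ) : bc O ((ℓ : R) • (1 : Module.End R X)) = (ℓ : O) • 1 :=
  TensorProduct.AlgebraTensorModule.ext fun c x => by
    rw [bc_tmul, LinearMap.smul_apply, LinearMap.smul_apply, Module.End.one_apply,
      Module.End.one_apply, Nat.cast_smul_eq_nsmul, Nat.cast_smul_eq_nsmul,
      TensorProduct.tmul_smul]

end BC

section Level

variable (O : Type*) [CommRing O] (m N : ℕ)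

/-- the Galois action on `O ⊗ KK m N` -/
noncomputable def actY : GQ →* Module.End O (O ⊗[ℤ] KK m N) where
  toFun g := bc O (KK.act m N g)
  map_one' := by rw [map_one, bc_one]
  map_mul' g h := by rw [map_mul, bc_mul]

theorem actY_apply (g : GQ) : actY O m N g = bc O (KK.act m N g) := rfl

/-- the Hecke operators on `O ⊗ KK m N` -/
noncomputable def TY [NeZero N] (ℓ : ℕ) : Module.End O (O ⊗[ℤ] KK m N) := bc O (KK.T m N ℓ)

theorem actY_smooth (y : O ⊗[ℤ] KK m N) :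
    ∃ L : IntermediateField ℚ Kb, FiniteDimensional ℚ L ∧
      ∀ σ : GQ, (∀ x ∈ L, σ x = x) → actY O m N σ y = y := by
  induction y using TensorProduct.induction_on with
  | zero => exact ⟨⊥, inferInstance, fun σ _ => map_zero _⟩
  | tmul c x =>
    obtain ⟨L, hL, h⟩ := KK.act_smooth m N x
    refine ⟨L, hL, fun σ hσ => ?_⟩
    rw [actY_apply, bc_tmul, h σ hσ]
  | add y z hy hz =>
    obtain ⟨L1, h1, h1'⟩ := hy
    obtain ⟨L2, h2, h2'⟩ := hz
    refine ⟨L1 ⊔ L2, IntermediateField.finiteDimensional_sup L1 L2, fun σ hσ => ?_⟩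
    rw [map_add, h1' σ fun x hx => hσ x ((le_sup_left : L1 ≤ L1 ⊔ L2) hx),
      h2' σ fun x hx => hσ x ((le_sup_right : L2 ≤ L1 ⊔ L2) hx)]

theorem TY_comm [NeZero N] (ℓ : ℕ) (σ : GQ) :
    TY O m N ℓ * actY O m N σ = actY O m N σ * TY O m N ℓ := by
  rw [TY, actY_apply, ← bc_mul, KK.T_comm, bc_mul]

theorem actY_unram [NeZero N] [NeZero m] {ℓ : ℕ} (hℓ : ℓ.Prime) (hℓN : ¬ ℓ ∣ N) (hℓm : ¬ ℓ ∣ m)
    (A : ValuationSubring Kb) (hA : A.LiesOverPrime ℓ) (σ : GQ)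
    (hσ : σ ∈ A.inertiaSubgroupIn ℚ) : actY O m N σ = 1 := by
  rw [actY_apply, KK.unram m N hℓ hℓN hℓm A hA σ hσ, bc_one]

theorem actY_ES [NeZero N] [NeZero m] {ℓ : ℕ} (hℓ : ℓ.Prime) (hℓN : ¬ ℓ ∣ N) (hℓm : ¬ ℓ ∣ m)
    (A : ValuationSubring Kb) (hA : A.LiesOverPrime ℓ) (σ : GQ) (hσ : A.IsFrobeniusAt σ ℓ) :
    actY O m N σ * actY O m N σ + (ℓ : O) • 1 = TY O m N ℓ * actY O m N σ := by
  rw [TY, actY_apply, ← bc_mul, ← bc_mul, ← KK.ES m N hℓ hℓN hℓm A hA σ hσ, bc_add,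
    bc_natCast_smul_one]

theorem natCast_smul_eq_zero (y : O ⊗[ℤ] KK m N) : (m : O) • y = 0 := by
  induction y using TensorProduct.induction_on with
  | zero => exact smul_zero _
  | tmul c x =>
    rw [Nat.cast_smul_eq_nsmul, ← TensorProduct.tmul_smul, KK.nsmul_eq_zero,
      TensorProduct.tmul_zero]
  | add y z hy hz => rw [smul_add, hy, hz, add_zero]

theorem smul_eq_zero_of_mem {d : O} (hd : d ∈ Ideal.span {(m : O)}) (y : O ⊗[ℤ] KK m N) :
    d • y = 0 := by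
  obtain ⟨e, rfl⟩ := Ideal.mem_span_singleton.1 hd
  rw [mul_comm, mul_smul, natCast_smul_eq_zero, smul_zero]

end Level

section Vec

variable {O : Type*} [CommRing O] {m N : ℕ} [NeZero N] {r : ℕ}
  (b : Module.Basis (Fin r) ℤ (LamZ N)) (w : Fin r → O) (Ψ : LamZ N →+ KK m N)

/-- the image in `O ⊗ KK m N` of the vector `∑ w j ⊗ b j` -/
noncomputable def wY : O ⊗[ℤ] KK m N := ∑ j, w j ⊗ₜ[ℤ] Ψ (b j)

theorem TY_wY {ℓ : ℕ} (hℓ : ℓ.Prime) (hℓN : ¬ ℓ ∣ N)
    (hΨ : ∀ χ, Ψ (heckePar N hℓ hℓN ℤ ℤ χ) = KK.T m N ℓ (Ψ χ)) (a : O)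
    (h : ∀ i, ∑ j, ((b.repr (heckePar N hℓ hℓN ℤ ℤ (b j)) i : ℤ) : O) * w j = a * w i) :
    TY O m N ℓ (wY b w Ψ) = a • wY b w Ψ := by
  have h1 : ∀ j, Ψ (heckePar N hℓ hℓN ℤ ℤ (b j)) =
      ∑ i, (b.repr (heckePar N hℓ hℓN ℤ ℤ (b j)) i) • Ψ (b i) := by
    intro j
    conv_lhs => rw [← b.sum_repr (heckePar N hℓ hℓN ℤ ℤ (b j))]
    rw [map_sum]
    exact Finset.sum_congr rfl fun i _ => map_zsmul Ψ _ _
  rw [wY, map_sum, Finset.smul_sum]
  have h2 : ∀ j, TY O m N ℓ (w j ⊗ₜ[ℤ] Ψ (b j)) =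
      ∑ i, (((b.repr (heckePar N hℓ hℓN ℤ ℤ (b j)) i : ℤ) : O) * w j) ⊗ₜ[ℤ] Ψ (b i) := by
    intro j
    rw [TY, bc_tmul, ← hΨ, h1, TensorProduct.tmul_sum]
    refine Finset.sum_congr rfl fun i _ => ?_
    rw [← TensorProduct.smul_tmul, zsmul_eq_mul]
  rw [Finset.sum_congr rfl fun j _ => h2 j, Finset.sum_comm]
  refine Finset.sum_congr rfl fun i _ => ?_
  rw [← TensorProduct.sum_tmul, h i, TensorProduct.smul_tmul', smul_eq_mul]

theorem dvd_of_smul_wY_eq_zero [Module.Flat ℤ O] (hΨ : ∀ χ, Ψ χ = 0 → ∃ χ', χ = m • χ')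
    (hw : ∃ j, IsUnit (w j)) {c : O} (hc : c • wY b w Ψ = 0) : (m : O) ∣ c := by
  set f : LamZ N →ₗ[ℤ] LamZ N := (m : ℤ) • LinearMap.id with hf
  set g : LamZ N →ₗ[ℤ] KK m N := Ψ.toIntLinearMap with hg
  have hex : Function.Exact f g := by
    intro y
    constructor
    · intro hy
      obtain ⟨y', rfl⟩ := hΨ y hy
      exact ⟨y', by simp [hf]⟩
    · rintro ⟨y', rfl⟩
      show Ψ (((m : ℤ) • LinearMap.id : LamZ N →ₗ[ℤ] LamZ N) y') = 0
      rw [LinearMap.smul_apply, LinearMap.id_apply, map_zsmul, natCast_zsmul, KK.nsmul_eq_zero]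
  have hex2 := Module.Flat.lTensor_exact O hex
  set wt : O ⊗[ℤ] LamZ N := ∑ j, w j ⊗ₜ[ℤ] b j with hwt
  have h1 : (g.lTensor O) (c • wt) = 0 := by
    rw [← hc, hwt, wY, Finset.smul_sum, Finset.smul_sum, map_sum]
    refine Finset.sum_congr rfl fun j _ => ?_
    rw [TensorProduct.smul_tmul', TensorProduct.smul_tmul', LinearMap.lTensor_tmul]
    rfl
  obtain ⟨z, hz⟩ := (hex2 _).1 h1
  have h2 : ∀ z : O ⊗[ℤ] LamZ N, (f.lTensor O) z = (m : O) • z := by
    intro z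
    induction z using TensorProduct.induction_on with
    | zero => simp
    | tmul c x =>
      rw [LinearMap.lTensor_tmul, hf, LinearMap.smul_apply, LinearMap.id_apply, natCast_zsmul,
        Nat.cast_smul_eq_nsmul, TensorProduct.tmul_smul]
    | add y z hy hz => rw [map_add, hy, hz, smul_add]
  rw [h2] at hz
  obtain ⟨j, hj⟩ := hw
  set B := Algebra.TensorProduct.basis O b with hB
  have h3 := congrArg (fun y => B.repr y j) hz
  simp only [map_smul, Finsupp.smul_apply, smul_eq_mul] at h3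
  have h4 : B.repr wt j = w j := by
    rw [hwt, map_sum, Finsupp.finsetSum_apply, Finset.sum_eq_single j]
    · rw [hB, Algebra.TensorProduct.basis_repr_tmul]
      simp
    · intro i _ hij
      rw [hB, Algebra.TensorProduct.basis_repr_tmul]
      simp [hij]
    · intro h
      exact absurd (Finset.mem_univ j) h
  rw [h4] at h3
  obtain ⟨u, hu⟩ := hj
  refine ⟨B.repr z j * (u⁻¹ : Oˣ), ?_⟩
  rw [← mul_assoc, h3, ← hu, mul_assoc, Units.mul_inv, mul_one]

end Vec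

end FAT
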