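/-
PROJECT T, (T4)+(T5): from an eigenvector in `O ⊗ Λ` to a faithful `O[G_ℚ]`-module on which
`g + χ_cyc(g) g⁻¹` is a scalar `t(g)`.
-/
import Fermat.Agent.Tate.EngineO
import Fermat.Agent.Tate.CycO
import Fermat.Agent.Tate.Level

set_option autoImplicit false

open FA24 FAG IntermediateField
open scoped TensorProduct

namespace FAT

/-- product of actions -/
noncomputable def piAct {O : Type*} [CommRing O] {G : Type*} [Group G] {ι : Type*}
    {M : ι → Type*} [∀ i, AddCommGroup (M i)] [∀ i, Module O (M i)]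
    (ρ : ∀ i, G →* Module.End O (M i)) : G →* Module.End O (∀ i, M i) where
  toFun g := LinearMap.pi fun i => (ρ i g).comp (LinearMap.proj i)
  map_one' := by
    ext x i
    simp
  map_mul' g h := by
    ext x i
    simp

theorem piAct_apply {O : Type*} [CommRing O] {G : Type*} [Group G] {ι : Type*}
    {M : ι → Type*} [∀ i, AddCommGroup (M i)] [∀ i, Module O (M i)]
    (ρ : ∀ i, G →* Module.End O (M i)) (g : G) (x : ∀ i, M i) (i : ι) :
    piAct ρ g x i = ρ i g (x i) := rfl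

section

variable {p : ℕ} [Fact p.Prime] {N : ℕ} [NeZero N] (Z : Set ℕ) (hZ : Z.Finite) (hpZ : p ∈ Z)
  (hNZ : ∀ q : ℕ, q.Prime → q ∣ N → q ∈ Z)
  {O : Type} [CommRing O] [IsDomain O] [IsDiscreteValuationRing O]
  [IsAdicComplete (IsLocalRing.maximalIdeal O) O] [CharZero O]
  (hpO : (p : O) ∈ IsLocalRing.maximalIdeal O)
  (a : ℕ → O) {r : ℕ} (b : Module.Basis (Fin r) ℤ (LamZ N)) (w : Fin r → O)
  (hw : ∃ j, IsUnit (w j))
  (heig : ∀ (ℓ : ℕ) (hℓ : ℓ.Prime) (hℓN : ¬ ℓ ∣ N), ℓ ∉ Z → ∀ i,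
    ∑ j, ((b.repr (heckePar N hℓ hℓN ℤ ℤ (b j)) i : ℤ) : O) * w j = a ℓ * w i)

include hZ hpZ hNZ hw heig in
/-- **(T4)+(T5)** -/
theorem engineT :
    ∃ (t : GQ → O) (M : Type) (_ : AddCommGroup M) (_ : Module O M) (R : GQ →* Module.End O M),
      (∀ c : O, (∀ x : M, c • x = 0) → c = 0) ∧
      (∀ g, R g + cycO hpO g • R g⁻¹ = t g • 1) ∧
      (∀ ℓ : ℕ, ℓ.Prime → ℓ ∉ Z → ∀ A : ValuationSubring Kb, A.LiesOverPrime ℓ →
        ∀ σ : GQ, A.IsFrobeniusAt σ ℓ → t σ = a ℓ) ∧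
      (∀ q : ℕ, q.Prime → ¬ q ∣ N → q ≠ p → ∀ A : ValuationSubring Kb, A.LiesOverPrime q →
        ∀ τ ∈ A.inertiaSubgroupIn ℚ, R τ = 1) ∧
      (∀ n : ℕ, ∃ L : IntermediateField ℚ Kb, FiniteDimensional ℚ L ∧
        ∀ σ : GQ, (∀ x ∈ L, σ x = x) →
          cycO hpO σ - 1 ∈ Ideal.span {(p : O) ^ n} ∧
          ∀ h : GQ, t (σ * h) - t h ∈ Ideal.span {(p : O) ^ n}) := by
  classical
  have hp : p.Prime := Fact.out
  have hne : ∀ n, NeZero (p ^ n) := fun n => ⟨pow_ne_zero n hp.ne_zero⟩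
  have halg : Algebra.IsAlgebraic ℚ Kb := AlgebraicClosure.isAlgebraic ℚ
  choose Ψ hΨ1 hΨ2 _ using fun n => exists_PsiM (p ^ n) N
  set W : ∀ n, O ⊗[ℤ] KK (p ^ n) N := fun n => wY b w (Ψ n) with hW
  have hN : ∀ ℓ : ℕ, ℓ.Prime → ℓ ∉ Z → ¬ ℓ ∣ N := fun ℓ hℓ hℓZ h => hℓZ (hNZ ℓ hℓ h)
  have hP : ∀ ℓ : ℕ, ℓ.Prime → ℓ ≠ p → ∀ n, ¬ ℓ ∣ p ^ n := fun ℓ hℓ hℓp n h =>
    hℓp ((Nat.prime_dvd_prime_iff_eq hℓ hp).1 (hℓ.dvd_of_dvd_pow h))
  have hZp : ∀ ℓ : ℕ, ℓ ∉ Z → ℓ ≠ p := fun ℓ h h' => h (h' ▸ hpZ)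
  have hsm := fun n => actY_smooth O (p ^ n) N (W n)
  have hcm := fun n => TY_comm O (p ^ n) N
  have hES : ∀ n, ∀ ℓ : ℕ, ℓ.Prime → ℓ ∉ Z → ∀ A : ValuationSubring Kb, A.LiesOverPrime ℓ →
      ∀ σ : GQ, A.IsFrobeniusAt σ ℓ → actY O (p ^ n) N σ * actY O (p ^ n) N σ + (ℓ : O) • 1 =
        TY O (p ^ n) N ℓ * actY O (p ^ n) N σ := fun n ℓ hℓ hℓZ A hA σ hσ =>
    actY_ES O (p ^ n) N hℓ (hN ℓ hℓ hℓZ) (hP ℓ hℓ (hZp ℓ hℓZ) n) A hA σ hσ
  have heg : ∀ n, ∀ ℓ : ℕ, ℓ.Prime → ℓ ∉ Z → TY O (p ^ n) N ℓ (W n) = a ℓ • W n :=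
    fun n ℓ hℓ hℓZ => TY_wY b w (Ψ n) hℓ (hN ℓ hℓ hℓZ)
      (fun χ => hΨ2 n ⟨ℓ, hℓ, hN ℓ hℓ hℓZ⟩ χ) (a ℓ) (heig ℓ hℓ (hN ℓ hℓ hℓZ) hℓZ)
  have hann : ∀ n (c : O), c • W n = 0 → c ∈ Ideal.span {(p : O) ^ n} := by
    intro n c hc
    have := dvd_of_smul_wY_eq_zero b w (Ψ n) (hΨ1 n) hw hc
    rw [Nat.cast_pow] at this
    exact Ideal.mem_span_singleton.2 this
  have hkill : ∀ n (d : O), d ∈ Ideal.span {(p : O) ^ n} → ∀ y : O ⊗[ℤ] KK (p ^ n) N,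
      d • y = 0 := by
    intro n d hd y
    refine smul_eq_zero_of_mem O (p ^ n) N ?_ y
    rwa [Nat.cast_pow]
  -- the relation at level `n`
  let rel : ℕ → GQ → O → Prop := fun n g c =>
    ∀ x ∈ orbSpan (actY O (p ^ n) N) (W n),
      actY O (p ^ n) N g x + cycO hpO g • actY O (p ^ n) N g⁻¹ x = c • x
  have hle : ∀ n, Ideal.span {(p : O) ^ (n + 1)} ≤ Ideal.span {(p : O) ^ n} := fun n =>
    Ideal.span_singleton_le_span_singleton.2 (pow_dvd_pow _ (Nat.le_succ n))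
  have hrel_congr : ∀ n g c c', c - c' ∈ Ideal.span {(p : O) ^ n} → rel n g c' → rel n g c := by
    intro n g c c' h h' x hx
    rw [h' x hx, ← sub_eq_zero, ← sub_smul, hkill n _ (by rw [← neg_sub]; exact neg_mem h)]
  have hrel_uniq : ∀ n g c c', rel n g c → rel n g c' → c - c' ∈ Ideal.span {(p : O) ^ n} := by
    intro n g c c' h h'
    apply hann
    rw [sub_smul, ← h _ (self_mem_orbSpan _ _), ← h' _ (self_mem_orbSpan _ _), sub_self]
  have R1 : ∀ n g, ∃ c, rel n g c ∧ rel (n + 1) g c := by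
    intro n g
    obtain ⟨ζ, hζ⟩ := exists_primitive_root_pow p (n + 1)
    have hζfin : FiniteDimensional ℚ ℚ⟮ζ⟯ :=
      IntermediateField.adjoin.finiteDimensional (Algebra.IsAlgebraic.isAlgebraic ζ).isIntegral
    obtain ⟨ℓ, A, σ, e, hℓ, hℓZ, hA, hσ, hg, h1, h2⟩ := exists_frob_rel₂ Z hZ a
      (actY O (p ^ n) N) (TY O (p ^ n) N) (W n) (hsm n) (hcm n) (hES n) (heg n)
      (actY O (p ^ (n + 1)) N) (TY O (p ^ (n + 1)) N) (W (n + 1)) (hsm (n + 1)) (hcm (n + 1))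
      (hES (n + 1)) (heg (n + 1)) ℚ⟮ζ⟯ g
    have : Fact ℓ.Prime := ⟨hℓ⟩
    have hcyc : cycO hpO g - (ℓ : O) ^ e ∈ Ideal.span {(p : O) ^ (n + 1)} := by
      obtain ⟨j, hj⟩ := exists_exponent (pow_ne_zero (n + 1) hp.ne_zero) g hζ
      have h3 := cycO_spec hpO g (n + 1) hζ hj
      have h4 : (σ ^ e) ζ = ζ ^ j := by
        rw [← hg ζ (IntermediateField.mem_adjoin_simple_self ℚ ζ), hj]
      have h5 := cycO_spec hpO (σ ^ e) (n + 1) hζ h4
      rw [map_pow, cycO_frobenius (hZp ℓ hℓZ) A hA hpO hσ] at h5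
      have h6 : cycO hpO g - (ℓ : O) ^ e = (cycO hpO g - (j : O)) - ((ℓ : O) ^ e - (j : O)) := by
        ring
      rw [h6]
      exact Ideal.sub_mem _ h3 h5
    refine ⟨dick (a ℓ) (ℓ : O) e, fun x hx => ?_, fun x hx => ?_⟩
    · rw [← h1 x hx, add_right_inj, ← sub_eq_zero, ← sub_smul]
      exact hkill n _ (hle n hcyc) _
    · rw [← h2 x hx, add_right_inj, ← sub_eq_zero, ← sub_smul]
      exact hkill (n + 1) _ hcyc _
  choose cc hcc1 hcc2 using R1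
  have hstep : ∀ g n, cc (n + 1) g - cc n g ∈ Ideal.span {(p : O) ^ n} := fun g n =>
    hle n (hrel_uniq (n + 1) g _ _ (hcc1 (n + 1) g) (hcc2 n g))
  choose t ht using fun g => exists_limP hp.ne_zero hpO (fun n => cc n g) (hstep g)
  have hrel : ∀ n g, rel n g (t g) := fun n g => hrel_congr n g _ _ (ht g n) (hcc1 n g)
  -- the module
  let ρ : ∀ n, GQ →* Module.End O (orbSpan (actY O (p ^ n) N) (W n)) := fun n =>
    restrO (actY O (p ^ n) N) (orbSpan (actY O (p ^ n) N) (W n)) (orbSpan_stable _ _)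
  refine ⟨t, ∀ n, orbSpan (actY O (p ^ n) N) (W n), inferInstance, inferInstance, piAct ρ,
    ?_, ?_, ?_, ?_, ?_⟩
  · -- faithful
    intro c hc
    have h1 : ∀ n, c - 0 ∈ Ideal.span {(p : O) ^ n} := by
      intro n
      rw [sub_zero]
      apply hann
      have h2 := congrFun (hc fun n => ⟨W n, self_mem_orbSpan _ _⟩) n
      exact congrArg Subtype.val h2
    exact eq_of_forall_sub_mem hpO h1
  · -- the relation
    intro g
    refine LinearMap.ext fun x => funext fun n => Subtype.ext ?_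
    exact hrel n g (x n) (x n).2
  · -- Frobenius
    intro ℓ hℓ hℓZ A hA σ hσ
    have : Fact ℓ.Prime := ⟨hℓ⟩
    refine eq_of_forall_sub_mem hpO fun n => hrel_uniq n σ _ _ (hrel n σ) fun x hx => ?_
    have h1 := frob_pow_rel Z (actY O (p ^ n) N) (TY O (p ^ n) N) (W n) (hcm n) (hES n) a (heg n)
      ℓ hℓ hℓZ A hA σ hσ 1 x hx
    rw [pow_one, pow_one, pow_one] at h1
    rw [cycO_frobenius (hZp ℓ hℓZ) A hA hpO hσ, h1]
    rfl
  · -- inertia
    intro q hq hqN hqp A hA τ hτ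
    refine LinearMap.ext fun x => funext fun n => Subtype.ext ?_
    show actY O (p ^ n) N τ (x n) = x n
    rw [actY_unram O (p ^ n) N hq hqN (hP q hq hqp n) A hA τ hτ, Module.End.one_apply]
  · -- continuity
    intro n
    obtain ⟨ζ, hζ⟩ := exists_primitive_root_pow p n
    have hζfin : FiniteDimensional ℚ ℚ⟮ζ⟯ :=
      IntermediateField.adjoin.finiteDimensional (Algebra.IsAlgebraic.isAlgebraic ζ).isIntegral
    obtain ⟨L0, hL0fin, hL0g, hle0, hL0⟩ := exists_level (actY O (p ^ n) N) (W n) (hsm n) ℚ⟮ζ⟯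
    refine ⟨L0, hL0fin, fun σ hσ => ?_⟩
    have hσ1 : cycO hpO σ - 1 ∈ Ideal.span {(p : O) ^ n} :=
      cycO_sub_one_mem hpO σ n hζ (hσ ζ (hle0 (IntermediateField.mem_adjoin_simple_self ℚ ζ)))
    refine ⟨hσ1, fun h => ?_⟩
    have hfix : ∀ x ∈ orbSpan (actY O (p ^ n) N) (W n), actY O (p ^ n) N σ x = x := by
      intro x hx
      have := hL0 σ 1 (fun y hy => by rw [hσ y hy, AlgEquiv.one_apply]) x hx
      rwa [map_one, Module.End.one_apply] at this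
    have hfix' : ∀ x ∈ orbSpan (actY O (p ^ n) N) (W n), actY O (p ^ n) N σ⁻¹ x = x := by
      intro x hx
      have h1 := hfix x hx
      conv_lhs => rw [← h1]
      rw [← Module.End.mul_apply, ← map_mul, inv_mul_cancel, map_one, Module.End.one_apply]
    refine hrel_uniq n h _ _ (fun x hx => ?_) (hrel n h)
    have h1 := hrel n (σ * h) x hx
    rw [map_mul (actY O (p ^ n) N), Module.End.mul_apply, hfix _ (orbSpan_stable _ _ h x hx),
      mul_inv_rev, map_mul (actY O (p ^ n) N), Module.End.mul_apply, hfix' x hx,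
      map_mul (cycO hpO)] at h1
    rw [← h1, add_right_inj, ← sub_eq_zero, ← sub_smul]
    refine hkill n _ ?_ _
    have h2 : cycO hpO h - cycO hpO σ * cycO hpO h = - (cycO hpO h * (cycO hpO σ - 1)) := by ring
    rw [h2]
    exact neg_mem (Ideal.mul_mem_left _ _ hσ1)

end

end FAT
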