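import Fermat.Agent.Tate.S30Of
import Fermat.Agent.Tate.CycO

/-! PROJECT T, route (H): S30 from the output of the engine over `O` and the construction of a
representation from a pseudo-representation. -/

set_option autoImplicit false

namespace FAT

open Polynomial Module CuspForm

section dvr
variable {O : Type*} [CommRing O] [IsDomain O] [IsDiscreteValuationRing O]

/-- dividing by a fixed nonzero constant is continuous. -/
theorem exists_pow_of_mul_mem {δ : O} (hδ : δ ≠ 0) (n : ℕ) :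
    ∃ n' : ℕ, ∀ y : O, δ * y ∈ IsLocalRing.maximalIdeal O ^ n' →
      y ∈ IsLocalRing.maximalIdeal O ^ n := by
  obtain ⟨ϖ, hϖ⟩ := IsDiscreteValuationRing.exists_irreducible O
  obtain ⟨k, v, hv⟩ := IsDiscreteValuationRing.eq_unit_mul_pow_irreducible hδ hϖ
  refine ⟨k + n, fun y hy => ?_⟩
  rw [hϖ.maximalIdeal_eq, Ideal.span_singleton_pow, Ideal.mem_span_singleton] at hy ⊢
  obtain ⟨z, hz⟩ := hy
  refine ⟨(↑v⁻¹ : O) * z, ?_⟩
  have h0 : ϖ ^ k ≠ 0 := pow_ne_zero _ hϖ.ne_zero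
  apply mul_left_cancel₀ h0
  have h1 : (v : O) * (↑v⁻¹ : O) = 1 := v.mul_inv
  have h2 : (↑v⁻¹ : O) * (δ * y) = ϖ ^ k * y := by
    rw [hv]
    linear_combination (ϖ ^ k * y) * h1
  rw [← h2, hz, pow_add]
  ring

end dvr

/-- the shape of the theorem "pseudo-representation ⇒ representation" (`FAG.wiles_main`). -/
def WilesMain (O : Type) [CommRing O] : Prop :=
  ∀ (M : Type) [AddCommGroup M] [Module O M] (r : GQ →* Module.End O M) (u : GQ →* Oˣ)
    (t : GQ → O) (c : GQ), (∀ a : O, (∀ x : M, a • x = 0) → a = 0) →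
    (∀ g, r g + (u g : O) • r g⁻¹ = t g • 1) → c * c = 1 → (u c : O) = -1 →
    ∃ (R : GQ →* Matrix (Fin 2) (Fin 2) O) (δ : O), δ ≠ 0 ∧
      (∀ g, (R g).charpoly = X ^ 2 - C (t g) * X + C (u g : O)) ∧
      ∀ (I : Ideal O) (σ : GQ), (∀ h, t (σ * h) - t h ∈ I) → ∀ i j, δ * (R σ - 1) i j ∈ I

section main
variable (p : ℕ) [Fact p.Prime] (N : ℕ) [NeZero N] (S : Finset ℕ) (O : Type) [CommRing O]
  [IsDomain O] [IsDiscreteValuationRing O] [IsAdicComplete (IsLocalRing.maximalIdeal O) O]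
  [CharZero O] (hpO : (p : O) ∈ IsLocalRing.maximalIdeal O)

/-- the shape of the output of the engine over `O`. -/
def EngineOut (χ : heckeAlgebra N 2 (↑S : Set ℕ) →+* O) : Prop :=
  ∃ (t : GQ → O) (M : Type) (_ : AddCommGroup M) (_ : Module O M) (R : GQ →* Module.End O M),
    (∀ c : O, (∀ x : M, c • x = 0) → c = 0) ∧
    (∀ g, R g + cycO hpO g • R g⁻¹ = t g • 1) ∧
    (∀ (ℓ : ℕ) (hℓ : ℓ.Prime) (hℓN : ¬ ℓ ∣ N) (hℓS : ℓ ∉ (↑S : Set ℕ))
      (A : ValuationSubring (AlgebraicClosure ℚ)), A.LiesOverPrime ℓ →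
      ∀ σ : GQ, A.IsFrobeniusAt σ ℓ → t σ = χ (heckeAlgebra.T hℓ hℓN hℓS)) ∧
    (∀ q : ℕ, q.Prime → ¬ q ∣ N → q ≠ p →
      ∀ A : ValuationSubring (AlgebraicClosure ℚ), A.LiesOverPrime q →
        ∀ τ ∈ A.inertiaSubgroupIn ℚ, R τ = 1) ∧
    (∀ n : ℕ, ∃ F : IntermediateField ℚ (AlgebraicClosure ℚ), FiniteDimensional ℚ F ∧
      ∀ σ : GQ, (∀ x ∈ F, σ x = x) → ∀ h, t (σ * h) - t h ∈ Ideal.span {(p : O) ^ n})

theorem S30_of_engine (hpS : p ∈ S) (HW : WilesMain O)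
    (χ : heckeAlgebra N 2 (↑S : Set ℕ) →+* O) (HE : EngineOut p N S O hpO χ) :
    ∃ ρ : GaloisRepAdic O,
      (∀ (ℓ : ℕ) (hℓ : ℓ.Prime) (hℓN : ¬ ℓ ∣ N) (hℓS : ℓ ∉ (↑S : Set ℕ)),
        ∀ A : ValuationSubring (AlgebraicClosure ℚ), A.LiesOverPrime ℓ →
          ∀ σ : AlgebraicClosure ℚ ≃ₐ[ℚ] AlgebraicClosure ℚ, A.IsFrobeniusAt σ ℓ →
            LinearMap.charpoly (ρ.ρ σ) =
              X ^ 2 - C (χ (heckeAlgebra.T hℓ hℓN hℓS)) * X + C ((ℓ : O))) ∧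
      (∀ q : ℕ, q.Prime → ¬ q ∣ N → q ≠ p → ρ.IsUnramifiedAt q) := by
  obtain ⟨t, M, _, _, R, hfaith, hrel, hfrob, hunr, hcont⟩ := HE
  obtain ⟨cc, hcc, hd⟩ := exists_conj hpO
  obtain ⟨R2, δ, hδ, hchar, hI⟩ := HW M R (cycO hpO).toHomUnits t cc hfaith
    (fun g => by rw [MonoidHom.coe_toHomUnits]; exact hrel g) hcc
    (by rw [MonoidHom.coe_toHomUnits]; exact hd)
  have hR : ∀ n : ℕ, ∃ F : IntermediateField ℚ (AlgebraicClosure ℚ), FiniteDimensional ℚ F ∧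
      ∀ σ : GQ, (∀ x ∈ F, σ x = x) → ∀ i l, (R2 σ - 1) i l ∈ IsLocalRing.maximalIdeal O ^ n := by
    intro n
    obtain ⟨n', hn'⟩ := exists_pow_of_mul_mem hδ n
    obtain ⟨F, hF, h⟩ := hcont n'
    refine ⟨F, hF, fun σ hσ i l => hn' _ ?_⟩
    exact span_pow_le hpO n' (hI _ σ (h σ hσ) i l)
  refine ⟨adicOfMatrix R2 hR, ?_, ?_⟩
  · intro ℓ hℓ hℓN hℓS A hA σ hσ
    have : Fact ℓ.Prime := ⟨hℓ⟩
    have hℓp : ℓ ≠ p := by
      rintro rfl
      exact hℓS hpS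
    rw [adicOfMatrix_charpoly, hchar, hfrob ℓ hℓ hℓN hℓS A hA σ hσ, MonoidHom.coe_toHomUnits,
      cycO_frobenius hℓp A hA hpO hσ]
  · intro q hq hqN hqp P hP τ hτ
    have : Fact q.Prime := ⟨hq⟩
    have h1 := hunr q hq hqN hqp P hP τ hτ
    have h2 : cycO hpO τ = 1 := cycO_inertia hqp P hP hpO hτ
    have h1' : R τ⁻¹ = 1 := by
      have := map_mul R τ τ⁻¹
      rw [mul_inv_cancel, map_one, h1, one_mul] at this
      exact this.symm
    have h3 : ∀ h, t (τ * h) - t h ∈ (⊥ : Ideal O) := by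
      intro h
      rw [Ideal.mem_bot]
      apply hfaith
      intro x
      have e1 := hrel (τ * h)
      rw [mul_inv_rev, map_mul, map_mul, map_mul, h1, h1', h2, one_mul, one_mul, mul_one,
        hrel h] at e1
      have e2 := LinearMap.congr_fun e1 x
      simp only [LinearMap.smul_apply, Module.End.one_apply] at e2
      rw [sub_smul, ← e2, sub_self]
    apply adicOfMatrix_eq_one
    ext i l
    have h4 := hI ⊥ τ h3 i l
    rw [Ideal.mem_bot, mul_eq_zero] at h4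
    have h5 := h4.resolve_left hδ
    rw [Matrix.sub_apply, sub_eq_zero] at h5
    exact h5

end main

end FAT
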