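/-
PROJECT T, (T3): a ring homomorphism from a commutative ring acting faithfully on a free
`ℤ`-module of finite rank to a discrete valuation ring `O` has an eigenvector with coordinates
in `O`, one of which is a unit.
-/
import Fermat.Agent.Gal.CohLA

set_option autoImplicit false

open Matrix

namespace FAT

/-! ### the determinant trick -/

theorem det_eq_zero_of_rows {𝕋 : Type*} [CommRing 𝕋] {r : ℕ}
    (ρ : 𝕋 →+* Matrix (Fin r) (Fin r) ℤ) (hρ : Function.Injective ρ)
    (Y : Matrix (Fin r) (Fin r) 𝕋) (hY : ∀ a c, ∑ j, ρ (Y a j) j c = 0) : Y.det = 0 := by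
  apply hρ
  rw [map_zero]
  ext b c
  have hadj : ∀ l, ∑ a, Y.adjugate b a * Y a l = if b = l then Y.det else 0 := by
    intro l
    have := congrFun (congrFun (Matrix.adjugate_mul Y) b) l
    rw [Matrix.mul_apply, Matrix.smul_apply, Matrix.one_apply, smul_eq_mul, mul_ite, mul_one,
      mul_zero] at this
    exact this
  have h1 : ρ Y.det b c = ∑ l, ρ (if b = l then Y.det else 0) l c := by
    rw [Finset.sum_eq_single b]
    · simp
    · intro l _ hl
      rw [if_neg (Ne.symm hl), map_zero]
      rfl
    · simp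
  rw [h1]
  have h2 : ∀ l, ρ (if b = l then Y.det else 0) l c =
      ∑ a, ∑ d, ρ (Y a l) l d * ρ (Y.adjugate b a) d c := by
    intro l
    rw [← hadj l, map_sum, Matrix.sum_apply]
    refine Finset.sum_congr rfl fun a _ => ?_
    rw [mul_comm, map_mul, Matrix.mul_apply]
  simp only [h2]
  rw [Finset.sum_comm]
  refine Finset.sum_eq_zero fun a _ => ?_
  rw [Finset.sum_comm]
  refine Finset.sum_eq_zero fun d _ => ?_
  rw [← Finset.sum_mul, hY a d, zero_mul]

/-- **eigenvectors over a field.** -/
theorem exists_eigen_field {𝕋 : Type*} [CommRing 𝕋] {r : ℕ}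
    (ρ : 𝕋 →+* Matrix (Fin r) (Fin r) ℤ) (hρ : Function.Injective ρ) {E : Type*} [Field E]
    (χ : 𝕋 →+* E) :
    ∃ w : Fin r → E, w ≠ 0 ∧ ∀ t i, ∑ j, ((ρ t i j : ℤ) : E) * w j = χ t * w i := by
  classical
  obtain ⟨w, hw0, hw⟩ := FAG.exists_ne_zero_of_det_eq_zero (k := E) (r := r) (S := 𝕋 × Fin r)
    (fun s j => ((ρ s.1 s.2 j : ℤ) : E) - if s.2 = j then χ s.1 else 0) (by
      intro f
      set Y : Matrix (Fin r) (Fin r) 𝕋 := Matrix.of fun a j =>
        ((ρ (f a).1 (f a).2 j : ℤ) : 𝕋) - if (f a).2 = j then (f a).1 else 0 with hY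
      have h0 : Y.det = 0 := by
        apply det_eq_zero_of_rows ρ hρ
        intro a c
        have e : ∀ j, ρ (Y a j) j c =
            (if j = c then ρ (f a).1 (f a).2 j else 0) -
              (if (f a).2 = j then ρ (f a).1 j c else 0) := by
          intro j
          have e1 : Y a j = ((ρ (f a).1 (f a).2 j : ℤ) : 𝕋) - if (f a).2 = j then (f a).1 else 0 :=
            rfl
          rw [e1, map_sub, map_intCast, Matrix.sub_apply, Matrix.intCast_apply]
          congr 1
          by_cases h : (f a).2 = j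
          · rw [if_pos h, if_pos h]
          · rw [if_neg h, if_neg h, map_zero]
            rfl
        simp only [e, Finset.sum_sub_distrib, Finset.sum_ite_eq, Finset.sum_ite_eq',
          Finset.mem_univ, if_true, sub_self]
      have h1 := congrArg χ h0
      rw [map_zero, RingHom.map_det] at h1
      have e2 : (Matrix.of fun a => (fun (s : 𝕋 × Fin r) j =>
          ((ρ s.1 s.2 j : ℤ) : E) - if s.2 = j then χ s.1 else 0) (f a)) = χ.mapMatrix Y := by
        ext a j
        have e1 : Y a j = ((ρ (f a).1 (f a).2 j : ℤ) : 𝕋) - if (f a).2 = j then (f a).1 else 0 :=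
          rfl
        rw [RingHom.mapMatrix_apply, Matrix.map_apply, e1, map_sub, map_intCast, Matrix.of_apply]
        show ((ρ (f a).1 (f a).2 j : ℤ) : E) - (if (f a).2 = j then χ (f a).1 else 0) = _
        by_cases h : (f a).2 = j
        · rw [if_pos h, if_pos h]
        · rw [if_neg h, if_neg h, map_zero]
      rw [e2, h1])
  refine ⟨w, hw0, fun t i => ?_⟩
  have h := hw (t, i)
  simp only [sub_mul, Finset.sum_sub_distrib, ite_mul, zero_mul, Finset.sum_ite_eq,
    Finset.mem_univ, if_true] at h
  exact sub_eq_zero.mp h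

/-- **eigenvectors over a discrete valuation ring**, with a unit coordinate. -/
theorem exists_eigen_dvr {𝕋 : Type*} [CommRing 𝕋] {r : ℕ}
    (ρ : 𝕋 →+* Matrix (Fin r) (Fin r) ℤ) (hρ : Function.Injective ρ) {O : Type*} [CommRing O]
    [IsDomain O] [IsDiscreteValuationRing O] (χ : 𝕋 →+* O) :
    ∃ w : Fin r → O, (∃ j, IsUnit (w j)) ∧
      ∀ t i, ∑ j, ((ρ t i j : ℤ) : O) * w j = χ t * w i := by
  classical
  obtain ⟨w, hw0, hw⟩ := exists_eigen_field ρ hρ ((algebraMap O (FractionRing O)).comp χ)
  obtain ⟨b, hb⟩ := IsLocalization.exist_integer_multiples (nonZeroDivisors O) Finset.univ w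
  choose w' hw' using fun j => hb j (Finset.mem_univ j)
  have hb0 : (b : O) ≠ 0 := nonZeroDivisors.coe_ne_zero b
  have hinj : Function.Injective (algebraMap O (FractionRing O)) :=
    IsFractionRing.injective O (FractionRing O)
  have hw'eq : ∀ t i, ∑ j, ((ρ t i j : ℤ) : O) * w' j = χ t * w' i := by
    intro t i
    apply hinj
    rw [map_sum, map_mul, hw' i]
    simp only [map_mul, map_intCast, hw', Algebra.smul_def]
    have h := hw t i
    rw [RingHom.comp_apply] at h
    rw [mul_left_comm, ← h, Finset.mul_sum]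
    exact Finset.sum_congr rfl fun j _ => by ring
  have hw'0 : ∃ j, w' j ≠ 0 := by
    by_contra hcon
    push Not at hcon
    apply hw0
    funext j
    have h := hw' j
    rw [hcon j, map_zero, Algebra.smul_def] at h
    rcases mul_eq_zero.mp h.symm with h1 | h1
    · exact absurd (hinj (h1.trans (map_zero _).symm)) hb0
    · exact h1
  obtain ⟨d, hd⟩ := (IsPrincipalIdealRing.principal (Ideal.span (Set.range w'))).principal
  have hd' : Ideal.span (Set.range w') = Ideal.span {d} := hd
  have hdvd : ∀ j, d ∣ w' j := fun j => by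
    rw [← Ideal.mem_span_singleton, ← hd']
    exact Ideal.subset_span ⟨j, rfl⟩
  choose v hv using hdvd
  have hd0 : d ≠ 0 := by
    rintro rfl
    obtain ⟨j, hj⟩ := hw'0
    exact hj (by rw [hv j, zero_mul])
  have hdmem : d ∈ Ideal.span (Set.range w') := by
    rw [hd']
    exact Ideal.mem_span_singleton_self d
  obtain ⟨c, hc⟩ := (Ideal.mem_span_range_iff_exists_fun).mp hdmem
  have hone : ∑ j, c j * v j = 1 := by
    apply mul_left_cancel₀ hd0
    rw [mul_one, Finset.mul_sum]
    conv_rhs => rw [← hc]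
    exact Finset.sum_congr rfl fun j _ => by rw [hv j]; ring
  refine ⟨v, ?_, fun t i => ?_⟩
  · by_contra hcon
    push Not at hcon
    have h1 : ∑ j, c j * v j ∈ IsLocalRing.maximalIdeal O :=
      Ideal.sum_mem _ fun j _ => Ideal.mul_mem_left _ _ ((IsLocalRing.mem_maximalIdeal _).mpr
        (hcon j))
    rw [hone] at h1
    exact (IsLocalRing.mem_maximalIdeal _).mp h1 isUnit_one
  · apply mul_left_cancel₀ hd0
    have h := hw'eq t i
    simp only [hv] at h
    rw [Finset.mul_sum, mul_left_comm, ← h]
    exact Finset.sum_congr rfl fun j _ => by ring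

end FAT
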