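/-
PROJECT T, (T3): the eigenvector of a character of the Hecke algebra in `O ⊗ Λ`,
relative to [T-HECKE] (the faithful action `θ` of the Hecke algebra on `Λ = H¹_par(Γ₀(N), ℤ)`).
-/
import Fermat.Agent.Tate.T3
import Fermat.Agent.Gal.K4Of
import Fermat.Prelude.Def_CuspForm_HeckeAlgebra

set_option autoImplicit false

open FAG

namespace FAT

/-- abstract form, for a faithful action on a free module with a basis. -/
theorem exists_eigen_basis {𝕋 : Type*} [CommRing 𝕋] {Λ : Type*} [AddCommGroup Λ] {r : ℕ}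
    (b : Module.Basis (Fin r) ℤ Λ) (θ : 𝕋 →+* Module.End ℤ Λ) (hθ : Function.Injective θ)
    {O : Type*} [CommRing O] [IsDomain O] [IsDiscreteValuationRing O] (χ : 𝕋 →+* O) :
    ∃ w : Fin r → O, (∃ j, IsUnit (w j)) ∧
      ∀ t i, ∑ j, ((b.repr (θ t (b j)) i : ℤ) : O) * w j = χ t * w i := by
  obtain ⟨w, hw1, hw2⟩ := exists_eigen_dvr
    (((LinearMap.toMatrixAlgEquiv b : Module.End ℤ Λ ≃ₐ[ℤ] Matrix (Fin r) (Fin r) ℤ) :
      Module.End ℤ Λ →+* Matrix (Fin r) (Fin r) ℤ).comp θ)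
    ((LinearMap.toMatrixAlgEquiv b).injective.comp hθ) χ
  refine ⟨w, hw1, fun t i => ?_⟩
  rw [← hw2 t i]
  refine Finset.sum_congr rfl fun j _ => ?_
  congr 2
  exact (LinearMap.toMatrixAlgEquiv_apply b (θ t) i j).symm

/-- **(T3)**, relative to [T-HECKE]. -/
theorem T3_of_theta (N : ℕ) [NeZero N] (S : Set ℕ)
    (θ : CuspForm.heckeAlgebra N 2 S →+* Module.End ℤ (LamZ N)) (hθ : Function.Injective θ)
    (hθT : ∀ (l : ℕ) (hl : l.Prime) (hlN : ¬ l ∣ N) (hlS : l ∉ S),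
      θ (CuspForm.heckeAlgebra.T hl hlN hlS) = heckePar N hl hlN ℤ ℤ)
    {O : Type*} [CommRing O] [IsDomain O] [IsDiscreteValuationRing O]
    (χ : CuspForm.heckeAlgebra N 2 S →+* O) {r : ℕ} (b : Module.Basis (Fin r) ℤ (LamZ N)) :
    ∃ w : Fin r → O, (∃ j, IsUnit (w j)) ∧
      ∀ (l : ℕ) (hl : l.Prime) (hlN : ¬ l ∣ N) (hlS : l ∉ S) (i : Fin r),
        ∑ j, ((b.repr (heckePar N hl hlN ℤ ℤ (b j)) i : ℤ) : O) * w j =
          χ (CuspForm.heckeAlgebra.T hl hlN hlS) * w i := by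
  obtain ⟨w, hw1, hw2⟩ := exists_eigen_basis b θ hθ χ
  refine ⟨w, hw1, fun l hl hlN hlS i => ?_⟩
  rw [← hw2, hθT]

end FAT
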