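/-
PROJECT T: glue: `EngineOut` (the hypothesis of `S30_of_engine`) from `engineT` and (T3),
relative to [T-HECKE].
-/
import Fermat.Agent.Tate.EngineT
import Fermat.Agent.Tate.T3b
import Fermat.Agent.Tate.S30H
import Fermat.Agent.Gal.Coh

set_option autoImplicit false

open FA24 FAG CongruenceSubgroup
open scoped MatrixGroups

namespace FAT

theorem exists_basis_LamZ (N : ℕ) [NeZero N] :
    ∃ r : ℕ, Nonempty (Module.Basis (Fin r) ℤ (LamZ N)) := by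
  have := FAH3.fg_Gamma0 N
  obtain ⟨r, _, b, _, _⟩ := exists_basis_dual
    {γ : Gamma0 N | ((γ : SL(2, ℤ)) : Matrix (Fin 2) (Fin 2) ℤ).trace ^ 2 = 4}
    (ModularCurve.Period.parabolicHoms ℤ (Gamma0 N) ℤ) (fun χ => Iff.rfl)
  exact ⟨r, ⟨b⟩⟩

theorem engineOut_of_theta (p : ℕ) [Fact p.Prime] (N : ℕ) [NeZero N] (S : Finset ℕ) (O : Type)
    [CommRing O] [IsDomain O] [IsDiscreteValuationRing O]
    [IsAdicComplete (IsLocalRing.maximalIdeal O) O] [CharZero O]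
    (hpO : (p : O) ∈ IsLocalRing.maximalIdeal O) (hpS : p ∈ S)
    (hNS : ∀ q : ℕ, q.Prime → q ∣ N → q ∈ S)
    (θ : CuspForm.heckeAlgebra N 2 (↑S : Set ℕ) →+* Module.End ℤ (LamZ N))
    (hθ : Function.Injective θ)
    (hθT : ∀ (l : ℕ) (hl : l.Prime) (hlN : ¬ l ∣ N) (hlS : l ∉ (↑S : Set ℕ)),
      θ (CuspForm.heckeAlgebra.T hl hlN hlS) = heckePar N hl hlN ℤ ℤ)
    (χ : CuspForm.heckeAlgebra N 2 (↑S : Set ℕ) →+* O) : EngineOut p N S O hpO χ := by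
  classical
  obtain ⟨r, ⟨b⟩⟩ := exists_basis_LamZ N
  obtain ⟨w, hw, hT⟩ := T3_of_theta N (↑S : Set ℕ) θ hθ hθT χ b
  let a : ℕ → O := fun l =>
    if h : l.Prime ∧ ¬ l ∣ N ∧ l ∉ (↑S : Set ℕ) then χ (CuspForm.heckeAlgebra.T h.1 h.2.1 h.2.2)
    else 0
  have ha : ∀ (l : ℕ) (hl : l.Prime) (hlN : ¬ l ∣ N) (hlS : l ∉ (↑S : Set ℕ)),
      a l = χ (CuspForm.heckeAlgebra.T hl hlN hlS) := fun l hl hlN hlS => dif_pos ⟨hl, hlN, hlS⟩
  obtain ⟨t, M, i1, i2, R, h1, h2, h3, h4, h5⟩ := engineT (↑S : Set ℕ) S.finite_toSet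
    (Finset.mem_coe.2 hpS) (fun q hq hqN => Finset.mem_coe.2 (hNS q hq hqN)) hpO a b w hw
    (fun l hl hlN hlS i => by rw [ha l hl hlN hlS]; exact hT l hl hlN hlS i)
  refine ⟨t, M, i1, i2, R, h1, h2, ?_, h4, ?_⟩
  · intro l hl hlN hlS A hA σ hσ
    rw [h3 l hl hlS A hA σ hσ, ha l hl hlN hlS]
  · intro n
    obtain ⟨L, hL, h⟩ := h5 n
    exact ⟨L, hL, fun σ hσ => (h σ hσ).2⟩

end FAT
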