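/-
PROJECT T, [T-HECKE] part 1: the Hecke operator on `Hom(Γ₀(N), A)` commutes with the involution
`ψ ↦ ψ ∘ (γ ↦ J γ J)`, `J = diag(1, -1)`.
-/
import Fermat.Agent.Gal.HeckeSys
import Fermat.Prelude.Def_ModularCurve_PeriodHomPair

set_option autoImplicit false

open CongruenceSubgroup ModularCurve.Period FAG
open scoped MatrixGroups

namespace FAT

/-! ### abstract form -/

theorem heckeAdd_comp_of_star {Γ G I : Type*} [Group Γ] [Group G] [Fintype I] (D : HSys Γ G I)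
    (J : Γ →* Γ) (star : I ≃ I) (ε : I → Γ)
    (hJ : ∀ i j γ γ', D.δ i * D.ι γ = D.ι γ' * D.δ j →
      D.δ (star i) * D.ι (J γ) = D.ι ((ε i)⁻¹ * J γ' * ε j) * D.δ (star j))
    {A : Type*} [AddCommGroup A] (χ : Additive Γ →+ A) (γ : Γ) :
    D.heckeAdd χ (Additive.ofMul (J γ)) =
      D.heckeAdd (χ.comp (MonoidHom.toAdditive J)) (Additive.ofMul γ) := by
  rw [HSys.heckeAdd_apply, HSys.heckeAdd_apply, ← Equiv.sum_comp star]
  have h1 : ∀ i, D.kap (J γ) (star i) = (ε i)⁻¹ * J (D.kap γ i) * ε (D.nxt γ i) := fun i =>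
    (D.uniq (hJ i _ γ _ (D.spec γ i))).2
  have h2 : ∀ i, χ (Additive.ofMul (D.kap (J γ) (star i))) =
      χ (Additive.ofMul (J (D.kap γ i))) +
        (χ (Additive.ofMul (ε (D.nxt γ i))) - χ (Additive.ofMul (ε i))) := by
    intro i
    rw [h1, ofMul_mul, ofMul_mul, ofMul_inv, map_add, map_add, map_neg]
    abel
  simp only [h2, Finset.sum_add_distrib, Finset.sum_sub_distrib]
  have h3 : ∑ i, χ (Additive.ofMul (ε (D.nxt γ i))) = ∑ i, χ (Additive.ofMul (ε i)) :=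
    Equiv.sum_comp (D.perm γ) (fun i => χ (Additive.ofMul (ε i)))
  rw [h3, sub_self, add_zero]
  rfl

/-! ### the concrete data -/

/-- `j ↦ -j` on the representatives. -/
def starI (ℓ : ℕ) [NeZero ℓ] : Option (Fin ℓ) ≃ Option (Fin ℓ) :=
  Equiv.optionCongr (Equiv.neg (Fin ℓ))

/-- the correction `J δ_j J = ε_j δ_{-j}`. -/
def epsZ (ℓ : ℕ) : Option (Fin ℓ) → ℤ
  | none => 0
  | some j => if (j : ℕ) = 0 then 0 else -1

lemma jConjMat_dZ (ℓ : ℕ) [NeZero ℓ] (i : Option (Fin ℓ)) :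
    jConjMat (dZ ℓ i) = !![1, epsZ ℓ i; 0, 1] * dZ ℓ (starI ℓ i) := by
  cases i with
  | none =>
    ext a b
    fin_cases a <;> fin_cases b <;> simp [jConjMat, dZ, starI, epsZ, Matrix.mul_apply,
      Fin.sum_univ_two]
  | some j =>
    have hneg : (((-j : Fin ℓ) : ℕ) : ℤ) = if (j : ℕ) = 0 then 0 else (ℓ : ℤ) - (j : ℕ) := by
      by_cases hj : (j : ℕ) = 0
      · have : j = 0 := Fin.ext (by simpa using hj)
        subst this
        simp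
      · rw [if_neg hj, Fin.val_neg', Nat.mod_eq_of_lt (by omega)]
        have := j.2
        push_cast [Nat.cast_sub this.le]
        ring
    have e : dZ ℓ (starI ℓ (some j)) = !![1, (((-j : Fin ℓ) : ℕ) : ℤ); 0, (ℓ : ℤ)] := rfl
    rw [e, hneg]
    by_cases hj : (j : ℕ) = 0
    · ext a b
      fin_cases a <;> fin_cases b <;> simp [jConjMat, dZ, epsZ, hj, Matrix.mul_apply,
        Fin.sum_univ_two]
    · ext a b
      fin_cases a <;> fin_cases b <;> simp [jConjMat, dZ, epsZ, hj, Matrix.mul_apply,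
        Fin.sum_univ_two] <;> ring

/-- the correction as an element of `Γ₀(N)`. -/
def epsG (N ℓ : ℕ) (i : Option (Fin ℓ)) : ↥(Gamma0 N) :=
  ⟨mkSL 1 (epsZ ℓ i) 0 1 (by ring), mk_mem_Gamma0 _ _ _ _ _ (dvd_zero _)⟩

lemma coe_epsG (N ℓ : ℕ) (i : Option (Fin ℓ)) :
    (((epsG N ℓ i : ↥(Gamma0 N)) : SL(2, ℤ)) : Matrix (Fin 2) (Fin 2) ℤ) =
      !![1, epsZ ℓ i; 0, 1] := rfl

theorem hsys_star (N : ℕ) {ℓ : ℕ} (hℓ : ℓ.Prime) (hN : ¬ ℓ ∣ N) (i j : Option (Fin ℓ))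
    (γ γ' : ↥(Gamma0 N))
    (h : (hsys N hℓ hN).δ i * (hsys N hℓ hN).ι γ = (hsys N hℓ hN).ι γ' * (hsys N hℓ hN).δ j) :
    haveI : NeZero ℓ := ⟨hℓ.ne_zero⟩
    (hsys N hℓ hN).δ (starI ℓ i) * (hsys N hℓ hN).ι (jConjGamma0 N γ) =
      (hsys N hℓ hN).ι ((epsG N ℓ i)⁻¹ * jConjGamma0 N γ' * epsG N ℓ j) *
        (hsys N hℓ hN).δ (starI ℓ j) := by
  haveI : NeZero ℓ := ⟨hℓ.ne_zero⟩
  simp only [hsys_ι, hsys_δ, iotaG_apply] at h ⊢
  rw [dR_mul_iff hℓ.ne_zero] at h ⊢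
  have h1 := congrArg jConjMat h
  rw [jConjMat_mul, jConjMat_mul, jConjMat_dZ, jConjMat_dZ] at h1
  have h2 : (((epsG N ℓ i : ↥(Gamma0 N)) : SL(2, ℤ)) : Matrix (Fin 2) (Fin 2) ℤ) *
      (dZ ℓ (starI ℓ i) * jConjMat ((γ : SL(2, ℤ)) : Matrix (Fin 2) (Fin 2) ℤ)) =
      jConjMat ((γ' : SL(2, ℤ)) : Matrix (Fin 2) (Fin 2) ℤ) *
        (((epsG N ℓ j : ↥(Gamma0 N)) : SL(2, ℤ)) : Matrix (Fin 2) (Fin 2) ℤ) *
          dZ ℓ (starI ℓ j) := by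
    rw [coe_epsG, coe_epsG, ← mul_assoc, h1, mul_assoc]
  have h3 : ((((epsG N ℓ i)⁻¹ : ↥(Gamma0 N)) : SL(2, ℤ)) : Matrix (Fin 2) (Fin 2) ℤ) *
      (((epsG N ℓ i : ↥(Gamma0 N)) : SL(2, ℤ)) : Matrix (Fin 2) (Fin 2) ℤ) = 1 := by
    rw [← Matrix.SpecialLinearGroup.coe_mul, ← Subgroup.coe_mul, inv_mul_cancel]
    rfl
  have h4 := congrArg (fun X => ((((epsG N ℓ i)⁻¹ : ↥(Gamma0 N)) : SL(2, ℤ)) :
    Matrix (Fin 2) (Fin 2) ℤ) * X) h2
  simp only [← mul_assoc, h3, one_mul] at h4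
  rw [jConjGamma0_coe, jConjSL_coe, h4]
  simp only [Subgroup.coe_mul, Matrix.SpecialLinearGroup.coe_mul, jConjGamma0_coe, jConjSL_coe]

/-- **`T_ℓ` commutes with the involution.** -/
theorem heckeAdd_charInvolution (N : ℕ) {ℓ : ℕ} (hℓ : ℓ.Prime) (hN : ¬ ℓ ∣ N)
    (R : Type*) [Semiring R] (A : Type*) [AddCommGroup A] [Module R A]
    (χ : Additive ↥(Gamma0 N) →+ A) :
    (hsys N hℓ hN).heckeAdd (charInvolution N R A χ) =
      charInvolution N R A ((hsys N hℓ hN).heckeAdd χ) := by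
  haveI : NeZero ℓ := ⟨hℓ.ne_zero⟩
  refine AddMonoidHom.ext fun γ => ?_
  exact (heckeAdd_comp_of_star (hsys N hℓ hN) (jConjGamma0 N) (starI ℓ) (epsG N ℓ)
    (fun i j γ γ' h => hsys_star N hℓ hN i j γ γ' h) χ γ.toMul).symm

end FAT
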