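/-
PROJECT T, [T-HECKE]: the faithful action of the Hecke algebra on `Λ = H¹_par(Γ₀(N), ℤ)`.
-/
import Fermat.Agent.Tate.HeckeInv
import Fermat.Agent.Tate.T3b
import Fermat.Agent.S21

set_option autoImplicit false

open CongruenceSubgroup ModularCurve ModularCurve.Period FAG
open scoped MatrixGroups

namespace FAT

/-! ### abstract lifting -/

theorem exists_ringHom_lift {A B C : Type*} [Ring A] [Ring B] [Ring C] (a : A →+* C) (b : B →+* C)
    (hb : Function.Injective b) (h : ∀ x, a x ∈ b.range) :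
    ∃ θ : A →+* B, ∀ x, b (θ x) = a x := by
  let e : B ≃+* b.range := RingEquiv.ofBijective b.rangeRestrict
    ⟨fun x y hxy => hb (congrArg Subtype.val hxy), b.rangeRestrict_surjective⟩
  refine ⟨(e.symm : b.range →+* B).comp (a.codRestrict b.range h), fun x => ?_⟩
  have h1 : e ((e.symm : b.range →+* B) (a.codRestrict b.range h x)) = a.codRestrict b.range h x :=
    e.apply_symm_apply _
  exact congrArg Subtype.val h1

section
variable {V : Type*} [AddCommGroup V] [Module ℂ V] {Λ : Type*} [AddCommGroup Λ] {r : ℕ}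

/-- `A ↦ Ψ (A × A) Ψ⁻¹`. -/
noncomputable def aHom (Ψ : (V × V) ≃ₗ[ℂ] (Fin r → ℂ)) :
    Module.End ℂ V →+* Module.End ℂ (Fin r → ℂ) :=
  (Ψ.conjRingEquiv : Module.End ℂ (V × V) →+* Module.End ℂ (Fin r → ℂ)).comp
    ((LinearMap.prodMapRingHom ℂ V V).comp (RingHom.prod (RingHom.id _) (RingHom.id _)))

lemma aHom_apply (Ψ : (V × V) ≃ₗ[ℂ] (Fin r → ℂ)) (A : Module.End ℂ V) (p : V × V) :
    aHom Ψ A (Ψ p) = Ψ (A p.1, A p.2) := by
  simp [aHom]

lemma aHom_injective (Ψ : (V × V) ≃ₗ[ℂ] (Fin r → ℂ)) : Function.Injective (aHom Ψ) := by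
  intro A A' h
  ext v
  have h1 := congrArg (fun f : Module.End ℂ (Fin r → ℂ) => f (Ψ (v, 0))) h
  simp only [aHom_apply] at h1
  exact congrArg Prod.fst (Ψ.injective h1)

/-- `B ↦` its matrix, over `ℂ`. -/
noncomputable def bHom (b : Module.Basis (Fin r) ℤ Λ) :
    Module.End ℤ Λ →+* Module.End ℂ (Fin r → ℂ) :=
  ((Matrix.toLinAlgEquiv' : Matrix (Fin r) (Fin r) ℂ ≃ₐ[ℂ] _) :
      Matrix (Fin r) (Fin r) ℂ →+* Module.End ℂ (Fin r → ℂ)).comp
    ((Int.castRingHom ℂ).mapMatrix.comp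
      ((LinearMap.toMatrixAlgEquiv b : Module.End ℤ Λ ≃ₐ[ℤ] Matrix (Fin r) (Fin r) ℤ) :
        Module.End ℤ Λ →+* Matrix (Fin r) (Fin r) ℤ))

lemma bHom_apply (b : Module.Basis (Fin r) ℤ Λ) (B : Module.End ℤ Λ) (v : Fin r → ℂ) (i : Fin r) :
    bHom b B v i = ∑ j, ((b.repr (B (b j)) i : ℤ) : ℂ) * v j := by
  simp [bHom, Matrix.mulVec, dotProduct, LinearMap.toMatrixAlgEquiv_apply]

lemma bHom_injective (b : Module.Basis (Fin r) ℤ Λ) : Function.Injective (bHom b) := by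
  intro B B' h
  have h1 : (Int.castRingHom ℂ).mapMatrix (LinearMap.toMatrixAlgEquiv b B) =
      (Int.castRingHom ℂ).mapMatrix (LinearMap.toMatrixAlgEquiv b B') :=
    (Matrix.toLinAlgEquiv' : Matrix (Fin r) (Fin r) ℂ ≃ₐ[ℂ] _).injective h
  exact (LinearMap.toMatrixAlgEquiv b).injective
    (Matrix.map_injective (f := Int.castRingHom ℂ) Int.cast_injective h1)

theorem exists_theta_abstract (b : Module.Basis (Fin r) ℤ Λ) (Ψ : (V × V) ≃ₗ[ℂ] (Fin r → ℂ))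
    (gens : Set (Module.End ℂ V))
    (h : ∀ A ∈ gens, ∃ B : Module.End ℤ Λ, ∀ p i,
      Ψ (A p.1, A p.2) i = ∑ j, ((b.repr (B (b j)) i : ℤ) : ℂ) * Ψ p j) :
    ∃ θ : Algebra.adjoin ℤ gens →+* Module.End ℤ Λ, Function.Injective θ ∧
      ∀ (t : Algebra.adjoin ℤ gens) (B : Module.End ℤ Λ), (∀ p i,
        Ψ ((t : Module.End ℂ V) p.1, (t : Module.End ℂ V) p.2) i =
          ∑ j, ((b.repr (B (b j)) i : ℤ) : ℂ) * Ψ p j) → θ t = B := by
  have key : ∀ (A : Module.End ℂ V) (B : Module.End ℤ Λ), (∀ p i,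
      Ψ (A p.1, A p.2) i = ∑ j, ((b.repr (B (b j)) i : ℤ) : ℂ) * Ψ p j) → aHom Ψ A = bHom b B := by
    intro A B hAB
    refine LinearMap.ext fun v => ?_
    obtain ⟨p, rfl⟩ := Ψ.surjective v
    funext i
    rw [aHom_apply, bHom_apply, hAB]
  have hr : ∀ t : Algebra.adjoin ℤ gens,
      ((aHom Ψ).comp (Algebra.adjoin ℤ gens).val.toRingHom) t ∈ (bHom b).range := by
    rintro ⟨t, ht⟩
    show aHom Ψ t ∈ (bHom b).range
    induction ht using Algebra.adjoin_induction with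
    | mem A hA =>
      obtain ⟨B, hB⟩ := h A hA
      exact ⟨B, (key A B hB).symm⟩
    | algebraMap n => exact ⟨(n : Module.End ℤ Λ), by simp⟩
    | add x y _ _ hx hy => rw [map_add]; exact add_mem hx hy
    | mul x y _ _ hx hy => rw [map_mul]; exact mul_mem hx hy
  obtain ⟨θ, hθ⟩ := exists_ringHom_lift _ (bHom b) (bHom_injective b) hr
  refine ⟨θ, fun t t' htt => ?_, fun t B hB => ?_⟩
  · have h1 := hθ t
    rw [htt, hθ t'] at h1
    exact Subtype.ext (aHom_injective Ψ h1).symm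
  · apply bHom_injective b
    rw [hθ]
    exact key _ _ hB

end

/-! ### equivariance of the period maps -/

variable (N : ℕ) [NeZero N]

theorem periodMap_heckeTLin_eq {ℓ : ℕ} (hℓ : ℓ.Prime) (hℓN : ¬ ℓ ∣ N)
    (f : CuspForm (Gamma0 N) 2) :
    periodMap N (CuspForm.heckeTLin 2 hℓ hℓN f) = (hsys N hℓ hℓN).heckeAdd (periodMap N f) := by
  refine AddMonoidHom.ext fun γ => ?_
  obtain ⟨γ, rfl⟩ := Additive.ofMul.surjective γ
  rw [HSys.heckeAdd_apply]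
  exact periodMap_heckeTLin hℓ hℓN f (dR ℓ) (fun F τ => by
    rw [Fintype.sum_option, add_comm, Finset.sum_range]
    rfl) γ ((hsys N hℓ hℓN).perm γ) ((hsys N hℓ hℓN).kap γ) (fun i => (hsys N hℓ hℓN).spec γ i)

theorem periodHomPair_heckeTLin {ℓ : ℕ} (hℓ : ℓ.Prime) (hℓN : ¬ ℓ ∣ N)
    (p : CuspForm (Gamma0 N) 2 × CuspForm (Gamma0 N) 2) :
    periodHomPair N (CuspForm.heckeTLin 2 hℓ hℓN p.1, CuspForm.heckeTLin 2 hℓ hℓN p.2) =
      (hsys N hℓ hℓN).heckeAdd (periodHomPair N p) := by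
  rw [FAES.periodHomPair_apply, FAES.periodHomPair_apply]
  simp only [periodMap_heckeTLin_eq, ← heckeAdd_charInvolution]
  have hsub : ∀ χ χ' : Additive ↥(Gamma0 N) →+ ℂ, (hsys N hℓ hℓN).heckeAdd (χ - χ') =
      (hsys N hℓ hℓN).heckeAdd χ - (hsys N hℓ hℓN).heckeAdd χ' := fun χ χ' =>
    ((hsys N hℓ hℓN).heckeLin ℂ ℂ).map_sub χ χ'
  rw [HSys.heckeAdd_add, HSys.heckeAdd_add, hsub]

/-! ### the dual basis and the comparison isomorphism -/

theorem exists_dual : ∃ (r : ℕ) (γ : Fin r → ↥(Gamma0 N)) (b : Module.Basis (Fin r) ℤ (LamZ N)),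
    (∀ (χ : LamZ N) i, b.repr χ i = (χ : Additive ↥(Gamma0 N) →+ ℤ) (Additive.ofMul (γ i))) ∧
    (∀ ψ : Additive ↥(Gamma0 N) →+ ℂ, ψ ∈ parabolicHoms ℂ (Gamma0 N) ℂ →
      ∀ x, ψ x = ∑ i, (((b i : LamZ N) : Additive ↥(Gamma0 N) →+ ℤ) x : ℂ) *
        ψ (Additive.ofMul (γ i))) := by
  have := FAH3.fg_Gamma0 N
  exact exists_basis_dual
    {γ : Gamma0 N | ((γ : SL(2, ℤ)) : Matrix (Fin 2) (Fin 2) ℤ).trace ^ 2 = 4}
    (parabolicHoms ℤ (Gamma0 N) ℤ) (fun χ => Iff.rfl)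

/-- evaluation at finitely many group elements. -/
def evalLin {r : ℕ} (γ : Fin r → ↥(Gamma0 N)) :
    (Additive ↥(Gamma0 N) →+ ℂ) →ₗ[ℂ] (Fin r → ℂ) where
  toFun ψ i := ψ (Additive.ofMul (γ i))
  map_add' _ _ := rfl
  map_smul' _ _ := rfl

theorem exists_Psi : ∃ (r : ℕ) (γ : Fin r → ↥(Gamma0 N)) (b : Module.Basis (Fin r) ℤ (LamZ N))
    (Ψ : (CuspForm (Gamma0 N) 2 × CuspForm (Gamma0 N) 2) ≃ₗ[ℂ] (Fin r → ℂ)),
    (∀ (χ : LamZ N) i, b.repr χ i = (χ : Additive ↥(Gamma0 N) →+ ℤ) (Additive.ofMul (γ i))) ∧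
    (∀ ψ : Additive ↥(Gamma0 N) →+ ℂ, ψ ∈ parabolicHoms ℂ (Gamma0 N) ℂ →
      ∀ x, ψ x = ∑ i, (((b i : LamZ N) : Additive ↥(Gamma0 N) →+ ℤ) x : ℂ) *
        ψ (Additive.ofMul (γ i))) ∧
    ∀ p i, Ψ p i = periodHomPair N p (Additive.ofMul (γ i)) := by
  obtain ⟨r, γ, b, h1, h2⟩ := exists_dual N
  obtain ⟨hinj, hrange⟩ := Fermat.Agent.S21.result N
  have hmem : ∀ p, periodHomPair N p ∈ parabolicHoms ℂ (Gamma0 N) ℂ := fun p => by
    rw [← hrange]; exact LinearMap.mem_range_self _ p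
  have hbij : Function.Bijective ((evalLin N γ) ∘ₗ periodHomPair N) := by
    constructor
    · rw [← LinearMap.ker_eq_bot, LinearMap.ker_eq_bot']
      intro p hp
      apply hinj
      rw [map_zero]
      refine AddMonoidHom.ext fun x => ?_
      rw [h2 _ (hmem p) x]
      refine Finset.sum_eq_zero fun i _ => ?_
      have : periodHomPair N p (Additive.ofMul (γ i)) = 0 := congrFun hp i
      rw [this, mul_zero]
    · intro v
      have hψ : (∑ j, v j • (Int.castAddHom ℂ).comp ((b j : LamZ N) : Additive ↥(Gamma0 N) →+ ℤ)) ∈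
          parabolicHoms ℂ (Gamma0 N) ℂ := by
        refine Submodule.sum_mem _ fun j _ => Submodule.smul_mem _ _ ?_
        intro x hx
        have := (b j).2 x hx
        simp [this]
      rw [← hrange] at hψ
      obtain ⟨p, hp⟩ := hψ
      refine ⟨p, ?_⟩
      funext i
      show periodHomPair N p (Additive.ofMul (γ i)) = v i
      rw [hp]
      simp only [AddMonoidHom.finsetSum_apply, AddMonoidHom.coe_smul, Pi.smul_apply,
        AddMonoidHom.coe_comp, Function.comp_apply, Int.coe_castAddHom, smul_eq_mul, ← h1,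
        Module.Basis.repr_self]
      rw [Finset.sum_eq_single i]
      · simp
      · intro j _ hj
        simp [Finsupp.single_apply, hj]
      · simp
  exact ⟨r, γ, b, LinearEquiv.ofBijective _ hbij, h1, h2, fun p i => rfl⟩

/-- **[T-HECKE]**. -/
theorem exists_theta (S : Set ℕ) (hNS : ∀ q : ℕ, q.Prime → q ∣ N → q ∈ S) :
    ∃ θ : CuspForm.heckeAlgebra N 2 S →+* Module.End ℤ (LamZ N), Function.Injective θ ∧
      ∀ (l : ℕ) (hl : l.Prime) (hlN : ¬ l ∣ N) (hlS : l ∉ S),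
        θ (CuspForm.heckeAlgebra.T hl hlN hlS) = heckePar N hl hlN ℤ ℤ := by
  obtain ⟨r, γ, b, Ψ, h1, h2, h3⟩ := exists_Psi N
  obtain ⟨hinj, hrange⟩ := Fermat.Agent.S21.result N
  have hmem : ∀ p, periodHomPair N p ∈ parabolicHoms ℂ (Gamma0 N) ℂ := fun p => by
    rw [← hrange]; exact LinearMap.mem_range_self _ p
  have key : ∀ (l : ℕ) (hl : l.Prime) (hlN : ¬ l ∣ N) p i,
      Ψ (CuspForm.heckeTLin 2 hl hlN p.1, CuspForm.heckeTLin 2 hl hlN p.2) i =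
        ∑ j, ((b.repr (heckePar N hl hlN ℤ ℤ (b j)) i : ℤ) : ℂ) * Ψ p j := by
    intro l hl hlN p i
    rw [h3, periodHomPair_heckeTLin, HSys.heckeAdd_apply]
    simp only [h1, h3, coe_heckePar, HSys.heckeAdd_apply, Int.cast_sum, Finset.sum_mul]
    rw [Finset.sum_comm]
    exact Finset.sum_congr rfl fun m _ => h2 _ (hmem p) _
  obtain ⟨θ, hθ1, hθ2⟩ := exists_theta_abstract b Ψ (CuspForm.heckeGenerators N 2 S) (by
    rintro A (⟨l, hl, hlN, -, rfl⟩ | ⟨q, hqN, hq, hqS, rfl⟩)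
    · exact ⟨heckePar N hl hlN ℤ ℤ, key l hl hlN⟩
    · exact absurd (hNS q hq hqN) hqS)
  exact ⟨θ, hθ1, fun l hl hlN hlS => hθ2 _ _ (key l hl hlN)⟩

/-- **(T3)**, unconditional. -/
theorem T3 (S : Set ℕ) (hNS : ∀ q : ℕ, q.Prime → q ∣ N → q ∈ S)
    {O : Type*} [CommRing O] [IsDomain O] [IsDiscreteValuationRing O]
    (χ : CuspForm.heckeAlgebra N 2 S →+* O) {r : ℕ} (b : Module.Basis (Fin r) ℤ (LamZ N)) :
    ∃ w : Fin r → O, (∃ j, IsUnit (w j)) ∧
      ∀ (l : ℕ) (hl : l.Prime) (hlN : ¬ l ∣ N) (hlS : l ∉ S) (i : Fin r),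
        ∑ j, ((b.repr (heckePar N hl hlN ℤ ℤ (b j)) i : ℤ) : O) * w j =
          χ (CuspForm.heckeAlgebra.T hl hlN hlS) * w i := by
  obtain ⟨θ, hθ, hθT⟩ := exists_theta N S hNS
  exact T3_of_theta N S θ hθ hθT χ b

end FAT
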