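import Fermat.Agent.Gal.Alg

/-! PROJECT T, [T-ALG0] + [T-LAT]: from a finite free module over a PID `O` with commuting actions
of a group `G` and of a commutative algebra, such that `g + d(g) g⁻¹` lies in the algebra, and a
character of the algebra, to a two-dimensional matrix representation over `O`. -/

set_option autoImplicit false

namespace FAT

open Polynomial Module FAG TensorProduct



section cc
variable {k : Type*} [Field k] {G : Type*} [Group G] {W : Type*} [AddCommGroup W] [Module k W]
  {ρ : G →* Module.End k W} {u : G →* k} {a : G → k}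

/-- a simple representation with `g + u(g) g⁻¹` scalar and an "odd involution" has dimension
at most two (any field of characteristic `≠ 2`). -/
theorem finrank_le_two_of_cc [FiniteDimensional k W] (h2 : (2 : k) ≠ 0)
    (h : ∀ g, ρ g + u g • ρ g⁻¹ = a g • 1)
    (hs : ∀ U : Submodule k W, (∀ g, ∀ x ∈ U, ρ g x ∈ U) → U = ⊥ ∨ U = ⊤)
    (cc : G) (hcc : cc * cc = 1) (hu : u cc = -1) : finrank k W ≤ 2 := by
  classical
  rcases subsingleton_or_nontrivial W with hW | hW
  · rw [finrank_zero_of_subsingleton]; omega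
  have hinv : cc⁻¹ = cc := inv_eq_of_mul_eq_one_left hcc
  obtain ⟨w0, hw0⟩ := exists_ne (0 : W)
  have ha : a cc = 0 := by
    have e := LinearMap.congr_fun (h cc) w0
    rw [hinv, hu] at e
    simp only [LinearMap.add_apply, LinearMap.smul_apply, Module.End.one_apply, neg_smul, one_smul,
      add_neg_cancel] at e
    exact (smul_eq_zero.1 e.symm).resolve_right hw0
  have hCC : ∀ w, ρ cc (ρ cc w) = w := by
    intro w
    rw [← Module.End.mul_apply, ← map_mul, hcc, map_one, Module.End.one_apply]
  obtain ⟨v, hv, l, hl, hlv⟩ : ∃ v : W, v ≠ 0 ∧ ∃ l : k, l * l = 1 ∧ ρ cc v = l • v := by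
    by_cases hc : w0 + ρ cc w0 = 0
    · refine ⟨w0, hw0, -1, by ring, ?_⟩
      rw [neg_smul, one_smul]
      exact eq_neg_of_add_eq_zero_right hc
    · refine ⟨_, hc, 1, by ring, ?_⟩
      rw [map_add, hCC, one_smul, add_comm]
  have hl0 : l ≠ 0 := by
    rintro rfl
    simp at hl
  have h1 : ∀ w, ρ cc w + l • w ∈ Submodule.span k {v} := by
    intro w
    have := alg_eigen h hs cc hv hlv w
    rw [ha, zero_sub, neg_smul, sub_neg_eq_add] at this
    exact this
  obtain ⟨v', h3⟩ : ∃ v' : W, ∀ w, ρ cc w - l • w ∈ Submodule.span k {v'} := by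
    by_cases hc : ∃ v' : W, v' ≠ 0 ∧ ρ cc v' = (-l) • v'
    · obtain ⟨v', hv', hlv'⟩ := hc
      refine ⟨v', fun w => ?_⟩
      have := alg_eigen h hs cc hv' hlv' w
      rw [ha, zero_sub, neg_neg] at this
      exact this
    · push Not at hc
      refine ⟨0, fun w => ?_⟩
      have : ρ cc w - l • w = 0 := by
        by_contra hne
        apply hc _ hne
        rw [map_sub, hCC, map_smul, smul_sub, smul_smul, neg_mul, hl]
        module
      rw [this]
      exact zero_mem _
  have htop : (⊤ : Submodule k W) ≤ Submodule.span k (({v, v'} : Finset W) : Set W) := by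
    rintro w -
    have e : w = (2 * l)⁻¹ • ((ρ cc w + l • w) - (ρ cc w - l • w)) := by
      have : (ρ cc w + l • w) - (ρ cc w - l • w) = (2 * l) • w := by module
      rw [this, smul_smul, inv_mul_cancel₀ (mul_ne_zero h2 hl0), one_smul]
    rw [e]
    refine Submodule.smul_mem _ _ (Submodule.sub_mem _ ?_ ?_)
    · exact Submodule.span_mono (by simp) (h1 w)
    · exact Submodule.span_mono (by simp) (h3 w)
  have h4 := finrank_span_finset_le_card (R := k) ({v, v'} : Finset W)
  have h5 : finrank k W ≤ finrank k (Submodule.span k (({v, v'} : Finset W) : Set W)) := by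
    rw [top_le_iff.1 htop, finrank_top]
  have h6 : ({v, v'} : Finset W).card ≤ 2 := Finset.card_le_two
  exact h5.trans (h4.trans h6)

end cc




section eig
variable {K R V : Type*} [Field K] [CommRing R] [Algebra K R] [AddCommGroup V] [Module K V]
  [FiniteDimensional K V]

/-- the transposed action -/
def dualHom (Θ : R →ₐ[K] Module.End K V) : R →+* Module.End K (Module.Dual K V) where
  toFun r := (Θ r).dualMap
  map_one' := by
    rw [map_one]
    exact LinearMap.dualMap_id
  map_mul' r s := by
    rw [mul_comm r s, map_mul]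
    exact LinearMap.dualMap_comp_dualMap _ _ |>.symm
  map_zero' := by
    rw [map_zero]
    ext φ v
    simp
  map_add' r s := by
    rw [map_add]
    ext φ v
    simp

/-- a character of a commutative algebra acting faithfully on a finite-dimensional space occurs
in it. -/
theorem exists_eigenvector (Θ : R →ₐ[K] Module.End K V) (χ : R →ₐ[K] K)
    (h : ∀ r, Θ r = 0 → χ r = 0) : ∃ v : V, v ≠ 0 ∧ ∀ r, Θ r v = χ r • v := by
  by_contra hne
  push Not at hne
  letI : Module R (Module.Dual K V) := Module.compHom _ (dualHom Θ)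
  have hsmul : ∀ (r : R) (φ : Module.Dual K V) (v : V), (r • φ) v = φ (Θ r v) := fun _ _ _ => rfl
  haveI : IsScalarTower K R (Module.Dual K V) := ⟨fun c r φ => by
    ext v
    rw [hsmul, map_smul, LinearMap.smul_apply, map_smul, LinearMap.smul_apply, hsmul]⟩
  haveI : Module.Finite R (Module.Dual K V) := Module.Finite.of_restrictScalars_finite K R _
  set I : Ideal R := RingHom.ker (χ : R →+* K) with hI
  have hle : (⊤ : Submodule R (Module.Dual K V)) ≤ I • ⊤ := by
    by_contra hlt
    have hlt' : ((I • ⊤ : Submodule R (Module.Dual K V)).restrictScalars K) < ⊤ := by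
      rw [lt_top_iff_ne_top]
      intro h0
      apply hlt
      intro φ _
      have : φ ∈ ((I • ⊤ : Submodule R (Module.Dual K V)).restrictScalars K) := by
        rw [h0]; trivial
      exact this
    obtain ⟨f, hf0, hf⟩ := Submodule.exists_le_ker_of_lt_top _ hlt'
    set v := (Module.evalEquiv K V).symm f with hv
    have hfv : ∀ φ : Module.Dual K V, f φ = φ v := by
      intro φ
      have : f = Module.evalEquiv K V v := by rw [hv, LinearEquiv.apply_symm_apply]
      rw [this]
      rfl
    have hv0 : v ≠ 0 := by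
      intro h0
      apply hf0
      ext φ
      rw [hfv, h0, map_zero, LinearMap.zero_apply]
    obtain ⟨r, hr⟩ := hne v hv0
    apply hr
    have hy : r - algebraMap K R (χ r) ∈ I := by
      rw [hI, RingHom.mem_ker]
      simp
    have h1 : ∀ φ : Module.Dual K V, φ (Θ (r - algebraMap K R (χ r)) v) = 0 := by
      intro φ
      have h2 : (r - algebraMap K R (χ r)) • φ ∈ (I • ⊤ : Submodule R (Module.Dual K V)) :=
        Submodule.smul_mem_smul hy trivial
      have h3 := hf h2
      rw [LinearMap.mem_ker, hfv, hsmul] at h3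
      exact h3
    have h4 := (Module.forall_dual_apply_eq_zero_iff K _).1 h1
    rw [map_sub, AlgHom.commutes, LinearMap.sub_apply, Module.algebraMap_end_apply, sub_eq_zero] at h4
    exact h4
  obtain ⟨r, hr1, hr2⟩ := Submodule.exists_sub_one_mem_and_smul_eq_zero_of_fg_of_le_smul I
    (⊤ : Submodule R (Module.Dual K V)) Module.Finite.fg_top hle
  have h0 : Θ r = 0 := by
    ext v
    apply (Module.forall_dual_apply_eq_zero_iff K _).1
    intro φ
    rw [← hsmul, hr2 φ trivial, LinearMap.zero_apply]
  have h1 := h r h0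
  rw [hI, RingHom.mem_ker, map_sub, map_one] at hr1
  have : (χ : R →+* K) r = 0 := h1
  rw [this] at hr1
  simp at hr1

end eig




section latt
variable {O K : Type*} [CommRing O] [IsDomain O] [IsPrincipalIdealRing O] [Field K] [Algebra O K]
  [IsFractionRing O K]
  {X W : Type*} [AddCommGroup X] [Module O X] [Module.Free O X] [Module.Finite O X]
  [AddCommGroup W] [Module K W] [Module O W] [IsScalarTower O K W]
  (j : X →ₗ[O] W) (U : Submodule K W)

/-- the lattice cut out by a subspace -/
def latt : Submodule O X := (U.restrictScalars O).comap j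

omit [IsDomain O] [IsPrincipalIdealRing O] [IsFractionRing O K] [Module.Free O X]
  [Module.Finite O X] in
lemma mem_latt {x : X} : x ∈ latt j U ↔ j x ∈ U := Iff.rfl

omit [IsPrincipalIdealRing O] [Module.Free O X] [Module.Finite O X] in
lemma latt_saturated {c : O} (hc : c ≠ 0) {x : X} (h : c • x ∈ latt j U) : x ∈ latt j U := by
  rw [mem_latt, map_smul] at h
  rw [mem_latt]
  have hc' : algebraMap O K c ≠ 0 := by
    rwa [Ne, IsFractionRing.to_map_eq_zero_iff]
  have : j x = (algebraMap O K c)⁻¹ • (c • j x) := by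
    rw [← algebraMap_smul K c (j x), smul_smul, inv_mul_cancel₀ hc', one_smul]
  rw [this]
  exact U.smul_mem _ h

theorem exists_basis_latt (hj : Function.Injective j)
    (hsp : ∀ w : W, ∃ c : O, c ≠ 0 ∧ ∃ x, c • w = j x) :
    ∃ (r : ℕ) (bV : Basis (Fin r) O (latt j U)) (bU : Basis (Fin r) K U),
      ∀ i, (bU i : W) = j (bV i) := by
  let bV := Module.finBasis O (latt j U)
  let e : Fin (finrank O (latt j U)) → U := fun i => ⟨j (bV i), (bV i).2⟩
  have hli : LinearIndependent K e := by
    apply LinearIndependent.of_comp U.subtype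
    have h1 : LinearIndependent O (fun i => j (bV i : X)) :=
      bV.linearIndependent.map' (j ∘ₗ (latt j U).subtype)
        (LinearMap.ker_eq_bot.2 (hj.comp (Submodule.subtype_injective _)))
    exact (LinearIndependent.iff_fractionRing O K).1 h1
  have hspan : ⊤ ≤ Submodule.span K (Set.range e) := by
    rintro u -
    obtain ⟨c, hc, x, hx⟩ := hsp (u : W)
    have hxV : x ∈ latt j U := by
      rw [mem_latt, ← hx, ← algebraMap_smul K c (u : W)]
      exact U.smul_mem _ u.2
    have hc' : algebraMap O K c ≠ 0 := by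
      rwa [Ne, IsFractionRing.to_map_eq_zero_iff]
    have h1 : (⟨j x, hxV⟩ : U) = ∑ i, algebraMap O K (bV.repr ⟨x, hxV⟩ i) • e i := by
      apply Subtype.ext
      have h2 := congrArg (fun y : latt j U => j (y : X)) (bV.sum_repr ⟨x, hxV⟩)
      simp only [Submodule.coe_sum, Submodule.coe_smul, map_sum, map_smul] at h2
      simp only [Submodule.coe_sum, Submodule.coe_smul, e, algebraMap_smul]
      exact h2.symm
    have h3 : u = (algebraMap O K c)⁻¹ • (⟨j x, hxV⟩ : U) := by
      apply Subtype.ext
      show (u : W) = (algebraMap O K c)⁻¹ • j x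
      rw [← hx, ← algebraMap_smul K c (u : W), smul_smul, inv_mul_cancel₀ hc', one_smul]
    rw [h3, h1]
    refine Submodule.smul_mem _ _ (Submodule.sum_mem _ fun i _ => Submodule.smul_mem _ _ ?_)
    exact Submodule.subset_span ⟨i, rfl⟩
  refine ⟨_, bV, Basis.mk hli hspan, fun i => ?_⟩
  rw [Basis.mk_apply]

omit [IsDomain O] [IsPrincipalIdealRing O] [IsFractionRing O K] [Module.Free O X]
  [Module.Finite O X] in
lemma repr_latt {r : ℕ} (bV : Basis (Fin r) O (latt j U)) (bU : Basis (Fin r) K U)
    (hb : ∀ i, (bU i : W) = j (bV i)) (v : latt j U) (i : Fin r) :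
    bU.repr ⟨j v, v.2⟩ i = algebraMap O K (bV.repr v i) := by
  have h1 : (⟨j v, v.2⟩ : U) = ∑ i, algebraMap O K (bV.repr v i) • bU i := by
    apply Subtype.ext
    have h2 := congrArg (fun y : latt j U => j (y : X)) (bV.sum_repr v)
    simp only [Submodule.coe_sum, Submodule.coe_smul, map_sum, map_smul] at h2
    rw [Submodule.coe_sum]
    simp only [Submodule.coe_smul, hb]
    simp only [algebraMap_smul]
    exact h2.symm
  rw [h1, bU.repr_sum_self]

omit [IsDomain O] [IsPrincipalIdealRing O] [IsFractionRing O K] [Module.Free O X]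
  [Module.Finite O X] in
theorem toMatrix_latt {r : ℕ} (bV : Basis (Fin r) O (latt j U)) (bU : Basis (Fin r) K U)
    (hb : ∀ i, (bU i : W) = j (bV i)) (f : Module.End O X) (F : Module.End K W)
    (hfF : ∀ x, F (j x) = j (f x)) (hFU : ∀ w ∈ U, F w ∈ U)
    (hfV : ∀ x ∈ latt j U, f x ∈ latt j U) :
    LinearMap.toMatrix bU bU (F.restrict hFU) =
      (LinearMap.toMatrix bV bV (f.restrict hfV)).map (algebraMap O K) := by
  ext i l
  rw [LinearMap.toMatrix_apply, Matrix.map_apply, LinearMap.toMatrix_apply,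
    ← repr_latt j U bV bU hb]
  congr 2
  apply Subtype.ext
  show F (bU l : W) = j (f (bV l : X))
  rw [hb, hfF]

end latt




section bc
variable {O : Type*} [CommRing O] [IsDomain O]
  {X : Type*} [AddCommGroup X] [Module O X] [Module.Free O X] [Module.Finite O X]
  {TO : Type*} [CommRing TO] [Algebra O TO]

theorem exists_eigen_bc (K : Type*) [Field K] [Algebra O K] [IsFractionRing O K]
    (θO : TO →ₐ[O] Module.End O X) (χO : TO →ₐ[O] O) (hfaith : ∀ y, θO y = 0 → χO y = 0) :
    ∃ w : K ⊗[O] X, w ≠ 0 ∧ ∀ y, (θO y).baseChange K w = algebraMap O K (χO y) • w := by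
  let Θ : K ⊗[O] TO →ₐ[K] Module.End K (K ⊗[O] X) :=
    Algebra.TensorProduct.lift (Algebra.ofId K _) ((Module.End.baseChangeHom O K X).comp θO)
      (fun x y => Algebra.commutes _ _)
  let χR : K ⊗[O] TO →ₐ[K] K :=
    Algebra.TensorProduct.lift (AlgHom.id K K) ((Algebra.ofId O K).comp χO)
      (fun _ _ => Commute.all _ _)
  have hΘ : ∀ y : TO, Θ (1 ⊗ₜ y) = (θO y).baseChange K := by
    intro y
    simp [Θ]
    rfl
  have hχ : ∀ y : TO, χR (1 ⊗ₜ y) = algebraMap O K (χO y) := by
    intro y
    simp [χR, Algebra.ofId_apply]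
  have h : ∀ x, Θ x = 0 → χR x = 0 := by
    intro x hx
    obtain ⟨⟨y, c⟩, hc⟩ := IsLocalizedModule.surj (nonZeroDivisors O) (TensorProduct.mk O K TO 1) x
    have hc' : algebraMap O K (c : O) • x = 1 ⊗ₜ y := by
      rw [algebraMap_smul]; exact hc
    have h1 : (θO y).baseChange K = 0 := by
      rw [← hΘ, ← hc', map_smul, hx, smul_zero]
    have h2 : θO y = 0 := by
      apply LinearMap.baseChangeHom_injective O X K (N := X)
      rw [map_zero]
      exact h1
    have h3 := hfaith y h2
    have h4 : algebraMap O K (c : O) • χR x = 0 := by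
      rw [← map_smul, hc', hχ, h3, map_zero]
    rw [smul_eq_mul, mul_eq_zero] at h4
    rcases h4 with h4 | h4
    · exact absurd ((IsFractionRing.to_map_eq_zero_iff).1 h4) (nonZeroDivisors.ne_zero c.2)
    · exact h4
  obtain ⟨w, hw, hw'⟩ := exists_eigenvector Θ χR h
  refine ⟨w, hw, fun y => ?_⟩
  have := hw' (1 ⊗ₜ y)
  rw [hΘ, hχ] at this
  exact this

end bc




section simple
variable {k : Type*} [Field k] {G : Type*} [Group G] {W : Type*} [AddCommGroup W] [Module k W]

/-- a nonzero stable subspace contains a simple one -/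
theorem exists_simple_sub [FiniteDimensional k W] (ρ : G →* Module.End k W) (E : Submodule k W)
    (hE0 : E ≠ ⊥) (hE : ∀ g, ∀ x ∈ E, ρ g x ∈ E) :
    ∃ (U : Submodule k W) (hU : ∀ g, ∀ x ∈ U, ρ g x ∈ U), U ≤ E ∧ U ≠ ⊥ ∧
      ∀ U' : Submodule k U, (∀ g, ∀ x ∈ U', algRestrict ρ U hU g x ∈ U') → U' = ⊥ ∨ U' = ⊤ := by
  obtain ⟨U, ⟨hU0, hUE, hU⟩, hmin⟩ := WellFounded.has_min (wellFounded_lt (α := Submodule k W))
    {U : Submodule k W | U ≠ ⊥ ∧ U ≤ E ∧ ∀ g, ∀ x ∈ U, ρ g x ∈ U} ⟨E, hE0, le_rfl, hE⟩
  refine ⟨U, hU, hUE, hU0, ?_⟩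
  intro U' hU'
  by_cases hb : U' = ⊥
  · exact Or.inl hb
  right
  have h1 : U'.map U.subtype ≠ ⊥ := by
    intro h0
    apply hb
    rw [eq_bot_iff]
    intro x hx
    have h6 : (x : W) ∈ U'.map U.subtype := ⟨x, hx, rfl⟩
    rw [h0, Submodule.mem_bot] at h6
    rw [Submodule.mem_bot]
    exact Subtype.ext h6
  have h2 : ∀ g, ∀ x ∈ U'.map U.subtype, ρ g x ∈ U'.map U.subtype := by
    rintro g _ ⟨x, hx, rfl⟩
    exact ⟨algRestrict ρ U hU g x, hU' g x hx, rfl⟩
  have h4 : U'.map U.subtype ≤ U := Submodule.map_subtype_le U U'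
  have h3 := hmin _ ⟨h1, h4.trans hUE, h2⟩
  have h5 : U'.map U.subtype = U := by
    by_contra hne
    exact h3 (lt_of_le_of_ne h4 hne)
  rw [eq_top_iff]
  rintro x -
  have h6 : (x : W) ∈ U'.map U.subtype := by rw [h5]; exact x.2
  obtain ⟨y, hy, hyx⟩ := h6
  have : y = x := Subtype.ext hyx
  rwa [← this]

end simple

section diag
variable {G : Type*} [Group G] {O : Type*} [CommRing O]

theorem exists_matrix_of_char (ψ d : G →* O) :
    ∃ M : G →* Matrix (Fin 2) (Fin 2) O, ∀ g, M g = Matrix.diagonal ![ψ g, d g * ψ g⁻¹] := by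
  let ψ' : G →* O :=
    { toFun := fun g => d g * ψ g⁻¹
      map_one' := by simp
      map_mul' := fun g g' => by
        rw [map_mul, mul_inv_rev, map_mul]; ring }
  let D : G →* (Fin 2 → O) :=
    { toFun := fun g => ![ψ g, ψ' g]
      map_one' := by
        ext i; fin_cases i <;> simp
      map_mul' := fun g g' => by
        ext i; fin_cases i <;> simp }
  exact ⟨(Matrix.diagonalRingHom (Fin 2) O).toMonoidHom.comp D, fun g => rfl⟩

theorem charpoly_diag (x y : O) :
    (Matrix.diagonal ![x, y]).charpoly = X ^ 2 - C (x + y) * X + C (x * y) := by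
  rw [Matrix.charpoly_diagonal, Fin.prod_univ_two]
  simp only [Matrix.cons_val_zero, Matrix.cons_val_one, map_add, map_mul]
  ring

end diag

end FAT
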