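/-
PROJECT T, S31 (D)+(E): a residually absolutely irreducible representation over a local ring spans
the full matrix algebra, hence it is determined by its trace function.
-/
import Fermat.Agent.Deform.FrameExists

set_option autoImplicit false

open IsLocalRing Module
open scoped TensorProduct

namespace FAT

/-- a matrix with entries in `I` lies in `I • ⊤` -/
theorem matrix_mem_smul_top {T : Type*} [CommRing T] (I : Ideal T) (M : Matrix (Fin 2) (Fin 2) T)
    (h : ∀ i j, M i j ∈ I) : M ∈ I • (⊤ : Submodule T (Matrix (Fin 2) (Fin 2) T)) := by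
  rw [Matrix.matrix_eq_sum_single M]
  refine Submodule.sum_mem _ fun i _ => Submodule.sum_mem _ fun j _ => ?_
  have e : Matrix.single i j (M i j) = M i j • Matrix.single i j (1 : T) := by
    rw [Matrix.smul_single, smul_eq_mul, mul_one]
  rw [e]
  exact Submodule.smul_mem_smul (h i j) trivial

/-- Nakayama: a family of matrices over a local ring whose reductions span `M₂(k)` spans `M₂(T)` -/
theorem span_eq_top_of_residue {T : Type*} [CommRing T] [IsLocalRing T] {G : Type*}
    (R : G → Matrix (Fin 2) (Fin 2) T)
    (h : Submodule.span (ResidueField T) (Set.range fun g => (R g).map (residue T)) = ⊤) :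
    Submodule.span T (Set.range R) = ⊤ := by
  rw [eq_top_iff]
  refine Submodule.le_of_le_smul_of_le_jacobson_bot (I := maximalIdeal T) (Module.Finite.fg_top)
    (IsLocalRing.maximalIdeal_le_jacobson _) ?_
  intro M _
  have hM : M.map (residue T) ∈
      Submodule.span (ResidueField T) (Set.range fun g => (R g).map (residue T)) := by
    rw [h]; trivial
  rw [Finsupp.mem_span_range_iff_exists_finsupp] at hM
  obtain ⟨c, hc⟩ := hM
  obtain ⟨x, rfl⟩ := Finsupp.mapRange_surjective (residue T) (map_zero _) residue_surjective c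
  rw [Finsupp.sum_mapRange_index (by simp)] at hc
  have e : M = (x.sum fun g a => a • R g) + (M - x.sum fun g a => a • R g) := by abel
  rw [e]
  refine Submodule.add_mem_sup ?_ ?_
  · exact Submodule.sum_mem _ fun g _ => Submodule.smul_mem _ _ (Submodule.subset_span ⟨g, rfl⟩)
  · refine matrix_mem_smul_top _ _ fun i j => ?_
    rw [← residue_eq_zero_iff]
    have h1 : ((residue T).mapMatrix (M - x.sum fun g a => a • R g)) = 0 := by
      rw [map_sub, map_finsuppSum, sub_eq_zero]
      show M.map (residue T) = _
      rw [← hc]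
      refine Finsupp.sum_congr fun g _ => ?_
      ext i j
      simp
    exact congrFun (congrFun h1 i) j

/-- a matrix orthogonal to everything for the trace form vanishes -/
theorem matrix_eq_zero_of_trace {T : Type*} [CommRing T] (Y : Matrix (Fin 2) (Fin 2) T)
    (h : ∀ Z : Matrix (Fin 2) (Fin 2) T, (Y * Z).trace = 0) : Y = 0 := by
  ext i j
  have := h (Matrix.single j i 1)
  rw [Matrix.trace_mul_comm, Matrix.trace_single_mul] at this
  simpa using this

/-- **Carayol's lemma** (matrix form) -/
theorem matrix_eq_one_of_trace {T : Type*} [CommRing T] [IsLocalRing T] {G : Type*} [Group G]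
    (R : G →* Matrix (Fin 2) (Fin 2) T)
    (h : Submodule.span (ResidueField T) (Set.range fun g => (R g).map (residue T)) = ⊤)
    (τ : G) (hτ : ∀ g, (R (τ * g)).trace = (R g).trace) : R τ = 1 := by
  have hspan := span_eq_top_of_residue (fun g => R g) h
  rw [← sub_eq_zero]
  refine matrix_eq_zero_of_trace _ fun Z => ?_
  have hZ : Z ∈ Submodule.span T (Set.range fun g => R g) := by rw [hspan]; trivial
  induction hZ using Submodule.span_induction with
  | mem x hx =>
    obtain ⟨g, rfl⟩ := hx
    show ((R τ - 1) * R g).trace = 0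
    rw [sub_mul, one_mul, ← map_mul, Matrix.trace_sub, hτ, sub_self]
  | zero => simp
  | add x y _ _ hx hy => rw [mul_add, Matrix.trace_add, hx, hy, add_zero]
  | smul a x _ hx => rw [Matrix.mul_smul, Matrix.trace_smul, hx, smul_zero]

/-- **Carayol's lemma** for the frozen structures -/
theorem rho_eq_one_of_trace {T : Type} [CommRing T] [IsLocalRing T] (ρ : GaloisRepAdic T)
    (habs : ρ.residual.IsAbsolutelyIrreducible)
    (τ : AlgebraicClosure ℚ ≃ₐ[ℚ] AlgebraicClosure ℚ)
    (hτ : ∀ g, LinearMap.trace T ρ.V (ρ.ρ (τ * g)) = LinearMap.trace T ρ.V (ρ.ρ g)) :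
    ρ.ρ τ = 1 := by
  classical
  let k := ResidueField T
  let b : Basis (Fin 2) T ρ.V := finBasisOfFinrankEq T ρ.V ρ.finrank_eq
  let b' : Basis (Fin 2) k ρ.residual.V := Algebra.TensorProduct.basis k b
  have h1 := FADeform.burnside_two (ρ.residual.baseChange (AlgebraicClosure k)).finrank_eq
    (ρ.residual.baseChange (AlgebraicClosure k)).ρ habs
  have h2 : Submodule.span k (Set.range fun g => LinearMap.toMatrix b' b' (ρ.residual.ρ g)) = ⊤ :=
    FADeform.span_toMatrix_eq_top_of_baseChange (K := AlgebraicClosure k) b'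
      (fun g => ρ.residual.ρ g) h1
  let R : (AlgebraicClosure ℚ ≃ₐ[ℚ] AlgebraicClosure ℚ) →* Matrix (Fin 2) (Fin 2) T :=
    ((LinearMap.toMatrixAlgEquiv b : Module.End T ρ.V ≃ₐ[T] _) : Module.End T ρ.V →* _).comp ρ.ρ
  have hR : ∀ g, R g = LinearMap.toMatrix b b (ρ.ρ g) := fun g => rfl
  have h3 : R τ = 1 := by
    refine matrix_eq_one_of_trace R ?_ τ fun g => ?_
    · rw [← h2]
      congr 2
      funext g
      rw [hR]
      exact (LinearMap.toMatrix_baseChange (A := k) (f := ρ.ρ g) b b).symm
    · rw [hR, hR, ← LinearMap.trace_eq_matrix_trace, ← LinearMap.trace_eq_matrix_trace, hτ]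
  apply (LinearMap.toMatrix b b).injective
  rw [← hR, h3, LinearMap.toMatrix_one]

end FAT
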