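/-
PROJECT T, [T-ISO]: the isomorphism `Lam_m ≃ KK m N` (relative to [T-SURJ]) and its compatibilities.
-/
import Fermat.Agent.Gal.RealZ
import Fermat.Agent.Gal.SpecM2
import Fermat.Agent.Gal.K4Fun

set_option autoImplicit false
set_option linter.unusedSectionVars false

open AlgebraicCurve ModularCurve FA24 CongruenceSubgroup ModularCurve.Period FAG
open FA18.M1 (WS redFun)

namespace FAT

variable {N : ℕ} [NeZero N]

/-! ### the section of the specialisation -/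

/-- every function over `ℚ̄` is the specialisation of its base change -/
theorem sp_specSec {fb : FN N} (h : fb ≠ 0) : Sp N (specSec N fb) fb := by
  refine ⟨1, one_ne_zero, ?_, ?_, h⟩
  · rw [one_smul, coe_specSec]
    exact coeffMap_iota_mem_WS _
  · rw [one_smul, coe_specSec]
    exact redFun_coeffMap_iota _

/-- base change preserves the divisibility of divisors -/
theorem dvd_ord_specSec (m : ℤ) {fb : FN N} (h : ∀ Q : Place Kb (FN N), m ∣ Q.ord fb)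
    (P : Place ℂ (FAGP.FN ℂ N)) : m ∣ P.ord (specSec N fb) := by
  rcases sec_ord (k := Kb) (Fb := FAGP.FN Kb N) (s := specSec N) (specSec_algebraMap N) P with
    h0 | ⟨w, c, -, hw⟩
  · rw [h0]
    exact dvd_zero _
  · rw [hw]
    exact Dvd.dvd.mul_left (h w) c

/-! ### the relation between `Lam_m` and functions over `ℚ̄` -/

/-- **[T-SURJ]** as a hypothesis -/
def SurjHyp (m N : ℕ) [NeZero N] : Prop :=
  ∀ f : FAGP.FN ℂ N, f ≠ 0 → (∀ v : Place ℂ (FAGP.FN ℂ N), (m : ℤ) ∣ v.ord f) →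
    ∃ c : ↥(Gamma0 N) →* ℂˣ, (∀ γ, c γ ^ m = 1) ∧ IsParCh c ∧
      (∀ γ : ↥(Gamma0 N), γ ^ 12 = 1 → c γ = 1) ∧
      ∃ f0 s : FAGP.FN ℂ N, RealC m c f0 ∧ f = f0 * s ^ m

/-- the composite relation -/
def RelM (m N : ℕ) [NeZero N] [NeZero m] (χ : LamM m N) (fb : FN N) : Prop :=
  ∃ f : FAGP.FN ℂ N, RealZ m χ.1 f ∧ Sp N f fb

variable {m : ℕ} [NeZero m]

theorem RelM.ex (χ : LamM m N) : ∃ fb, RelM m N χ fb := by
  obtain ⟨f, hf⟩ := exists_realZ χ.2.1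
  obtain ⟨fb, hfb⟩ := specHypM.exists_sp hf.ne_zero
  exact ⟨fb, f, hf, hfb⟩

theorem sp_ne_zero {f : FAGP.FN ℂ N} {fb : FN N} (h : Sp N f fb) : fb ≠ 0 := by
  obtain ⟨c, -, -, -, h3⟩ := h
  exact h3

theorem RelM.ne_dvd {χ : LamM m N} {fb : FN N} (h : RelM m N χ fb) :
    fb ≠ 0 ∧ ∀ P : Place Kb (FN N), (m : ℤ) ∣ P.ord fb := by
  obtain ⟨f, hf, hfb⟩ := h
  exact ⟨sp_ne_zero hfb, specHypM.sp_dvd hfb m (hf.dvd_ord χ.2)⟩

/-- if `f = f' * s ^ m` then the specialisations agree modulo `m`-th powers -/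
theorem sp_congr {f f' s : FAGP.FN ℂ N} (hs : s ≠ 0) (hfs : f = f' * s ^ m) {fb fb' : FN N}
    (hfb : Sp N f fb) (hfb' : Sp N f' fb') : ∃ t : FN N, t ^ m = fb * fb'⁻¹ := by
  obtain ⟨tb, htb⟩ := specHypM.exists_sp (N := N) (pow_ne_zero m hs)
  obtain ⟨t, ht⟩ := specHypM.sp_pow (NeZero.ne m) htb
  have h1 : Sp N f (fb' * tb) := hfs ▸ hfb'.mul htb
  obtain ⟨a, ha, hab⟩ := h1.unique hfb
  obtain ⟨α, hα⟩ := IsAlgClosed.exists_pow_nat_eq a (NeZero.pos m)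
  have hfb'0 := sp_ne_zero hfb'
  refine ⟨algebraMap Kb (FN N) α * t, ?_⟩
  rw [hab, mul_pow, ← map_pow, hα, ht, Algebra.smul_def]
  field_simp

theorem RelM.uniq {χ : LamM m N} {fb fb' : FN N} (h : RelM m N χ fb) (h' : RelM m N χ fb') :
    ∃ s : FN N, s ^ m = fb * fb'⁻¹ := by
  obtain ⟨f, hf, hfb⟩ := h
  obtain ⟨f', hf', hfb'⟩ := h'
  obtain ⟨s, hs, hfs⟩ := hf.unique hf'
  exact sp_congr hs hfs hfb hfb'

theorem RelM.mul {χ χ' : LamM m N} {fb fb' : FN N} (h : RelM m N χ fb) (h' : RelM m N χ' fb') :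
    RelM m N (χ + χ') (fb * fb') := by
  obtain ⟨f, hf, hfb⟩ := h
  obtain ⟨f', hf', hfb'⟩ := h'
  exact ⟨f * f', hf.mul hf', hfb.mul hfb'⟩

theorem RelM.ker {χ : LamM m N} {fb : FN N} (h : RelM m N χ fb) (ht : ∃ t : FN N, t ^ m = fb) :
    χ = 0 := by
  obtain ⟨f, hf, hfb⟩ := h
  obtain ⟨t, rfl⟩ := ht
  obtain ⟨s, hs⟩ := specHypM.pow_of_sp (NeZero.ne m) hfb (hf.dvd_ord χ.2)
  exact Subtype.ext (hf.eq_zero_of_pow s hs)

theorem RelM.hecke {ℓ : ℕ} [NeZero ℓ] (hℓ : ℓ.Prime) (hN : ¬ ℓ ∣ N) {χ : LamM m N} {fb : FN N}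
    (h : RelM m N χ fb) : RelM m N (heckeLamM m N hℓ hN χ) (heckeM N ℓ fb) := by
  obtain ⟨f, hf, hfb⟩ := h
  exact ⟨_, hf.hecke hℓ hN χ.2.1, specHypM.sp_heckeM hℓ hN hfb⟩

/-- the relation between `Lam_m` and `KK m N` -/
def RelK (m N : ℕ) [NeZero N] [NeZero m] (χ : LamM m N) (x : KK m N) : Prop :=
  ∃ fb, ∃ h : RelM m N χ fb, x = KK.mk (UU.of fb h.ne_dvd.1 h.ne_dvd.2)

theorem RelK.unique {χ : LamM m N} {x y : KK m N} (hx : RelK m N χ x) (hy : RelK m N χ y) :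
    x = y := by
  obtain ⟨f, hf, rfl⟩ := hx
  obtain ⟨f', hf', rfl⟩ := hy
  rw [KK.mk_eq_mk_iff]
  exact hf.uniq hf'

theorem exists_PsiM (m N : ℕ) [NeZero N] [NeZero m] :
    ∃ Ψ : LamM m N →+ KK m N, ∀ χ, RelK m N χ (Ψ χ) :=
  exists_hom_of_rel (RelK m N)
    (fun χ => by
      obtain ⟨f, hf⟩ := RelM.ex χ
      exact ⟨_, f, hf, rfl⟩) (fun _ _ _ => RelK.unique)
    (by
      rintro χ χ' _ _ ⟨f, hf, rfl⟩ ⟨f', hf', rfl⟩
      refine ⟨f * f', hf.mul hf', ?_⟩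
      rw [← KK.mk_mul]
      exact congrArg KK.mk (UU.ext rfl))

/-- **the homomorphism `Lam_m → KK m N`** -/
noncomputable def PsiM (m N : ℕ) [NeZero N] [NeZero m] : LamM m N →+ KK m N :=
  (exists_PsiM m N).choose

theorem PsiM_spec (χ : LamM m N) : RelK m N χ (PsiM m N χ) := (exists_PsiM m N).choose_spec χ

theorem PsiM_eq {χ : LamM m N} {fb : FN N} (h : RelM m N χ fb) :
    PsiM m N χ = KK.mk (UU.of fb h.ne_dvd.1 h.ne_dvd.2) :=
  (PsiM_spec χ).unique ⟨fb, h, rfl⟩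

theorem PsiM_injective : Function.Injective (PsiM m N) := by
  rw [injective_iff_map_eq_zero]
  intro χ h
  obtain ⟨f, hf, h'⟩ := PsiM_spec χ
  exact hf.ker ((KK.mk_eq_zero_iff _).1 (h'.symm.trans h))

theorem PsiM_hecke {ℓ : ℕ} (hℓ : ℓ.Prime) (hN : ¬ ℓ ∣ N) (χ : LamM m N) :
    PsiM m N (heckeLamM m N hℓ hN χ) = KK.T m N ℓ (PsiM m N χ) := by
  have : NeZero ℓ := ⟨hℓ.ne_zero⟩
  obtain ⟨f, hf, h'⟩ := PsiM_spec χ
  rw [h', KK.T_mk, PsiM_eq (hf.hecke hℓ hN)]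
  exact congrArg KK.mk (UU.ext rfl)

theorem PsiM_surjective (H : SurjHyp m N) : Function.Surjective (PsiM m N) := by
  intro x
  obtain ⟨u, rfl⟩ := KK.mk_surjective x
  set fb : FN N := ((u : (FN N)ˣ) : FN N) with hfb
  have hfb0 : fb ≠ 0 := (u : (FN N)ˣ).ne_zero
  have h1 := sp_specSec hfb0
  obtain ⟨c, hc, hpar, hfin, f0, s, hf0, hfs⟩ := H (specSec N fb) h1.ne_zero
    (dvd_ord_specSec (m : ℤ) u.2)
  obtain ⟨χ, hχ, hR⟩ := exists_realZ_of_isTw hc hpar hfin hf0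
  obtain ⟨fb0, hfb0'⟩ := specHypM.exists_sp hR.ne_zero
  have hs : s ≠ 0 := by
    rintro rfl
    rw [zero_pow (NeZero.ne m), mul_zero] at hfs
    exact h1.ne_zero hfs
  refine ⟨⟨χ, hχ⟩, ?_⟩
  rw [PsiM_eq (χ := ⟨χ, hχ⟩) ⟨f0, hR, hfb0'⟩, eq_comm, KK.mk_eq_mk_iff]
  exact sp_congr hs hfs h1 hfb0'

/-- **[T-ISO]** -/
noncomputable def PsiEquiv (H : SurjHyp m N) : LamM m N ≃+ KK m N :=
  AddEquiv.ofBijective (PsiM m N) ⟨PsiM_injective, PsiM_surjective H⟩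

theorem PsiEquiv_apply (H : SurjHyp m N) (χ : LamM m N) : PsiEquiv H χ = PsiM m N χ := rfl

/-! ### transition maps -/

section tr

variable {m' : ℕ}

theorem UU_le (N : ℕ) {m m' : ℕ} (h : m ∣ m') : UU m' N ≤ UU m N :=
  fun _ hu P => (Int.natCast_dvd_natCast.2 h).trans (hu P)

/-- the transition map `KK m' N → KK m N`, `[u] ↦ [u]` (`= ` multiplication by `m'/m` on torsion
points) -/
noncomputable def trKK (N : ℕ) {m m' : ℕ} (h : m ∣ m') : KK m' N →+ KK m N :=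
  MonoidHom.toAdditive (QuotientGroup.map (PP m' N) (PP m N) (Subgroup.inclusion (UU_le N h)) (by
    rintro u ⟨s, hs⟩
    obtain ⟨d, rfl⟩ := h
    refine ⟨s ^ d, ?_⟩
    have e : (UU m N).subtype (Subgroup.inclusion (UU_le N (Dvd.intro d rfl)) u) =
      (UU (m * d) N).subtype u := rfl
    rw [e, ← hs, powMonoidHom_apply, powMonoidHom_apply, ← pow_mul, mul_comm]))

theorem trKK_mk {N m m' : ℕ} (h : m ∣ m') (u : UU m' N) :
    trKK N h (KK.mk u) = KK.mk (Subgroup.inclusion (UU_le N h) u) := rfl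

theorem trKK_act {N m m' : ℕ} (h : m ∣ m') (σ : GQ) (x : KK m' N) :
    trKK N h (KK.act m' N σ x) = KK.act m N σ (trKK N h x) := by
  obtain ⟨u, rfl⟩ := KK.mk_surjective x
  rw [KK.act_mk, trKK_mk, trKK_mk, KK.act_mk]
  exact congrArg KK.mk (UU.ext rfl)

theorem trKK_T {m m' : ℕ} (h : m ∣ m') (ℓ : ℕ) (x : KK m' N) :
    trKK N h (KK.T m' N ℓ x) = KK.T m N ℓ (trKK N h x) := by
  rcases eq_or_ne ℓ 0 with h0 | h0
  · rw [KK.T, KK.T, dif_pos h0, dif_pos h0, LinearMap.zero_apply, LinearMap.zero_apply, map_zero]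
  have : NeZero ℓ := ⟨h0⟩
  obtain ⟨u, rfl⟩ := KK.mk_surjective x
  rw [KK.T_mk, trKK_mk, trKK_mk, KK.T_mk]
  exact congrArg KK.mk (UU.ext rfl)

/-- reduction `Lam_m' → Lam_m` -/
noncomputable def redM (N : ℕ) {m m' : ℕ} (h : m ∣ m') : LamM m' N →+ LamM m N where
  toFun χ := ⟨(ZMod.castHom h (ZMod m)).toAddMonoidHom.comp χ.1, castHom_mem_LamM h χ.2⟩
  map_zero' := Subtype.ext (AddMonoidHom.comp_zero _)
  map_add' a b := Subtype.ext (AddMonoidHom.comp_add _ a.1 b.1)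

theorem coe_redM {N m m' : ℕ} (h : m ∣ m') (χ : LamM m' N) :
    (redM N h χ : Additive ↥(Gamma0 N) →+ ZMod m) =
      (ZMod.castHom h (ZMod m)).toAddMonoidHom.comp χ.1 := rfl

theorem redM_apply {N m m' : ℕ} (h : m ∣ m') (χ : LamM m' N) (γ : Additive ↥(Gamma0 N)) :
    (redM N h χ : Additive ↥(Gamma0 N) →+ ZMod m) γ = ZMod.castHom h (ZMod m) (χ.1 γ) := rfl

theorem RelM.red [NeZero m'] (h : m ∣ m') {χ : LamM m' N} {fb : FN N} (hr : RelM m' N χ fb) :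
    RelM m N (redM N h χ) fb := by
  obtain ⟨f, hf, hfb⟩ := hr
  obtain ⟨d, rfl⟩ := h
  have : NeZero d := ⟨fun h0 => NeZero.ne (m * d) (by rw [h0, mul_zero])⟩
  exact ⟨f, hf.of_mul, hfb⟩

/-- **compatibility of `PsiM` with the transition maps** -/
theorem PsiM_tr [NeZero m'] (h : m ∣ m') (χ : LamM m' N) :
    trKK N h (PsiM m' N χ) = PsiM m N (redM N h χ) := by
  obtain ⟨f, hf, h'⟩ := PsiM_spec χ
  rw [h', trKK_mk, PsiM_eq (hf.red h)]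
  exact congrArg KK.mk (UU.ext rfl)

end tr

/-! ### integral classes -/

/-- reduction of integral classes -/
noncomputable def castZ (m N : ℕ) : parabolicHoms ℤ (Gamma0 N) ℤ →+ LamM m N where
  toFun χ := ⟨(Int.castAddHom (ZMod m)).comp χ.1, cast_mem_LamM m χ.2⟩
  map_zero' := Subtype.ext (AddMonoidHom.comp_zero _)
  map_add' a b := Subtype.ext (AddMonoidHom.comp_add _ a.1 b.1)

theorem castZ_apply (m N : ℕ) (χ : parabolicHoms ℤ (Gamma0 N) ℤ) (γ : Additive ↥(Gamma0 N)) :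
    (castZ m N χ : Additive ↥(Gamma0 N) →+ ZMod m) γ = ((χ.1 γ : ℤ) : ZMod m) := rfl

theorem castZ_eq_zero {χ : parabolicHoms ℤ (Gamma0 N) ℤ} (h : castZ m N χ = 0) :
    ∃ χ' : parabolicHoms ℤ (Gamma0 N) ℤ, χ = m • χ' := by
  have h1 : chiC m χ.1 = 1 := by
    rw [chiC_eq_chiZ, ← chiZ_zero m]
    exact congrArg (chiZ m) (congrArg Subtype.val h)
  obtain ⟨ψ, hψ⟩ := exists_of_chiC_eq_one (NeZero.pos m) h1
  refine ⟨⟨ψ, fun γ hγ => ?_⟩, Subtype.ext hψ⟩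
  have h1 := χ.2 γ hγ
  rw [hψ] at h1
  have h2 : (m : ℤ) * ψ (Additive.ofMul γ) = 0 := by simpa using h1
  rcases mul_eq_zero.1 h2 with h | h
  · exact absurd (by exact_mod_cast h) (NeZero.ne m)
  · exact h

theorem castZ_hecke {ℓ : ℕ} (hℓ : ℓ.Prime) (hN : ¬ ℓ ∣ N) (χ : parabolicHoms ℤ (Gamma0 N) ℤ) :
    castZ m N (heckePar N hℓ hN ℤ ℤ χ) = heckeLamM m N hℓ hN (castZ m N χ) :=
  Subtype.ext ((hsys N hℓ hN).heckeAdd_comp (Int.castAddHom (ZMod m)) χ.1).symm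

theorem redM_castZ {m m' : ℕ} (h : m ∣ m') (χ : parabolicHoms ℤ (Gamma0 N) ℤ) :
    redM N h (castZ m' N χ) = castZ m N χ := by
  apply Subtype.ext
  refine DFunLike.ext _ _ fun γ => ?_
  rw [redM_apply, castZ_apply]
  exact map_intCast _ _

/-- **the homomorphism `Λ → KK m N`** with kernel `mΛ` -/
noncomputable def PsiZ (m N : ℕ) [NeZero N] [NeZero m] : parabolicHoms ℤ (Gamma0 N) ℤ →+ KK m N :=
  (PsiM m N).comp (castZ m N)

theorem PsiZ_apply (χ : parabolicHoms ℤ (Gamma0 N) ℤ) : PsiZ m N χ = PsiM m N (castZ m N χ) := rfl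

theorem PsiZ_eq_zero {χ : parabolicHoms ℤ (Gamma0 N) ℤ} (h : PsiZ m N χ = 0) :
    ∃ χ' : parabolicHoms ℤ (Gamma0 N) ℤ, χ = m • χ' :=
  castZ_eq_zero (PsiM_injective (h.trans (map_zero _).symm))

theorem PsiZ_hecke {ℓ : ℕ} (hℓ : ℓ.Prime) (hN : ¬ ℓ ∣ N) (χ : parabolicHoms ℤ (Gamma0 N) ℤ) :
    PsiZ m N (heckePar N hℓ hN ℤ ℤ χ) = KK.T m N ℓ (PsiZ m N χ) := by
  rw [PsiZ_apply, castZ_hecke, PsiM_hecke, PsiZ_apply]

theorem PsiZ_tr {m' : ℕ} [NeZero m'] (h : m ∣ m') (χ : parabolicHoms ℤ (Gamma0 N) ℤ) :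
    trKK N h (PsiZ m' N χ) = PsiZ m N χ := by
  rw [PsiZ_apply, PsiM_tr, redM_castZ, PsiZ_apply]

end FAT
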