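import Fermat.Agent.Tate.Alg0

/-! PROJECT T, [T-ALG0] + [T-LAT], main statements. -/

set_option autoImplicit false

namespace FAT

open Polynomial Module FAG TensorProduct

section core
variable {G : Type*} [Group G] {O K : Type*} [CommRing O] [IsDomain O] [IsPrincipalIdealRing O]
  [Field K] [Algebra O K] [IsFractionRing O K]
  {L W : Type*} [AddCommGroup L] [Module O L] [Module.Free O L] [Module.Finite O L]
  [AddCommGroup W] [Module K W] [Module O W] [IsScalarTower O K W] [FiniteDimensional K W]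

omit [IsDomain O] [IsPrincipalIdealRing O] [Module.Free O L] [Module.Finite O L] in
/-- restriction of an action to a stable submodule -/
def latRestrict (r : G →* Module.End O L) (V : Submodule O L)
    (hV : ∀ g, ∀ x ∈ V, r g x ∈ V) : G →* Module.End O V where
  toFun g := (r g).restrict (hV g)
  map_one' := by
    ext x
    simp
  map_mul' g g' := by
    ext x
    simp

theorem exists_matrix_core (h2 : (2 : O) ≠ 0) (j : L →ₗ[O] W) (hj : Function.Injective j)
    (hsp : ∀ w : W, ∃ c : O, c ≠ 0 ∧ ∃ x, c • w = j x)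
    (r : G →* Module.End O L) (rK : G →* Module.End K W) (hr : ∀ g x, rK g (j x) = j (r g x))
    (d : G →* O) (a : G → O)
    (E : Submodule K W) (hE0 : E ≠ ⊥) (hE : ∀ g, ∀ w ∈ E, rK g w ∈ E)
    (hrel : ∀ g, ∀ w ∈ E, rK g w + algebraMap O K (d g) • rK g⁻¹ w = algebraMap O K (a g) • w)
    (cc : G) (hcc : cc * cc = 1) (hd : d cc = -1) :
    ∃ M : G →* Matrix (Fin 2) (Fin 2) O,
      (∀ g, (M g).charpoly = X ^ 2 - C (a g) * X + C (d g)) ∧
      (∀ g (c : O), (∀ x, ∃ x', r g x - x = c • x') → c ∣ d g - 1 →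
        ∀ i l, c ∣ (M g - 1) i l) := by
  classical
  obtain ⟨U, hU, hUE, hU0, hs⟩ := exists_simple_sub rK E hE0 hE
  let uK : G →* K := (algebraMap O K).toMonoidHom.comp d
  have huK : ∀ g, uK g = algebraMap O K (d g) := fun _ => rfl
  have hrelU : ∀ g, algRestrict rK U hU g + uK g • algRestrict rK U hU g⁻¹ =
      (algebraMap O K (a g)) • 1 := by
    intro g
    ext x
    exact hrel g x (hUE x.2)
  have hinj := IsFractionRing.injective O K
  have h2K : (2 : K) ≠ 0 := by
    have := (map_ne_zero_iff (algebraMap O K) hinj).2 h2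
    rwa [map_ofNat] at this
  have hle := finrank_le_two_of_cc (a := fun g => algebraMap O K (a g)) h2K hrelU hs cc hcc
    (by rw [huK, hd]; simp)
  have hnt : Nontrivial U := (Submodule.nontrivial_iff_ne_bot).2 hU0
  have hpos : 0 < finrank K U := finrank_pos
  obtain ⟨n, bV, bU, hb⟩ := exists_basis_latt j U hj hsp
  have hn : finrank K U = n := by rw [finrank_eq_card_basis bU, Fintype.card_fin]
  have hV : ∀ g, ∀ x ∈ latt j U, r g x ∈ latt j U := fun g x hx => by
    rw [mem_latt, ← hr]; exact hU g _ hx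
  let MV : G →* Matrix (Fin n) (Fin n) O :=
    ((LinearMap.toMatrixAlgEquiv bV : Module.End O (latt j U) ≃ₐ[O] _) :
      Module.End O (latt j U) →* _).comp (latRestrict r _ hV)
  have hMVdef : ∀ g, MV g = LinearMap.toMatrix bV bV ((r g).restrict (hV g)) := fun _ => rfl
  have hMV : ∀ g, (MV g).map (algebraMap O K) =
      LinearMap.toMatrix bU bU (algRestrict rK U hU g) := fun g =>
    (toMatrix_latt j U bV bU hb (r g) (rK g) (hr g) (hU g) (hV g)).symm
  have hcont : ∀ g (c : O), (∀ x, ∃ x', r g x - x = c • x') → ∀ i l, c ∣ (MV g - 1) i l := by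
    intro g c hc i l
    obtain ⟨x', hx'⟩ := hc (bV l)
    obtain ⟨v', hv'⟩ : ∃ v' : latt j U, (r g).restrict (hV g) (bV l) - bV l = c • v' := by
      by_cases hc0 : c = 0
      · refine ⟨0, Subtype.ext ?_⟩
        rw [hc0, zero_smul] at hx'
        rw [smul_zero]
        exact hx'
      · have : x' ∈ latt j U := latt_saturated j U hc0 (by
          rw [← hx']; exact sub_mem (hV g _ (bV l).2) (bV l).2)
        exact ⟨⟨x', this⟩, Subtype.ext hx'⟩
    have : (MV g - 1) i l = c * bV.repr v' i := by
      rw [hMVdef, Matrix.sub_apply, LinearMap.toMatrix_apply, Matrix.one_apply]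
      have h1 : bV.repr (bV l) i = if i = l then 1 else 0 := by
        rw [Basis.repr_self, Finsupp.single_apply]
        simp [eq_comm]
      rw [← h1, ← Finsupp.sub_apply, ← map_sub, hv', map_smul, Finsupp.smul_apply, smul_eq_mul]
    rw [this]
    exact Dvd.intro _ rfl
  rcases (by omega : n = 1 ∨ n = 2) with rfl | rfl
  · let ψ : G →* O := Matrix.detMonoidHom.comp MV
    have hψ : ∀ g, ψ g = MV g 0 0 := fun g => Matrix.det_fin_one _
    have hrelO : ∀ g, ψ g + d g * ψ g⁻¹ = a g := by
      intro g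
      apply hinj
      have e := congrArg (fun T => LinearMap.toMatrix bU bU T 0 0) (hrelU g)
      simp only [map_add, map_smul, ← hMV, Matrix.add_apply, Matrix.smul_apply, Matrix.map_apply,
        LinearMap.toMatrix_one, Matrix.one_apply_eq, smul_eq_mul, mul_one, huK] at e
      rw [map_add, map_mul, hψ, hψ]
      exact e
    have hψinv : ∀ g, ψ g * ψ g⁻¹ = 1 := fun g => by rw [← map_mul, mul_inv_cancel, map_one]
    obtain ⟨M, hM⟩ := exists_matrix_of_char ψ d
    refine ⟨M, fun g => ?_, fun g c hc hdc i l => ?_⟩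
    · rw [hM, charpoly_diag, hrelO g, mul_left_comm, hψinv, mul_one]
    · have h1 : c ∣ ψ g - 1 := by
        have := hcont g c hc 0 0
        rwa [Matrix.sub_apply, Matrix.one_apply_eq, ← hψ] at this
      have h3 : c ∣ d g * ψ g⁻¹ - 1 := by
        have e : d g * ψ g⁻¹ - 1 = (d g - 1) * ψ g⁻¹ - ψ g⁻¹ * (ψ g - 1) := by
          linear_combination hψinv g
        rw [e]
        exact dvd_sub (Dvd.dvd.mul_right hdc _) (Dvd.dvd.mul_left h1 _)
      rw [hM]
      fin_cases i <;> fin_cases l <;> simp [h1, h3]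
  · refine ⟨MV, fun g => ?_, fun g c hc _ => hcont g c hc⟩
    apply Polynomial.map_injective (algebraMap O K) hinj
    rw [← Matrix.charpoly_map, hMV, LinearMap.charpoly_toMatrix,
      alg_charpoly (a := fun g => algebraMap O K (a g)) hrelU hs hn]
    simp [huK]

end core

section main
variable {G : Type*} [Group G] {O : Type*} [CommRing O] [IsDomain O] [IsPrincipalIdealRing O]
  {L : Type*} [AddCommGroup L] [Module O L] [Module.Free O L] [Module.Finite O L]
  {TO : Type*} [CommRing TO] [Algebra O TO]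

/-- **[T-ALG0] + [T-LAT]**. -/
theorem exists_matrix_rep (h2 : (2 : O) ≠ 0)
    (r : G →* Module.End O L) (θO : TO →ₐ[O] Module.End O L)
    (hcomm : ∀ g y, r g * θO y = θO y * r g)
    (d : G →* O) (χO : TO →ₐ[O] O) (hfaith : ∀ y, θO y = 0 → χO y = 0)
    (hscal : ∀ g, ∃ y, r g + d g • r g⁻¹ = θO y)
    (cc : G) (hcc : cc * cc = 1) (hd : d cc = -1) :
    ∃ M : G →* Matrix (Fin 2) (Fin 2) O,
      (∀ g y, r g + d g • r g⁻¹ = θO y → (M g).charpoly = X ^ 2 - C (χO y) * X + C (d g)) ∧
      (∀ g (c : O), (∀ x, ∃ x', r g x - x = c • x') → c ∣ d g - 1 →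
        ∀ i l, c ∣ (M g - 1) i l) := by
  classical
  let K := FractionRing O
  let j : L →ₗ[O] K ⊗[O] L := TensorProduct.mk O K L 1
  have hj : Function.Injective j := Module.Flat.tensorProduct_mk_injective O L K
  have hsp : ∀ w : K ⊗[O] L, ∃ c : O, c ≠ 0 ∧ ∃ x, c • w = j x := by
    intro w
    obtain ⟨⟨x, c⟩, hc⟩ := IsLocalizedModule.surj (nonZeroDivisors O) j w
    exact ⟨c, nonZeroDivisors.ne_zero c.2, x, hc⟩
  let rK : G →* Module.End K (K ⊗[O] L) :=
    ((Module.End.baseChangeHom O K L : Module.End O L →ₐ[O] Module.End K (K ⊗[O] L)) :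
      Module.End O L →* Module.End K (K ⊗[O] L)).comp r
  have hrKdef : ∀ g, rK g = (r g).baseChange K := fun _ => rfl
  have hrK : ∀ g x, rK g (j x) = j (r g x) := fun g x => rfl
  choose yy hyy using hscal
  let E : Submodule K (K ⊗[O] L) :=
    { carrier := {w | ∀ y, (θO y).baseChange K w = algebraMap O K (χO y) • w}
      add_mem' := fun {v w} hv hw y => by rw [map_add, hv y, hw y, smul_add]
      zero_mem' := fun y => by rw [map_zero, smul_zero]
      smul_mem' := fun c w hw y => by rw [map_smul, hw y, smul_comm] }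
  have hE0 : E ≠ ⊥ := by
    obtain ⟨w, hw0, hw⟩ := exists_eigen_bc K θO χO hfaith
    intro h0
    have : w ∈ E := hw
    rw [h0, Submodule.mem_bot] at this
    exact hw0 this
  have hE : ∀ g, ∀ w ∈ E, rK g w ∈ E := by
    intro g w hw y
    have e : (θO y).baseChange K * (r g).baseChange K = (r g).baseChange K * (θO y).baseChange K := by
      rw [← LinearMap.baseChange_mul, ← LinearMap.baseChange_mul, hcomm]
    have e' := LinearMap.congr_fun e w
    rw [Module.End.mul_apply, Module.End.mul_apply, hw y, map_smul] at e'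
    exact e'
  have hrel : ∀ g, ∀ w ∈ E, rK g w + algebraMap O K (d g) • rK g⁻¹ w =
      algebraMap O K (χO (yy g)) • w := by
    intro g w hw
    rw [← hw (yy g), ← hyy g, LinearMap.baseChange_add, LinearMap.baseChange_smul,
      LinearMap.add_apply, LinearMap.smul_apply, algebraMap_smul]
    rfl
  obtain ⟨M, hM1, hM2⟩ := exists_matrix_core h2 j hj hsp r rK hrK d (fun g => χO (yy g)) E hE0 hE
    hrel cc hcc hd
  refine ⟨M, fun g y hy => ?_, hM2⟩
  rw [hM1 g]
  have : χO (yy g) = χO y := by
    have h0 : θO (yy g - y) = 0 := by rw [map_sub, ← hyy g, ← hy, sub_self]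
    have := hfaith _ h0
    rwa [map_sub, sub_eq_zero] at this
  rw [this]

end main

end FAT
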