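/-
PROJECT T, [T-ROOT]: `m`-th roots of holomorphic functions on the upper half plane all of whose
zeros have order divisible by `m`.
-/
import Mathlib

set_option autoImplicit false

open Set Metric Filter Topology Complex

namespace FAT

/-! ### roots of nowhere vanishing functions on a disc -/

theorem exists_root_of_ne_zero {c : ℂ} {r : ℝ} {g : ℂ → ℂ} (hg : DifferentiableOn ℂ g (ball c r))
    (h0 : ∀ z ∈ ball c r, g z ≠ 0) {m : ℕ} (hm : 0 < m) :
    ∃ h : ℂ → ℂ, DifferentiableOn ℂ h (ball c r) ∧ ∀ z ∈ ball c r, h z ^ m = g z := by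
  rcases (ball c r).eq_empty_or_nonempty with he | ⟨z₀, hz₀⟩
  · exact ⟨0, by simp [he], by simp [he]⟩
  have hdg : DifferentiableOn ℂ (deriv g) (ball c r) := hg.deriv isOpen_ball
  have hφ : DifferentiableOn ℂ (fun z => deriv g z / g z) (ball c r) := hdg.div hg h0
  obtain ⟨L, hL⟩ := hφ.isExactOn_ball
  have hgd : ∀ z ∈ ball c r, HasDerivAt g (deriv g z) z := fun z hz =>
    (hg.differentiableAt (isOpen_ball.mem_nhds hz)).hasDerivAt
  set F : ℂ → ℂ := fun z => g z * Complex.exp (-L z) with hF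
  have hFd : ∀ z ∈ ball c r, HasDerivAt F 0 z := by
    intro z hz
    have h1 := (hgd z hz).mul ((hL z hz).neg.cexp)
    have e : deriv g z * cexp ((-L) z) + g z * (cexp ((-L) z) * -(fun z => deriv g z / g z) z) =
        0 := by
      have := h0 z hz
      simp only
      field_simp
      ring
    rw [e] at h1
    exact h1
  have hconst : ∀ z ∈ ball c r, F z = F z₀ := fun z hz =>
    isOpen_ball.is_const_of_deriv_eq_zero (convex_ball c r).isPreconnected
      (fun w hw => (hFd w hw).differentiableAt.differentiableWithinAt)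
      (fun w hw => (hFd w hw).deriv) hz hz₀
  obtain ⟨κ, hκ⟩ := IsAlgClosed.exists_pow_nat_eq (F z₀) hm
  refine ⟨fun z => κ * Complex.exp (L z / m), ?_, ?_⟩
  · intro z hz
    exact (((hL z hz).div_const (m : ℂ)).cexp.const_mul κ).differentiableAt.differentiableWithinAt
  · intro z hz
    have hmC : (m : ℂ) ≠ 0 := by exact_mod_cast hm.ne'
    rw [mul_pow, hκ, ← hconst z hz, ← Complex.exp_nat_mul, mul_div_cancel₀ _ hmC, hF]
    simp only
    rw [mul_assoc, ← Complex.exp_add, neg_add_cancel, Complex.exp_zero, mul_one]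

/-! ### uniqueness -/

theorem root_unique {B : Set ℂ} (hB : IsPreconnected B) {h h' : ℂ → ℂ}
    (hh : AnalyticOnNhd ℂ h B) (hh' : AnalyticOnNhd ℂ h' B) {m : ℕ} (hm : 0 < m)
    (heq : ∀ z ∈ B, h z ^ m = h' z ^ m) (hBo : IsOpen B) {z₀ : ℂ} (hz₀ : z₀ ∈ B)
    (h1 : h z₀ = h' z₀) (h2 : h z₀ ≠ 0) : EqOn h h' B := by
  apply hh.eqOn_of_preconnected_of_eventuallyEq hh' hB hz₀
  set Q : ℂ → ℂ := fun z => ∑ i ∈ Finset.range m, h z ^ i * h' z ^ (m - 1 - i) with hQ
  have hQc : ContinuousAt Q z₀ := by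
    apply tendsto_finsetSum
    intro i _
    exact ((hh z₀ hz₀).continuousAt.pow i).mul ((hh' z₀ hz₀).continuousAt.pow _)
  have hQ0 : Q z₀ ≠ 0 := by
    have : Q z₀ = m * h z₀ ^ (m - 1) := by
      simp only [hQ, ← h1]
      rw [Finset.sum_congr rfl (fun i hi => by
        rw [← pow_add, Nat.add_sub_of_le (by have := Finset.mem_range.mp hi; omega)])]
      simp
    rw [this]
    exact mul_ne_zero (by exact_mod_cast hm.ne') (pow_ne_zero _ h2)
  filter_upwards [hQc.eventually_ne hQ0, hBo.mem_nhds hz₀] with z hz hzB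
  have h3 : Q z * (h z - h' z) = 0 := by
    rw [hQ, geom_sum₂_mul, heq z hzB, sub_self]
  exact sub_eq_zero.mp ((mul_eq_zero.mp h3).resolve_left hz)

/-! ### roots on a disc, with zeros -/

open MeromorphicOn in
theorem exists_root_ball {c : ℂ} {r : ℝ} {G : ℂ → ℂ} (hG : AnalyticOnNhd ℂ G (closedBall c r))
    {z₀ : ℂ} (hz₀ : z₀ ∈ ball c r) {m : ℕ} (hm : 0 < m)
    (hord : ∀ z ∈ closedBall c r, ∃ a : ℕ, analyticOrderAt G z = ((m * a : ℕ) : ℕ∞)) :
    ∃ h : ℂ → ℂ, AnalyticOnNhd ℂ h (ball c r) ∧ ∀ z ∈ ball c r, h z ^ m = G z := by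
  set U := closedBall c r with hU
  have hmer : MeromorphicOn G U := hG.meromorphicOn
  have htop : ∀ u : U, meromorphicOrderAt G u ≠ ⊤ := by
    rintro ⟨u, hu⟩
    obtain ⟨a, ha⟩ := hord u hu
    rw [(hG u hu).meromorphicOrderAt_eq, ha, ENat.map_natCast]
    exact WithTop.coe_ne_top
  have hfin : (divisor G U).support.Finite := (divisor G U).finiteSupport (isCompact_closedBall c r)
  obtain ⟨g₁, hg₁, hg₁0, hfac⟩ := hmer.extract_zeros_poles htop hfin
  -- the exponents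
  have hdiv : ∀ u, ∃ a : ℕ, divisor G U u = (m : ℤ) * a := by
    intro u
    by_cases hu : u ∈ U
    · obtain ⟨a, ha⟩ := hord u hu
      refine ⟨a, ?_⟩
      rw [AnalyticOnNhd.divisor_apply hG hu, ha]
      simp
    · refine ⟨0, ?_⟩
      rw [divisor_def, if_neg (fun h => hu h.2)]
      simp
  choose a ha using hdiv
  set d : ℂ → ℤ := fun u => (a u : ℤ) with hd
  have hdsupp : d.support ⊆ (divisor G U).support := by
    intro u hu
    simp only [Function.mem_support, hd] at hu ⊢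
    rw [ha u]
    exact mul_ne_zero (by exact_mod_cast hm.ne') hu
  have hdfin : d.support.Finite := hfin.subset hdsupp
  set P : ℂ → ℂ := ∏ᶠ u, (· - u) ^ d u with hP
  have hPan : ∀ x, AnalyticAt ℂ P x := fun x =>
    Function.FactorizedRational.analyticAt (d := d) (by simp [hd])
  have hPm : P ^ m = ∏ᶠ u, (· - u) ^ divisor G U u := by
    rw [hP, finprod_pow (by
      rw [Function.HasFiniteMulSupport, Function.FactorizedRational.mulSupport]
      exact hdfin)]
    refine finprod_congr fun u => ?_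
    rw [ha u, hd, ← zpow_natCast, ← zpow_mul, mul_comm]
  -- the root of the unit part
  obtain ⟨h₁, hh₁, hh₁m⟩ := exists_root_of_ne_zero (c := c) (r := r) (g := g₁)
    (fun z hz => (hg₁ z (ball_subset_closedBall hz)).differentiableAt.differentiableWithinAt)
    (fun z hz => hg₁0 ⟨z, ball_subset_closedBall hz⟩) hm
  have hh₁an : AnalyticOnNhd ℂ h₁ (ball c r) := hh₁.analyticOnNhd isOpen_ball
  have han : AnalyticOnNhd ℂ (fun z => P z * h₁ z) (ball c r) := fun z hz =>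
    (hPan z).mul (hh₁an z hz)
  refine ⟨fun z => P z * h₁ z, han, ?_⟩
  have han' : AnalyticOnNhd ℂ (fun z => (P z * h₁ z) ^ m) (ball c r) := fun z hz =>
    (han z hz).pow m
  apply han'.eqOn_of_preconnected_of_frequently_eq (fun z hz => hG z (ball_subset_closedBall hz))
    (convex_ball c r).isPreconnected hz₀
  apply Filter.Eventually.frequently
  have h1 := (mem_codiscreteWithin_iff_forall_mem_nhdsNE.mp hfac) z₀ (ball_subset_closedBall hz₀)
  have h2 : ball c r ∈ 𝓝[≠] z₀ := mem_nhdsWithin_of_mem_nhds (isOpen_ball.mem_nhds hz₀)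
  filter_upwards [h1, h2] with z hz hzb
  rcases hz with hz | hz
  · have hz' : G z = ((∏ᶠ u, (· - u) ^ divisor G U u) • g₁) z := hz
    rw [hz', ← hPm, mul_pow, hh₁m z hzb]
    rfl
  · exact absurd (ball_subset_closedBall hzb) hz

/-! ### gluing along an exhaustion -/

open Classical in
theorem exists_root_union (B : ℕ → Set ℂ) (hBo : ∀ n, IsOpen (B n))
    (hBc : ∀ n, IsPreconnected (B n)) (hmono : Monotone B) {G : ℂ → ℂ} {z₀ : ℂ} (hz₀ : z₀ ∈ B 0)
    (hG0 : G z₀ ≠ 0) {m : ℕ} (hm : 0 < m)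
    (hex : ∀ n, ∃ h : ℂ → ℂ, AnalyticOnNhd ℂ h (B n) ∧ ∀ z ∈ B n, h z ^ m = G z) :
    ∃ h : ℂ → ℂ, AnalyticOnNhd ℂ h (⋃ n, B n) ∧ ∀ z ∈ ⋃ n, B n, h z ^ m = G z := by
  obtain ⟨w₀, hw₀⟩ := IsAlgClosed.exists_pow_nat_eq (G z₀) hm
  have hw₀0 : w₀ ≠ 0 := by
    rintro rfl
    rw [zero_pow hm.ne'] at hw₀
    exact hG0 hw₀.symm
  have hz₀n : ∀ n, z₀ ∈ B n := fun n => hmono (Nat.zero_le n) hz₀
  have hex' : ∀ n, ∃ k : ℂ → ℂ, AnalyticOnNhd ℂ k (B n) ∧ (∀ z ∈ B n, k z ^ m = G z) ∧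
      k z₀ = w₀ := by
    intro n
    obtain ⟨h, hh, hhm⟩ := hex n
    have h0 : h z₀ ≠ 0 := by
      intro h0
      have := hhm z₀ (hz₀n n)
      rw [h0, zero_pow hm.ne'] at this
      exact hG0 this.symm
    refine ⟨fun z => w₀ / h z₀ * h z, fun z hz => analyticAt_const.mul (hh z hz), ?_, ?_⟩
    · intro z hz
      rw [mul_pow, div_pow, hw₀, hhm z₀ (hz₀n n), div_self hG0, one_mul, hhm z hz]
    · simp only
      rw [div_mul_cancel₀ _ h0]
  choose k hk hkm hk0 using hex'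
  have hcons : ∀ n n', n ≤ n' → EqOn (k n) (k n') (B n) := by
    intro n n' hnn'
    refine root_unique (hBc n) (hk n) (fun z hz => hk n' z (hmono hnn' hz)) hm ?_ (hBo n) (hz₀n n)
      (by rw [hk0, hk0]) (by rw [hk0]; exact hw₀0)
    intro z hz
    rw [hkm n z hz, hkm n' z (hmono hnn' hz)]
  set h : ℂ → ℂ := fun z => if hz : ∃ n, z ∈ B n then k (Nat.find hz) z else 0 with hh
  have hval : ∀ n, ∀ z ∈ B n, h z = k n z := by
    intro n z hz
    have hz' : ∃ n, z ∈ B n := ⟨n, hz⟩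
    simp only [hh, dif_pos hz']
    exact hcons _ _ (Nat.find_min' hz' hz) (Nat.find_spec hz')
  refine ⟨h, ?_, ?_⟩
  · intro z hz
    obtain ⟨n, hn⟩ := mem_iUnion.mp hz
    refine (hk n z hn).congr ?_
    filter_upwards [(hBo n).mem_nhds hn] with w hw
    exact (hval n w hw).symm
  · intro z hz
    obtain ⟨n, hn⟩ := mem_iUnion.mp hz
    rw [hval n z hn, hkm n z hn]

/-! ### the exhaustion of the upper half plane -/

lemma closedBall_subset_upper {R : ℝ} (hR : 0 < R) :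
    closedBall (Complex.I * R) (R - 1 / R) ⊆ {z : ℂ | 0 < z.im} := by
  intro z hz
  rw [mem_closedBall, Complex.dist_eq] at hz
  have h1 := (Complex.abs_im_le_norm (z - Complex.I * R)).trans hz
  have h2 : (z - Complex.I * R).im = z.im - R := by simp
  rw [h2] at h1
  have h3 := (abs_le.mp h1).1
  have h4 : 0 < 1 / R := by positivity
  show 0 < z.im
  linarith

lemma ball_mono_upper {R R' : ℝ} (hR : 0 < R) (hRR' : R ≤ R') :
    ball (Complex.I * R) (R - 1 / R) ⊆ ball (Complex.I * R') (R' - 1 / R') := by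
  apply ball_subset_ball'
  have h1 : dist (Complex.I * R) (Complex.I * R') = R' - R := by
    rw [Complex.dist_eq, ← mul_sub, norm_mul, Complex.norm_I, one_mul, ← Complex.ofReal_sub,
      Complex.norm_real, Real.norm_eq_abs, abs_sub_comm, abs_of_nonneg (by linarith)]
  rw [h1]
  have h2 : 1 / R' ≤ 1 / R := one_div_le_one_div_of_le hR hRR'
  linarith

lemma mem_ball_upper {z : ℂ} (hz : 0 < z.im) {R : ℝ} (hR : 1 ≤ R)
    (hR' : (z.re ^ 2 + z.im ^ 2 + 2) / (2 * z.im) ≤ R) :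
    z ∈ ball (Complex.I * R) (R - 1 / R) := by
  have hR0 : 0 < R := by linarith
  rw [mem_ball, Complex.dist_eq]
  have h1 : 1 / R ≤ 1 := by
    rw [div_le_one hR0]; exact hR
  have h0 : 0 ≤ R - 1 / R := by linarith
  apply lt_of_pow_lt_pow_left₀ 2 h0
  rw [Complex.sq_norm, Complex.normSq_apply]
  have h2 : (z - Complex.I * R).im = z.im - R := by simp
  have h3 : (z - Complex.I * R).re = z.re := by simp
  rw [h2, h3]
  rw [div_le_iff₀ (by linarith)] at hR'
  have h4 : (R - 1 / R) ^ 2 = R ^ 2 - 2 + (1 / R) ^ 2 := by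
    field_simp
    ring
  rw [h4]
  have h5 : 0 < (1 / R) ^ 2 := by positivity
  nlinarith

theorem exists_root_upper {G : ℂ → ℂ} (hG : AnalyticOnNhd ℂ G {z : ℂ | 0 < z.im}) {m : ℕ}
    (hm : 0 < m)
    (hord : ∀ z : ℂ, 0 < z.im → ∃ a : ℕ, analyticOrderAt G z = ((m * a : ℕ) : ℕ∞)) :
    ∃ h : ℂ → ℂ, AnalyticOnNhd ℂ h {z : ℂ | 0 < z.im} ∧ ∀ z : ℂ, 0 < z.im → h z ^ m = G z := by
  have hopen : IsOpen {z : ℂ | 0 < z.im} := isOpen_lt continuous_const Complex.continuous_im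
  -- a base point
  obtain ⟨z₀, hz₀, hGz₀⟩ : ∃ z₀ : ℂ, 0 < z₀.im ∧ G z₀ ≠ 0 := by
    obtain ⟨a, ha⟩ := hord Complex.I (by simp)
    have h1 : ¬ ∀ᶠ z in 𝓝 Complex.I, G z = 0 := by
      rw [← analyticOrderAt_eq_top, ha]
      exact ENat.natCast_ne_top _
    have h2 : ∃ᶠ z in 𝓝 Complex.I, G z ≠ 0 := by
      rwa [Filter.not_eventually] at h1
    obtain ⟨z, hz1, hz2⟩ := (h2.and_eventually (hopen.mem_nhds (by simp : Complex.I ∈ _))).exists
    exact ⟨z, hz2, hz1⟩
  set R₀ : ℝ := max 1 ((z₀.re ^ 2 + z₀.im ^ 2 + 2) / (2 * z₀.im)) with hR₀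
  have hR₀1 : 1 ≤ R₀ := le_max_left _ _
  set ρ : ℕ → ℝ := fun n => R₀ + n with hρ
  have hρ1 : ∀ n, 1 ≤ ρ n := fun n => by
    have : (0 : ℝ) ≤ n := Nat.cast_nonneg n
    simp only [hρ]; linarith
  have hρ0 : ∀ n, 0 < ρ n := fun n => by linarith [hρ1 n]
  set B : ℕ → Set ℂ := fun n => ball (Complex.I * ρ n) (ρ n - 1 / ρ n) with hB
  have hz₀n : ∀ n, z₀ ∈ B n := fun n => mem_ball_upper hz₀ (hρ1 n) (by
    have : (0 : ℝ) ≤ n := Nat.cast_nonneg n
    have h2 : (z₀.re ^ 2 + z₀.im ^ 2 + 2) / (2 * z₀.im) ≤ R₀ := le_max_right _ _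
    simp only [hρ]; linarith)
  have hunion : (⋃ n, B n) = {z : ℂ | 0 < z.im} := by
    apply Set.Subset.antisymm
    · refine iUnion_subset fun n => ?_
      exact ball_subset_closedBall.trans (closedBall_subset_upper (hρ0 n))
    · intro z hz
      obtain ⟨n, hn⟩ := exists_nat_ge ((z.re ^ 2 + z.im ^ 2 + 2) / (2 * z.im))
      refine mem_iUnion.mpr ⟨n, mem_ball_upper hz (hρ1 n) ?_⟩
      simp only [hρ]; linarith
  have key := exists_root_union B (fun n => isOpen_ball)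
    (fun n => (convex_ball _ _).isPreconnected) (by
      intro n n' hnn'
      apply ball_mono_upper (hρ0 n)
      have : (n : ℝ) ≤ n' := by exact_mod_cast hnn'
      simp only [hρ]; linarith) (hz₀n 0) hGz₀ hm (fun n =>
      exists_root_ball (fun z hz => hG z (closedBall_subset_upper (hρ0 n) hz)) (hz₀n n) hm
        (fun z hz => hord z (closedBall_subset_upper (hρ0 n) hz)))
  rw [hunion] at key
  exact key

open UpperHalfPlane in
open scoped Manifold in
/-- **[T-ROOT]** -/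
theorem exists_root (g : ℍ → ℂ) (hg : MDiff g) {m : ℕ} (hm : 0 < m)
    (hord : ∀ τ : ℍ, ∃ a : ℕ, analyticOrderAt (g ∘ ofComplex) (τ : ℂ) = ((m * a : ℕ) : ℕ∞)) :
    ∃ h : ℍ → ℂ, MDiff h ∧ h ^ m = g := by
  have hopen : IsOpen {z : ℂ | 0 < z.im} := isOpen_lt continuous_const Complex.continuous_im
  have hG : AnalyticOnNhd ℂ (g ∘ ofComplex) {z : ℂ | 0 < z.im} :=
    (UpperHalfPlane.mdifferentiable_iff.mp hg).analyticOnNhd hopen
  obtain ⟨H, hH, hHm⟩ := exists_root_upper hG hm (fun z hz => hord ⟨z, hz⟩)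
  refine ⟨fun τ => H τ, ?_, ?_⟩
  · rw [UpperHalfPlane.mdifferentiable_iff]
    refine hH.differentiableOn.congr fun z hz => ?_
    simp only [Function.comp_apply, ofComplex_apply_of_im_pos hz]
  · funext τ
    have := hHm τ τ.im_pos
    simpa using this

end FAT
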