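import Fermat.Agent.Tate.Lat
import Fermat.Prelude.Def_CuspForm_HeckeGaloisRepDatum

/-! PROJECT T: S30 from the Tate-module data (`FAT.TateHyp`). -/

set_option autoImplicit false

namespace FAT

open Polynomial Module CuspForm

/-- the absolute Galois group of `ℚ` -/
abbrev GQ : Type := AlgebraicClosure ℚ ≃ₐ[ℚ] AlgebraicClosure ℚ

lemma mem_smul_top_pi {A : Type*} [CommRing A] (I : Ideal A) {n : ℕ} (w : Fin n → A)
    (hw : ∀ i, w i ∈ I) : w ∈ I • (⊤ : Submodule A (Fin n → A)) := by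
  rw [pi_eq_sum_univ w]
  exact Submodule.sum_mem _ fun i _ => Submodule.smul_mem_smul (hw i) trivial

/-- the adic representation attached to a matrix representation -/
noncomputable def adicOfMatrix {A : Type} [CommRing A] [IsLocalRing A]
    (R : GQ →* Matrix (Fin 2) (Fin 2) A)
    (hR : ∀ n : ℕ, ∃ F : IntermediateField ℚ (AlgebraicClosure ℚ), FiniteDimensional ℚ F ∧
      ∀ σ : GQ, (∀ x ∈ F, σ x = x) → ∀ i l, (R σ - 1) i l ∈ IsLocalRing.maximalIdeal A ^ n) :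
    GaloisRepAdic A where
  V := Fin 2 → A
  finrank_eq := by simp
  ρ := ((Matrix.toLinAlgEquiv' : Matrix (Fin 2) (Fin 2) A ≃ₐ[A] _) :
    Matrix (Fin 2) (Fin 2) A →* Module.End A (Fin 2 → A)).comp R
  isAdicContinuous := by
    intro n
    obtain ⟨F, hF, h⟩ := hR n
    refine ⟨F, hF, fun σ hσ v => ?_⟩
    apply mem_smul_top_pi
    intro i
    show (Matrix.toLin' (R σ) v - v) i ∈ _
    have e : (Matrix.toLin' (R σ) v - v) i = ∑ l, (R σ - 1) i l * v l := by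
      rw [Pi.sub_apply, Matrix.toLin'_apply, Matrix.mulVec, dotProduct]
      simp only [Matrix.sub_apply, sub_mul, Finset.sum_sub_distrib, Matrix.one_apply, ite_mul,
        one_mul, zero_mul, Finset.sum_ite_eq, Finset.mem_univ, if_true]
    rw [e]
    exact Ideal.sum_mem _ fun l _ => Ideal.mul_mem_right _ _ (h σ hσ i l)

lemma adicOfMatrix_charpoly {A : Type} [CommRing A] [IsLocalRing A]
    (R : GQ →* Matrix (Fin 2) (Fin 2) A) (hR) (σ : GQ) :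
    LinearMap.charpoly ((adicOfMatrix R hR).ρ σ) = (R σ).charpoly :=
  Matrix.charpoly_toLin' (R σ)

lemma adicOfMatrix_eq_one {A : Type} [CommRing A] [IsLocalRing A]
    (R : GQ →* Matrix (Fin 2) (Fin 2) A) (hR) {σ : GQ} (h : R σ = 1) :
    (adicOfMatrix R hR).ρ σ = 1 := by
  show Matrix.toLinAlgEquiv' (R σ) = 1
  rw [h, map_one]

/-- **The interface of PROJECT T**: the `p`-adic Tate module of `J₀(N)` with coefficients in `O`,
with its Galois and Hecke actions. -/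
def TateHyp (p N : ℕ) [NeZero N] (S : Finset ℕ) (O : Type) [CommRing O] : Prop :=
  ∃ (L : Type) (_ : AddCommGroup L) (_ : Module O L) (_ : Module.Free O L) (_ : Module.Finite O L)
    (TO : Type) (_ : CommRing TO) (_ : Algebra O TO)
    (inc : heckeAlgebra N 2 (↑S : Set ℕ) →+* TO) (θO : TO →ₐ[O] Module.End O L)
    (r : GQ →* Module.End O L) (d : GQ →* O),
    (∀ χ : heckeAlgebra N 2 (↑S : Set ℕ) →+* O, ∃ χO : TO →ₐ[O] O,
      (∀ t, χO (inc t) = χ t) ∧ ∀ y, θO y = 0 → χO y = 0) ∧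
    (∀ g y, r g * θO y = θO y * r g) ∧
    (∀ g, ∃ y, r g + d g • r g⁻¹ = θO y) ∧
    (∀ (ℓ : ℕ) (hℓ : ℓ.Prime) (hℓN : ¬ ℓ ∣ N) (hℓS : ℓ ∉ (↑S : Set ℕ))
      (A : ValuationSubring (AlgebraicClosure ℚ)), A.LiesOverPrime ℓ →
      ∀ σ : GQ, A.IsFrobeniusAt σ ℓ →
        d σ = (ℓ : O) ∧ r σ + d σ • r σ⁻¹ = θO (inc (heckeAlgebra.T hℓ hℓN hℓS))) ∧
    (∀ n : ℕ, ∃ F : IntermediateField ℚ (AlgebraicClosure ℚ), FiniteDimensional ℚ F ∧
      ∀ σ : GQ, (∀ x ∈ F, σ x = x) →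
        (∀ x, ∃ x', r σ x - x = ((p : O) ^ n) • x') ∧ ((p : O) ^ n) ∣ d σ - 1) ∧
    (∀ q : ℕ, q.Prime → ¬ q ∣ N → q ≠ p →
      ∀ P : ValuationSubring (AlgebraicClosure ℚ), P.LiesOverPrime q →
        ∀ σ ∈ P.inertiaSubgroupIn ℚ, r σ = 1 ∧ d σ = 1) ∧
    ∃ cc : GQ, cc * cc = 1 ∧ d cc = -1

theorem S30_of_tateHyp (p N : ℕ) [NeZero N] (S : Finset ℕ) (O : Type) [CommRing O] [IsDomain O]
    [IsDiscreteValuationRing O] [CharZero O] (hpO : (p : O) ∈ IsLocalRing.maximalIdeal O)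
    (H : TateHyp p N S O) (χ : heckeAlgebra N 2 (↑S : Set ℕ) →+* O) :
    ∃ ρ : GaloisRepAdic O,
      (∀ (ℓ : ℕ) (hℓ : ℓ.Prime) (hℓN : ¬ ℓ ∣ N) (hℓS : ℓ ∉ (↑S : Set ℕ)),
        ∀ A : ValuationSubring (AlgebraicClosure ℚ), A.LiesOverPrime ℓ →
          ∀ σ : AlgebraicClosure ℚ ≃ₐ[ℚ] AlgebraicClosure ℚ, A.IsFrobeniusAt σ ℓ →
            LinearMap.charpoly (ρ.ρ σ) =
              X ^ 2 - C (χ (heckeAlgebra.T hℓ hℓN hℓS)) * X + C ((ℓ : O))) ∧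
      (∀ q : ℕ, q.Prime → ¬ q ∣ N → q ≠ p → ρ.IsUnramifiedAt q) := by
  obtain ⟨L, _, _, _, _, TO, _, _, inc, θO, r, d, hχ, hcomm, hscal, hfrob, hcont, hunr, cc, hcc,
    hd⟩ := H
  obtain ⟨χO, hχO, hfaith⟩ := hχ χ
  obtain ⟨M, hM1, hM2⟩ := exists_matrix_rep (two_ne_zero) r θO hcomm d χO hfaith hscal cc hcc hd
  have hR : ∀ n : ℕ, ∃ F : IntermediateField ℚ (AlgebraicClosure ℚ), FiniteDimensional ℚ F ∧
      ∀ σ : GQ, (∀ x ∈ F, σ x = x) → ∀ i l, (M σ - 1) i l ∈ IsLocalRing.maximalIdeal O ^ n := by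
    intro n
    obtain ⟨F, hF, h⟩ := hcont n
    refine ⟨F, hF, fun σ hσ i l => ?_⟩
    obtain ⟨h1, h2⟩ := h σ hσ
    obtain ⟨z, hz⟩ := hM2 σ _ h1 h2 i l
    rw [hz]
    exact Ideal.mul_mem_right _ _ (Ideal.pow_mem_pow hpO n)
  refine ⟨adicOfMatrix M hR, ?_, ?_⟩
  · intro ℓ hℓ hℓN hℓS A hA σ hσ
    obtain ⟨h1, h2⟩ := hfrob ℓ hℓ hℓN hℓS A hA σ hσ
    rw [adicOfMatrix_charpoly, hM1 σ _ h2, hχO, h1]
  · intro q hq hqN hqp P hP σ hσ
    obtain ⟨h1, h2⟩ := hunr q hq hqN hqp P hP σ hσ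
    apply adicOfMatrix_eq_one
    have h3 := hM2 σ 0 (fun x => ⟨0, by rw [h1]; simp⟩) (by rw [h2]; simp)
    ext i l
    have := zero_dvd_iff.1 (h3 i l)
    rw [Matrix.sub_apply, sub_eq_zero] at this
    exact this

end FAT
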