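import Fermat.Agent.Gal.RealZ

/-! PROJECT T, [T-SURJ] part 1: the ring of holomorphic functions on `ℍ`, the character of an
`m`-th root of a modular function, multipliers at fixed points. -/

set_option autoImplicit false

open UpperHalfPlane ModularForm Function CongruenceSubgroup FA24 FA_IS
open scoped Manifold MatrixGroups Real Topology

namespace FAT

/-- the ring of holomorphic functions on `ℍ`. -/
def HolR : Subring (ℍ → ℂ) where
  carrier := {f | MDiff f}
  mul_mem' := fun {_ _} hf hg => MDifferentiable.mul hf hg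
  one_mem' := mdifferentiable_const
  add_mem' := fun {_ _} hf hg => MDifferentiable.add hf hg
  zero_mem' := mdifferentiable_const
  neg_mem' := fun {_} hf => MDifferentiable.neg hf

instance : IsDomain HolR := by
  have : NoZeroDivisors HolR := ⟨by
    rintro ⟨f, hf⟩ ⟨g, hg⟩ h
    have h' : f * g = 0 := congrArg Subtype.val h
    rcases (UpperHalfPlane.mul_eq_zero_iff hf hg).mp h' with h0 | h0
    · exact Or.inl (Subtype.ext h0)
    · exact Or.inr (Subtype.ext h0)⟩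
  have : Nontrivial HolR := ⟨⟨0, 1, fun h => by
    have := congrFun (congrArg Subtype.val h) UpperHalfPlane.I
    simp at this⟩⟩
  exact NoZeroDivisors.to_isDomain _

/-- constants. -/
def cstH : ℂ →+* HolR where
  toFun c := ⟨fun _ => c, mdifferentiable_const⟩
  map_one' := rfl
  map_mul' _ _ := rfl
  map_zero' := rfl
  map_add' _ _ := rfl

lemma cstH_injective : Function.Injective cstH := by
  intro a b h
  exact congrFun (congrArg Subtype.val h) UpperHalfPlane.I

/-- two holomorphic functions with the same `m`-th power differ by a root of unity. -/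
lemma eq_cst_mul_of_pow_eq {m : ℕ} (hm : 0 < m) {x y : ℍ → ℂ} (hx : MDiff x) (hy : MDiff y)
    (h : x ^ m = y ^ m) : ∃ w : ℂ, w ^ m = 1 ∧ ∀ τ, x τ = w * y τ := by
  have hζ0 := Complex.isPrimitiveRoot_exp m hm.ne'
  have hζ : IsPrimitiveRoot (cstH (Complex.exp (2 * Real.pi * Complex.I / m))) m :=
    hζ0.map_of_injective cstH_injective
  have h1 := hζ.pow_sub_pow_eq_prod_sub_mul (⟨x, hx⟩ : HolR) (⟨y, hy⟩ : HolR) hm
  have h' : (⟨x, hx⟩ : HolR) ^ m = (⟨y, hy⟩ : HolR) ^ m := Subtype.ext h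
  rw [h', sub_self] at h1
  obtain ⟨w, hw, h2⟩ := Finset.prod_eq_zero_iff.mp h1.symm
  rw [Polynomial.mem_nthRootsFinset hm] at hw
  have : NeZero m := ⟨hm.ne'⟩
  obtain ⟨i, -, rfl⟩ := hζ.eq_pow_of_pow_eq_one hw
  refine ⟨(Complex.exp (2 * Real.pi * Complex.I / m)) ^ i, ?_, fun τ => ?_⟩
  · rw [← pow_mul, mul_comm i m, pow_mul, hζ0.pow_eq_one, one_pow]
  · rw [sub_eq_zero, ← map_pow] at h2
    exact congrFun (congrArg Subtype.val h2) τ

lemma mdiff_comp_smul {f : ℍ → ℂ} (hf : MDiff f) (s : SL(2, ℤ)) : MDiff (fun τ => f (s • τ)) :=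
  hf.comp (UpperHalfPlane.mdifferentiable_smul (g := (s : GL (Fin 2) ℝ)) (det_SL_pos s))

variable {N : ℕ} [NeZero N]

/-- the character of an `m`-th root of a modular function. -/
theorem exists_char {m : ℕ} (hm : 0 < m) {g : RN N} {h : ℍ → ℂ} (hol : MDiff h)
    (hpow : h ^ m = g.1) (hne : h ≠ 0) :
    ∃ c : ↥(Gamma0 N) →* ℂˣ, (∀ γ, c γ ^ m = 1) ∧ FAG.IsTw c h := by
  have key : ∀ γ : ↥(Gamma0 N), ∃ w : ℂ, w ^ m = 1 ∧ ∀ τ, h ((γ : SL(2, ℤ)) • τ) = w * h τ := by
    intro γ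
    refine eq_cst_mul_of_pow_eq hm (mdiff_comp_smul hol γ) hol ?_
    funext τ
    have h1 := congrFun hpow ((γ : SL(2, ℤ)) • τ)
    have h2 := congrFun hpow τ
    simp only [Pi.pow_apply] at h1 h2 ⊢
    rw [h1, h2, RN.inv g.2 γ.2]
  choose w hw1 hw2 using key
  obtain ⟨τ₀, hτ₀⟩ : ∃ τ, h τ ≠ 0 := by
    by_contra hcon
    push Not at hcon
    exact hne (funext hcon)
  have hw0 : ∀ γ, w γ ≠ 0 := by
    intro γ h0
    have := hw1 γ
    rw [h0, zero_pow hm.ne'] at this
    exact zero_ne_one this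
  refine ⟨{ toFun := fun γ => Units.mk0 (w γ) (hw0 γ)
            map_one' := ?_
            map_mul' := fun γ γ' => ?_ }, fun γ => ?_, fun γ τ => hw2 γ τ⟩
  · apply Units.ext
    have := hw2 1 τ₀
    simp only [OneMemClass.coe_one, one_smul] at this
    exact (mul_right_cancel₀ hτ₀ ((one_mul _).trans this)).symm
  · apply Units.ext
    have h1 := hw2 (γ * γ') τ₀
    have h2 := hw2 γ ((γ' : SL(2, ℤ)) • τ₀)
    rw [hw2 γ' τ₀] at h2
    have e : (((γ * γ' : ↥(Gamma0 N)) : SL(2, ℤ))) • τ₀ = (γ : SL(2, ℤ)) • (γ' : SL(2, ℤ)) • τ₀ :=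
      mul_smul _ _ _
    rw [e, h2, ← mul_assoc] at h1
    exact (mul_right_cancel₀ hτ₀ h1).symm
  · apply Units.ext
    rw [Units.val_pow_eq_pow_val]
    exact hw1 γ

/-- the multiplier of a semi-invariant function at a fixed point. -/
theorem tay_multiplier' (s : SL(2, ℤ)) (τ₀ : ℍ) (hs : s • τ₀ = τ₀) {f : ℍ → ℂ} (hf : MDiff f)
    (hf0 : f ≠ 0) (w : ℂ) (hinv : ∀ τ, f (s • τ) = w * f τ) :
    w * (denom s τ₀) ^ (2 * (tay τ₀ f).order.toNat) = 1 := by
  set F : ℂ → ℂ := f ∘ ofComplex with hF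
  set G : ℂ → ℂ := (fun z ↦ ↑((s : GL (Fin 2) ℝ) • ofComplex z) : ℂ → ℂ) with hG
  have hFa : AnalyticAt ℂ F τ₀ := analyticAt_comp_ofComplex hf τ₀
  have hGa : AnalyticAt ℂ G τ₀ := τ₀.analyticAt_smul (det_SL_pos s)
  have hG0 : G τ₀ = τ₀ := by
    simp only [hG]
    rw [ofComplex_apply, ← ModularGroup.sl_moeb, hs]
  have hGd : deriv G τ₀ = 1 / denom s τ₀ ^ 2 := by
    rw [hG, τ₀.deriv_smul (det_SL_pos s), det_SL_eq]
    simp
  have hFG : ∀ z, F (G z) = w * F z := by
    intro z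
    simp only [hF, hG, comp_apply, ofComplex_apply]
    exact hinv _
  have hne : (tay τ₀ f).order ≠ ⊤ := by
    rw [Ne, PowerSeries.order_eq_top, tay_eq_zero_iff τ₀ hf]
    exact hf0
  set n := (tay τ₀ f).order.toNat with hn
  have hord : analyticOrderAt F τ₀ = n := by
    rw [← order_tay τ₀ hf, hn, ENat.natCast_toNat hne]
  obtain ⟨g, hga, hg0, hg⟩ := (hFa.analyticOrderAt_eq_natCast).mp hord
  have h1 : ∀ᶠ z in 𝓝 (τ₀ : ℂ), F (G z) = (G z - τ₀) ^ n • g (G z) := by
    have := hGa.continuousAt.tendsto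
    rw [hG0] at this
    exact this.eventually hg
  have h2 : ∀ᶠ z in 𝓝[≠] (τ₀ : ℂ), (dslope G τ₀ z) ^ n * g (G z) = w * g z := by
    rw [eventually_nhdsWithin_iff]
    filter_upwards [h1, hg] with z hz1 hz2 hz
    have hz' : z - τ₀ ≠ 0 := sub_ne_zero.mpr hz
    have h3 : G z - τ₀ = (z - τ₀) * dslope G τ₀ z := by
      have := sub_smul_dslope G (τ₀ : ℂ) z
      rw [hG0, smul_eq_mul] at this
      exact this.symm
    rw [hFG, hz2, h3, mul_pow, smul_eq_mul, smul_eq_mul, mul_assoc, mul_left_comm] at hz1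
    exact (mul_left_cancel₀ (pow_ne_zero n hz') hz1).symm
  have h4 : Filter.Tendsto (fun z => (dslope G τ₀ z) ^ n * g (G z)) (𝓝[≠] (τ₀ : ℂ))
      (𝓝 ((deriv G τ₀) ^ n * g τ₀)) := by
    have hd : ContinuousAt (dslope G τ₀) τ₀ := continuousAt_dslope_same.mpr hGa.differentiableAt
    have hgG : ContinuousAt (fun z => g (G z)) τ₀ := by
      apply ContinuousAt.comp (g := g)
      · rw [hG0]; exact hga.continuousAt
      · exact hGa.continuousAt
    have := ((hd.pow n).mul hgG).tendsto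
    have he : ((dslope G τ₀ ^ n * fun z => g (G z)) (τ₀ : ℂ)) = (deriv G τ₀) ^ n * g τ₀ := by
      simp only [Pi.mul_apply, Pi.pow_apply, dslope_same, hG0]
    rw [he] at this
    exact this.mono_left nhdsWithin_le_nhds
  have h5 : Filter.Tendsto (fun z => (dslope G τ₀ z) ^ n * g (G z)) (𝓝[≠] (τ₀ : ℂ))
      (𝓝 (w * g τ₀)) :=
    ((hga.continuousAt.tendsto.const_mul w).mono_left nhdsWithin_le_nhds).congr'
      (h2.mono fun z hz => hz.symm)
  have h6 := tendsto_nhds_unique h4 h5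
  have h7 : (deriv G τ₀) ^ n = w := mul_right_cancel₀ hg0 h6
  rw [hGd, div_pow, one_pow, ← pow_mul] at h7
  have h8 : denom s τ₀ ^ (2 * n) ≠ 0 := pow_ne_zero _ (denom_ne_zero _ _)
  rw [← h7]
  field_simp

end FAT
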