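import Fermat.Agent.Tate.Surj1

/-! PROJECT T, [T-SURJ] part 2: the abstract multiplier argument and the cusps. -/

set_option autoImplicit false

open UpperHalfPlane ModularForm Function CongruenceSubgroup FA24 FA_IS AlgebraicCurve
open scoped Manifold MatrixGroups Real Topology

namespace FAT

local notation "Δ" => ModularForm.discriminant

variable {N : ℕ} [NeZero N]

/-- **the abstract multiplier argument.** -/
theorem mult_trivial {m : ℕ} (hm : 0 < m) (φ : FAGP.FN ℂ N →+* LaurentSeries ℂ)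
    (hφK : ∀ a : ℂ, φ (algebraMap ℂ (FAGP.FN ℂ N) a) = HahnSeries.C a)
    (y : FAGP.FN ℂ N) (hy : 0 < (φ y).order) (μ : ℂˣ)
    (hinv : ∀ f : FAGP.FN ℂ N, f ≠ 0 → μ ^ (φ f).order = 1)
    (f0 : FAGP.FN ℂ N) (hf0 : f0 ≠ 0) (hdiv : ∀ v : Place ℂ (FAGP.FN ℂ N), (m : ℤ) ∣ v.ord f0)
    (o : ℤ) (ho : (m : ℤ) * o = (φ f0).order) : μ ^ o = 1 := by
  obtain ⟨v, cc, hcc, hv⟩ := exists_place_of_branch φ (RingHom.id ℂ) hφK y hy
  obtain ⟨u, hu⟩ := FAFF.exists_irreducible v
  have hu0 := FAFF.coe_ne_zero_of_irreducible v hu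
  have h1 := hinv _ hu0
  rw [hv _ hu0, v.ord_coe_irreducible hu, mul_one] at h1
  obtain ⟨a, ha⟩ := hdiv v
  rw [hv _ hf0, ha] at ho
  have hm' : (m : ℤ) ≠ 0 := by exact_mod_cast hm.ne'
  have h2 : o = cc * a := by
    apply mul_left_cancel₀ hm'
    rw [ho]
    ring
  rw [h2, zpow_mul, h1, one_zpow]

/-- order of a branch in terms of invariance of the numerators and denominators. -/
lemma hinv_of_RN (e : Expn N) (k : XN N) (μ : ℂˣ)
    (h : ∀ g : RN N, g ≠ 0 → μ ^ (e.ε (trnM k g)).order = 1) (f : FAGP.FN ℂ N) (hf : f ≠ 0) :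
    μ ^ (FAGP.br e k f).order = 1 := by
  obtain ⟨g, g', hg', hr⟩ := FAGP.exists_rep f
  have hg : g ≠ 0 := FAGP.rep_num_ne_zero hf hg' hr
  rw [FAGP.order_br e k hf hg' hr, zpow_sub, brR_apply, brR_apply, h g hg, h g' hg', inv_one,
    mul_one]

/-! ### level raising for the expansion at `i∞` -/

lemma meroInf_mul {f : ℍ → ℂ} (hf : MeroInf N f) (m : ℕ) : MeroInf (N * m) f :=
  ⟨by
    have := hf.per.nat_mul m
    have e : (((N * m : ℕ) : ℝ) : ℂ) = (m : ℂ) * ((N : ℝ) : ℂ) := by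
      push_cast
      ring
    rw [e]
    exact this, hf.hol, hf.pole⟩

/-- the expansion at `i∞` in the parameter `q_{Nm}`. -/
noncomputable def expInfM (m : ℕ) [NeZero m] : Expn N where
  ε :=
    { toFun := fun g => lau (N * m) g.1
      map_one' := by
        show lau (N * m) (fun _ => 1 : ℍ → ℂ) = 1
        rw [lau_const]
        simp
      map_mul' := fun f g => lau_mul (meroInf_mul (MN.mero f.2) m) (meroInf_mul (MN.mero g.2) m)
      map_zero' := by
        show lau (N * m) (fun _ => 0 : ℍ → ℂ) = 0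
        rw [lau_const]
        simp
      map_add' := fun f g => lau_add (meroInf_mul (MN.mero f.2) m) (meroInf_mul (MN.mero g.2) m) }
  inj := by
    rw [injective_iff_map_eq_zero]
    intro g hg
    exact Subtype.ext ((lau_eq_zero_iff (meroInf_mul (MN.mero g.2) m)).mp hg)
  const := fun c => lau_const (N * m) c

lemma expInfM_apply (m : ℕ) [NeZero m] (g : MN N) : (expInfM m).ε g = lau (N * m) g.1 := rfl

/-- the multiplier of the translation by `n` in the parameter `q_M`. -/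
noncomputable def muT (M : ℕ) (n : ℤ) : ℂˣ :=
  Units.mk0 (Complex.exp (2 * π * Complex.I * n / M)) (Complex.exp_ne_zero _)

lemma coe_muT_zpow (M : ℕ) (n o : ℤ) :
    ((muT M n ^ o : ℂˣ) : ℂ) = Complex.exp (2 * π * Complex.I * n * o / M) := by
  rw [Units.val_zpow_eq_zpow_val, muT, Units.val_mk0, ← Complex.exp_int_mul]
  congr 1
  ring

/-- a semi-invariant function under a translation. -/
theorem shift_multiplier {M : ℕ} [NeZero M] {F : ℍ → ℂ} (hF : MeroInf M F) (hF0 : F ≠ 0) (n : ℤ)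
    (w : ℂ) (h : ∀ τ, F ((n : ℝ) +ᵥ τ) = w * F τ) : w = ((muT M n ^ (lau M F).order : ℂˣ) : ℂ) := by
  have hL : lau M F ≠ 0 := by
    rw [Ne, lau_eq_zero_iff hF]
    exact hF0
  have h1 := coeff_lau_shift hF n (lau M F).order
  have h2 : (fun τ => F ((n : ℝ) +ᵥ τ)) = (fun _ => w) * F := by
    funext τ
    exact h τ
  rw [h2, lau_mul (MeroInf.const M w) hF, lau_const, HahnSeries.C_mul_eq_smul,
    HahnSeries.coeff_smul, smul_eq_mul] at h1
  have hc : (lau M F).coeff (lau M F).order ≠ 0 :=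
    fun h0 => hL (HahnSeries.coeff_order_eq_zero.mp h0)
  rw [coe_muT_zpow]
  exact mul_right_cancel₀ hc h1

/-- `x ^ m` bounded implies `x` bounded. -/
lemma bdd_of_pow_bdd {x : ℍ → ℂ} {m : ℕ} (hm : 0 < m) (h : IsBoundedAtImInfty (x ^ m)) :
    IsBoundedAtImInfty x := by
  rw [UpperHalfPlane.isBoundedAtImInfty_iff] at h ⊢
  obtain ⟨B, A, hB⟩ := h
  refine ⟨max 1 B, A, fun z hz => ?_⟩
  have h1 := hB z hz
  rw [Pi.pow_apply, norm_pow] at h1
  by_cases h2 : ‖x z‖ ≤ 1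
  · exact le_max_of_le_left h2
  · push Not at h2
    exact le_max_of_le_right ((le_self_pow₀ h2.le hm.ne').trans h1)

lemma bdd_disc_pow (k : ℕ) : IsBoundedAtImInfty (Δ ^ k : ℍ → ℂ) := by
  induction k with
  | zero => rw [pow_zero]; exact Filter.const_boundedAtFilter atImInfty (1 : ℂ)
  | succ k ih => rw [pow_succ]; exact ih.mul nice_disc_one.bdd

/-- an `m`-th root of a function with a pole at `i∞` has a pole at `i∞`. -/
lemma pole_of_pow {H G : ℍ → ℂ} {m : ℕ} (hm : 0 < m) (hHG : H ^ m = G)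
    (hG : ∃ k : ℕ, IsBoundedAtImInfty (G * Δ ^ k)) : ∃ k : ℕ, IsBoundedAtImInfty (H * Δ ^ k) := by
  obtain ⟨k, hk⟩ := hG
  refine ⟨k, bdd_of_pow_bdd hm ?_⟩
  have e : (H * Δ ^ k) ^ m = (G * Δ ^ k) * Δ ^ (k * (m - 1)) := by
    rw [mul_pow, hHG, mul_assoc, ← pow_mul, ← pow_add]
    congr 2
    obtain ⟨q, rfl⟩ : ∃ q, m = q + 1 := ⟨m - 1, by omega⟩
    simp only [Nat.add_sub_cancel]
    ring
  rw [e]
  exact hk.mul (bdd_disc_pow _)

end FAT
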