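import Fermat.Agent.Tate.Surj2

/-! PROJECT T, [T-SURJ] part 3: the character of an `m`-th root is trivial on parabolic elements. -/

set_option autoImplicit false

open UpperHalfPlane ModularForm Function CongruenceSubgroup FA24 FA_IS AlgebraicCurve
open scoped Manifold MatrixGroups Real Topology

namespace FAT

local notation "Δ" => ModularForm.discriminant

variable {N : ℕ} [NeZero N]

lemma smul_vadd_eq (r : SL(2, ℤ)) (n : ℤ) (τ : ℍ) :
    r • ((n : ℝ) +ᵥ τ) = (r * ModularGroup.T ^ n * r⁻¹) • r • τ := by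
  rw [← T_zpow_smul, mul_smul, mul_smul, inv_smul_smul]

lemma trnM_mk_inv (r : SL(2, ℤ)) (g : RN N) :
    (trnM (((r⁻¹ : SL(2, ℤ)) : XN N)) g).1 = fun τ => g.1 (r • τ) := by
  rw [trnM_val, trn_eq_of_mk g.2, inv_inv]

section

variable {m : ℕ} [NeZero m] {g : RN N} {h : ℍ → ℂ} {c : ↥(Gamma0 N) →* ℂˣ}

/-- the translates of the root are meromorphic at `i∞` of level `N m`. -/
theorem meroInf_root (hol : MDiff h) (hpow : h ^ m = g.1) (hcm : ∀ γ, c γ ^ m = 1)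
    (hT : FAG.IsTw c h) (r : SL(2, ℤ)) : MeroInf (N * m) (fun τ => h (r • τ)) := by
  have hm : 0 < m := Nat.pos_of_ne_zero (NeZero.ne m)
  refine ⟨FAG.periodic_of_vadd_nat (N * m) fun τ => ?_, mdiff_comp_smul hol r,
    pole_of_pow hm (G := fun τ => g.1 (r • τ)) ?_ (RN.mero g.2 r).pole⟩
  · have e0 : (((N * m : ℕ) : ℝ)) = (((N * m : ℕ) : ℤ) : ℝ) := by push_cast; ring
    rw [e0, smul_vadd_eq]
    have e1 : r * ModularGroup.T ^ (((N * m : ℕ) : ℤ)) * r⁻¹ =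
        (r * ModularGroup.T ^ (N : ℤ) * r⁻¹) ^ m := by
      rw [conj_pow, ← zpow_natCast (ModularGroup.T ^ (N : ℤ)) m, ← zpow_mul]
      push_cast
      rfl
    rw [e1]
    have h1 := hT (⟨_, FAG.conj_T_mem (N := N) r⟩ ^ m) (r • τ)
    rw [map_pow, hcm, Units.val_one, one_mul] at h1
    exact h1
  · funext τ
    exact congrFun hpow (r • τ)

/-- **the cusps.** -/
theorem char_conj_T (hol : MDiff h) (hpow : h ^ m = g.1) (hne : h ≠ 0) (hcm : ∀ γ, c γ ^ m = 1)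
    (hT : FAG.IsTw c h)
    (hdiv : ∀ v : Place ℂ (FAGP.FN ℂ N),
      (m : ℤ) ∣ v.ord (FAGP.ThetaEquiv.symm (algebraMap (RN N) (FR N) g)))
    (r : SL(2, ℤ)) (n : ℤ) (hγ : r * ModularGroup.T ^ n * r⁻¹ ∈ Gamma0 N) : c ⟨_, hγ⟩ = 1 := by
  have hm : 0 < m := Nat.pos_of_ne_zero (NeZero.ne m)
  set k : XN N := ((r⁻¹ : SL(2, ℤ)) : XN N) with hk
  set H : ℍ → ℂ := fun τ => h (r • τ) with hH
  have hHm : MeroInf (N * m) H := meroInf_root hol hpow hcm hT r
  have hH0 : H ≠ 0 := by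
    intro h0
    apply hne
    funext τ
    have := congrFun h0 (r⁻¹ • τ)
    simpa [hH] using this
  have hg0 : g ≠ 0 := by
    rintro rfl
    exact hne (pow_eq_zero_iff hm.ne' |>.mp hpow)
  have hf0 : (FAGP.ThetaEquiv.symm (algebraMap (RN N) (FR N) g) : FAGP.FN ℂ N) ≠ 0 := by
    rw [Ne, EmbeddingLike.map_eq_zero_iff, map_eq_zero_iff _ (IsFractionRing.injective (RN N) (FR N))]
    exact hg0
  -- the function `1 / j`
  have hjne : lau (N * m) jf ≠ 0 := by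
    intro h0
    have := order_lau_jf (N := N * m)
    rw [h0, HahnSeries.order_zero] at this
    have hN' : ((N * m : ℕ) : ℤ) ≠ 0 := by exact_mod_cast NeZero.ne (N * m)
    omega
  have hy : 0 < (FAGP.br (expInfM m) k (FAGP.xN ℂ N)⁻¹).order := by
    have e : FAGP.br (expInfM m) k (FAGP.xN ℂ N)⁻¹ = (lau (N * m) jf)⁻¹ := by
      rw [map_inv₀, FAGP.br_xN, expInfM_apply]
      rfl
    rw [e]
    have h1 := HahnSeries.order_mul hjne (inv_ne_zero hjne)
    rw [mul_inv_cancel₀ hjne, HahnSeries.order_one, order_lau_jf] at h1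
    have hN' : (0 : ℤ) < ((N * m : ℕ) : ℤ) := by
      exact_mod_cast Nat.pos_of_ne_zero (NeZero.ne (N * m))
    omega
  -- invariance of the modular functions
  have hinv : ∀ f : FAGP.FN ℂ N, f ≠ 0 →
      muT (N * m) n ^ (FAGP.br (expInfM m) k f).order = 1 := by
    refine hinv_of_RN _ _ _ fun g' hg' => ?_
    have h1 : (trnM k g').1 ≠ 0 := fun h0 =>
      (map_ne_zero_iff _ (trnM_injective k)).mpr hg' (Subtype.ext h0)
    have h2 := shift_multiplier (meroInf_mul (MN.mero (trnM k g').2) m) h1 n 1 (fun τ => by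
      rw [trnM_mk_inv, one_mul]
      show g'.1 (r • ((n : ℝ) +ᵥ τ)) = g'.1 (r • τ)
      rw [smul_vadd_eq]
      exact RN.inv g'.2 hγ _)
    apply Units.ext
    rw [expInfM_apply, ← h2, Units.val_one]
  have ho : (m : ℤ) * (lau (N * m) H).order =
      (FAGP.br (expInfM m) k (FAGP.ThetaEquiv.symm (algebraMap (RN N) (FR N) g))).order := by
    rw [FAGP.br_ThetaEquiv_symm, expInfM_apply, trnM_mk_inv]
    have e : (fun τ => g.1 (r • τ)) = H ^ m := by
      funext τ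
      exact (congrFun hpow (r • τ)).symm
    rw [e, FAIg.lau_pow hHm, HahnSeries.order_pow, nsmul_eq_mul]
  have h3 := mult_trivial hm (FAGP.br (expInfM m) k) (fun a => FAGP.br_algebraMap _ _ a) _ hy
    (muT (N * m) n) hinv _ hf0 hdiv _ ho
  have h4 := shift_multiplier hHm hH0 n (c ⟨_, hγ⟩ : ℂ) (fun τ => by
    simp only [hH]
    rw [smul_vadd_eq]
    exact hT ⟨_, hγ⟩ (r • τ))
  rw [h3] at h4
  exact Units.ext h4

lemma char_neg_one (hne : h ≠ 0) (hT : FAG.IsTw c h) : c ⟨-1, FAG.neg_one_mem⟩ = 1 := by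
  obtain ⟨τ₀, hτ₀⟩ : ∃ τ, h τ ≠ 0 := by
    by_contra hcon
    push Not at hcon
    exact hne (funext hcon)
  have h1 := hT ⟨-1, FAG.neg_one_mem⟩ τ₀
  have e : ((-1 : SL(2, ℤ))) • τ₀ = τ₀ := by
    rw [ModularGroup.SL_neg_smul, one_smul]
  simp only [e] at h1
  apply Units.ext
  exact (mul_right_cancel₀ hτ₀ ((one_mul _).trans h1)).symm

/-- the character is trivial on the elements of trace `± 2`. -/
theorem char_isParCh
    (hP9 : ∀ γ : SL(2, ℤ), (γ : Matrix (Fin 2) (Fin 2) ℤ).trace ^ 2 = 4 →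
      ∃ (r : SL(2, ℤ)) (n : ℤ), γ = r * ModularGroup.T ^ n * r⁻¹ ∨
        γ = -(r * ModularGroup.T ^ n * r⁻¹))
    (hol : MDiff h) (hpow : h ^ m = g.1) (hne : h ≠ 0) (hcm : ∀ γ, c γ ^ m = 1)
    (hT : FAG.IsTw c h)
    (hdiv : ∀ v : Place ℂ (FAGP.FN ℂ N),
      (m : ℤ) ∣ v.ord (FAGP.ThetaEquiv.symm (algebraMap (RN N) (FR N) g))) : FAG.IsParCh c := by
  intro γ hγ
  obtain ⟨r, n, h1 | h1⟩ := hP9 γ hγ
  · have hmem : r * ModularGroup.T ^ n * r⁻¹ ∈ Gamma0 N := h1 ▸ γ.2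
    have e : γ = ⟨_, hmem⟩ := Subtype.ext h1
    rw [e]
    exact char_conj_T hol hpow hne hcm hT hdiv r n hmem
  · have hmem : r * ModularGroup.T ^ n * r⁻¹ ∈ Gamma0 N := by
      have h2 : r * ModularGroup.T ^ n * r⁻¹ = (-1) * (γ : SL(2, ℤ)) := by
        rw [h1]
        simp
      rw [h2]
      exact (Gamma0 N).mul_mem FAG.neg_one_mem γ.2
    have e : γ = ⟨-1, FAG.neg_one_mem⟩ * ⟨_, hmem⟩ := by
      apply Subtype.ext
      show (γ : SL(2, ℤ)) = (-1) * (r * ModularGroup.T ^ n * r⁻¹)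
      rw [h1]
      simp
    rw [e, map_mul, char_neg_one hne hT, char_conj_T hol hpow hne hcm hT hdiv r n hmem, one_mul]

/-- the root lies in `MN N`. -/
theorem root_mem_MN (hol : MDiff h) (hpow : h ^ m = g.1) (hcm : ∀ γ, c γ ^ m = 1)
    (hT : FAG.IsTw c h) (hpar : FAG.IsParCh c) : h ∈ MN N := by
  intro r
  have h1 := meroInf_root hol hpow hcm hT r
  exact ⟨FAG.periodic_of_vadd_nat N fun τ => hT.vadd hpar r τ, h1.hol, h1.pole⟩

end

end FAT
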