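import Mathlib

/-!
# PROJECT T, [T-HECKE], abstract half: transport of an algebra of operators to a lattice.
-/

set_option autoImplicit false

namespace FAT

section

variable {X Y Λ : Type*} [AddCommGroup X] [Module ℂ X] [AddCommGroup Y] [Module ℂ Y]
  [AddCommGroup Λ] (Φ : X × X →ₗ[ℂ] Y) (ι : Λ →+ Y)

/-- the correspondence between operators on `X` and operators on the lattice. -/
def ThRel (a : Module.End ℂ X) (b : Module.End ℤ Λ) : Prop :=
  ∀ x f g, Φ (f, g) = ι x → Φ (a f, a g) = ι (b x)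

variable {Φ ι}

lemma ThRel.unique (hι : Function.Injective ι) (h2 : ∀ x : Λ, ∃ fg, Φ fg = ι x)
    {a : Module.End ℂ X} {b b' : Module.End ℤ Λ} (h : ThRel Φ ι a b) (h' : ThRel Φ ι a b') :
    b = b' := by
  ext x
  obtain ⟨⟨f, g⟩, hfg⟩ := h2 x
  exact hι ((h x f g hfg).symm.trans (h' x f g hfg))

lemma ThRel.mul {a a' : Module.End ℂ X} {b b' : Module.End ℤ Λ} (h : ThRel Φ ι a b)
    (h' : ThRel Φ ι a' b') : ThRel Φ ι (a * a') (b * b') := fun x f g hfg =>
  h _ _ _ (h' x f g hfg)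

lemma ThRel.add {a a' : Module.End ℂ X} {b b' : Module.End ℤ Λ} (h : ThRel Φ ι a b)
    (h' : ThRel Φ ι a' b') : ThRel Φ ι (a + a') (b + b') := fun x f g hfg => by
  have e : ((a + a') f, (a + a') g) = (a f, a g) + (a' f, a' g) := rfl
  rw [e, map_add, h x f g hfg, h' x f g hfg, LinearMap.add_apply, map_add]

lemma ThRel.algMap (n : ℤ) :
    ThRel Φ ι (algebraMap ℤ (Module.End ℂ X) n) (algebraMap ℤ (Module.End ℤ Λ) n) :=
  fun x f g hfg => by
    have e : ((algebraMap ℤ (Module.End ℂ X) n) f, (algebraMap ℤ (Module.End ℂ X) n) g) =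
        n • (f, g) := by
      simp
    rw [e, map_zsmul, hfg, Module.algebraMap_end_apply, map_zsmul]

lemma ThRel.eq_zero (hΦ : Function.Injective Φ) (h2 : ∀ x : Λ, ∃ fg, Φ fg = ι x)
    (h3 : ∀ fg, Φ fg ∈ Submodule.span ℂ (Set.range ι)) {a : Module.End ℂ X}
    (h : ThRel Φ ι a 0) : a = 0 := by
  let Z : Submodule ℂ (X × X) := LinearMap.ker (a.prodMap a)
  have h4 : Submodule.span ℂ (Set.range ι) ≤ Z.map Φ := by
    rw [Submodule.span_le]
    rintro _ ⟨x, rfl⟩
    obtain ⟨⟨f, g⟩, hfg⟩ := h2 x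
    refine ⟨(f, g), ?_, hfg⟩
    have := h x f g hfg
    rw [LinearMap.zero_apply, map_zero] at this
    exact hΦ (this.trans (map_zero Φ).symm)
  ext f
  obtain ⟨z, hz, hzf⟩ := h4 (h3 (f, 0))
  have := hΦ hzf
  subst this
  exact congrArg Prod.fst hz

theorem exists_theta_abs (hΦ : Function.Injective Φ) (hι : Function.Injective ι)
    (h2 : ∀ x : Λ, ∃ fg, Φ fg = ι x) (h3 : ∀ fg, Φ fg ∈ Submodule.span ℂ (Set.range ι))
    (gens : Set (Module.End ℂ X))
    (hgen : ∀ a ∈ gens, ∃ b : Module.End ℤ Λ, ∀ x f g, Φ (f, g) = ι x → Φ (a f, a g) = ι (b x)) :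
    ∃ θ : Algebra.adjoin ℤ gens →+* Module.End ℤ Λ, Function.Injective θ ∧
      ∀ (a : Algebra.adjoin ℤ gens) (b : Module.End ℤ Λ),
        (∀ x f g, Φ (f, g) = ι x →
          Φ ((a : Module.End ℂ X) f, (a : Module.End ℂ X) g) = ι (b x)) → θ a = b := by
  have hex : ∀ a ∈ Algebra.adjoin ℤ gens, ∃ b, ThRel Φ ι a b := by
    intro a ha
    induction ha using Algebra.adjoin_induction with
    | mem a ha => exact hgen a ha
    | algebraMap n => exact ⟨_, ThRel.algMap n⟩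
    | add a a' _ _ h h' =>
      obtain ⟨b, hb⟩ := h
      obtain ⟨b', hb'⟩ := h'
      exact ⟨_, hb.add hb'⟩
    | mul a a' _ _ h h' =>
      obtain ⟨b, hb⟩ := h
      obtain ⟨b', hb'⟩ := h'
      exact ⟨_, hb.mul hb'⟩
  choose! F hF using hex
  have huniq : ∀ (a : Algebra.adjoin ℤ gens) b, ThRel Φ ι (a : Module.End ℂ X) b → F a = b :=
    fun a b hb => (hF a a.2).unique hι h2 hb
  have h1 : ThRel Φ ι (1 : Module.End ℂ X) (1 : Module.End ℤ Λ) := fun x f g hfg => hfg
  have h0 : ThRel Φ ι (0 : Module.End ℂ X) (0 : Module.End ℤ Λ) := fun x f g hfg => by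
    show Φ (0, 0) = ι 0
    rw [map_zero]
    exact map_zero Φ
  let θ : Algebra.adjoin ℤ gens →+* Module.End ℤ Λ :=
    { toFun := fun a => F a
      map_one' := huniq 1 1 h1
      map_mul' := fun a a' => huniq (a * a') _ ((hF a a.2).mul (hF a' a'.2))
      map_zero' := huniq 0 0 h0
      map_add' := fun a a' => huniq (a + a') _ ((hF a a.2).add (hF a' a'.2)) }
  refine ⟨θ, ?_, huniq⟩
  rw [injective_iff_map_eq_zero]
  intro a ha
  have : ThRel Φ ι (a : Module.End ℂ X) 0 := by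
    have h := hF a a.2
    rwa [show F a = 0 from ha] at h
  exact Subtype.ext (this.eq_zero hΦ h2 h3)

end

end FAT
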